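import Mathlib.Analysis.PSeries
import Fermat.Agent.MertensThird.Extreme

/-!
# Random residue classes

For random classes modulo the primes of `S`, all above `P₀`, a set of `j` naturals up to `N`
survives with probability `σ ^ j` up to the factor `1 ± δ`, `σ = ∏ (1 - 1 / s)`, as soon as
`exp (4 J ^ 2 log N / P₀) ≤ 1 + δ`, `j ≤ J`.
-/

set_option autoImplicit false

noncomputable section

namespace FA.MaynardGaps

open Finset

variable {S : Finset ℕ}

/-- The choices of a class for each `s ∈ S`. -/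
def classes (S : Finset ℕ) : Finset (∀ s ∈ S, ℕ) := S.pi fun s => range s

/-- `A` avoids the chosen classes. -/
def surv (S : Finset ℕ) (a : ∀ s ∈ S, ℕ) (A : Finset ℕ) : ℝ :=
  ∏ s ∈ S.attach, if a s.1 s.2 ∈ A.image (· % s.1) then 0 else 1

/-- The mean over the choices. -/
def mean (S : Finset ℕ) (F : (∀ s ∈ S, ℕ) → ℝ) : ℝ :=
  (∑ a ∈ classes S, F a) / ∏ s ∈ S, (s : ℝ)

/-- The probability that `A` survives. -/
def survProb (S A : Finset ℕ) : ℝ := ∏ s ∈ S, (1 - ((A.image (· % s)).card : ℝ) / s)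

/-- `∏ (1 - 1 / s)`. -/
def sieveDensity (S : Finset ℕ) : ℝ := ∏ s ∈ S, (1 - 1 / (s : ℝ))

theorem mean_surv (hS : ∀ s ∈ S, 0 < s) (A : Finset ℕ) :
    mean S (fun a => surv S a A) = survProb S A := by
  have h := prod_sum S (fun s => range s)
    fun s b => if b ∈ A.image (· % s) then (0 : ℝ) else 1
  simp only [mean, classes, surv, ← h, ← prod_div_distrib, survProb]
  refine prod_congr rfl fun s hs => ?_
  have hsub : A.image (· % s) ⊆ range s := fun b hb => by
    obtain ⟨n, -, rfl⟩ := mem_image.1 hb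
    exact mem_range.2 (Nat.mod_lt _ (hS s hs))
  have hs0 : (s : ℝ) ≠ 0 := Nat.cast_ne_zero.2 (hS s hs).ne'
  rw [sum_ite, sum_const_zero, zero_add, sum_const, nsmul_one, filter_not, filter_mem_eq_inter,
    inter_eq_right.2 hsub, card_sdiff_of_subset hsub, card_range,
    Nat.cast_sub ((card_le_card hsub).trans (card_range s).le), sub_div, div_self hs0]

theorem surv_mem (a : ∀ s ∈ S, ℕ) (A : Finset ℕ) : surv S a A = 0 ∨ surv S a A = 1 := by
  by_cases h : ∃ s ∈ S.attach, a s.1 s.2 ∈ A.image (· % s.1)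
  · obtain ⟨s, hs, hm⟩ := h
    exact Or.inl (prod_eq_zero hs (if_pos hm))
  · push Not at h
    exact Or.inr (prod_eq_one fun s hs => if_neg (h s hs))

theorem surv_nonneg (a : ∀ s ∈ S, ℕ) (A : Finset ℕ) : 0 ≤ surv S a A := by
  rcases surv_mem a A with h | h <;> simp [h]

theorem surv_le_one (a : ∀ s ∈ S, ℕ) (A : Finset ℕ) : surv S a A ≤ 1 := by
  rcases surv_mem a A with h | h <;> simp [h]

theorem surv_mul (a : ∀ s ∈ S, ℕ) (A B : Finset ℕ) :
    surv S a A * surv S a B = surv S a (A ∪ B) := by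
  simp only [surv, ← prod_mul_distrib]
  refine prod_congr rfl fun s _ => ?_
  by_cases h1 : a s.1 s.2 ∈ A.image (· % s.1) <;> by_cases h2 : a s.1 s.2 ∈ B.image (· % s.1) <;>
    simp [h1, h2, image_union]

theorem surv_mul_self (a : ∀ s ∈ S, ℕ) (A : Finset ℕ) :
    surv S a A * surv S a A = surv S a A := by rw [surv_mul, union_self]

theorem surv_anti (a : ∀ s ∈ S, ℕ) {A B : Finset ℕ} (h : A ⊆ B) : surv S a B ≤ surv S a A := by
  rw [← union_eq_right.2 h, ← surv_mul]
  exact mul_le_of_le_one_right (surv_nonneg a A) (surv_le_one a B)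

theorem mul_surv_of_mem (a : ∀ s ∈ S, ℕ) {A : Finset ℕ} {n : ℕ} (hn : n ∈ A) :
    surv S a {n} * surv S a A = surv S a A := by
  rw [surv_mul, union_eq_right.2 (singleton_subset_iff.2 hn)]

theorem surv_eq_one {a : ∀ s ∈ S, ℕ} {n : ℕ} (h : surv S a {n} = 1) :
    ∀ s (hs : s ∈ S), n % s ≠ a s hs := fun s hs e => by
  have h0 : surv S a {n} = 0 := prod_eq_zero (mem_attach S ⟨s, hs⟩) (if_pos (by simp [e]))
  rw [h] at h0
  exact one_ne_zero h0

theorem mean_add (F G : (∀ s ∈ S, ℕ) → ℝ) :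
    mean S (fun a => F a + G a) = mean S F + mean S G := by
  simp only [mean, sum_add_distrib, add_div]

theorem mean_const_mul (c : ℝ) (F : (∀ s ∈ S, ℕ) → ℝ) :
    mean S (fun a => c * F a) = c * mean S F := by
  simp only [mean, ← mul_sum, mul_div_assoc]

theorem mean_sum {ι : Type*} (T : Finset ι) (F : ι → (∀ s ∈ S, ℕ) → ℝ) :
    mean S (fun a => ∑ i ∈ T, F i a) = ∑ i ∈ T, mean S (F i) := by
  simp only [mean, sum_comm (s := classes S), sum_div]

theorem mean_mono {F G : (∀ s ∈ S, ℕ) → ℝ} (h : ∀ a ∈ classes S, F a ≤ G a) :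
    mean S F ≤ mean S G :=
  div_le_div_of_nonneg_right (sum_le_sum h) (prod_nonneg fun s _ => Nat.cast_nonneg s)

theorem mean_nonneg {F : (∀ s ∈ S, ℕ) → ℝ} (h : ∀ a ∈ classes S, 0 ≤ F a) : 0 ≤ mean S F :=
  div_nonneg (sum_nonneg h) (prod_nonneg fun s _ => Nat.cast_nonneg s)

theorem exists_le_mean (hS : ∀ s ∈ S, 0 < s) (F : (∀ s ∈ S, ℕ) → ℝ) :
    ∃ a ∈ classes S, F a ≤ mean S F := by
  have hne : (classes S).Nonempty := by
    rw [classes, pi_nonempty]
    exact fun s hs => nonempty_range_iff.2 (hS s hs).ne'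
  obtain ⟨a, ha, h⟩ := exists_le_of_sum_le hne (f := F) (g := fun _ => mean S F) (by
    rw [sum_const, nsmul_eq_mul, classes, card_pi]
    simp only [card_range]
    rw [Nat.cast_prod, mean, classes,
      mul_div_cancel₀ _ (prod_pos fun s hs => Nat.cast_pos.2 (hS s hs)).ne'])
  exact ⟨a, ha, h⟩

/-- The collisions modulo `s` bound the classes which are lost. -/
theorem card_sub_image_le (A : Finset ℕ) (s : ℕ) :
    A.card ≤ (A.image (· % s)).card +
      ((A ×ˢ A).filter fun e => e.1 < e.2 ∧ s ∣ e.2 - e.1).card := by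
  classical
  obtain ⟨N, hN⟩ : ∃ N, N = A.filter fun n => ∃ m ∈ A, n < m ∧ n % s = m % s := ⟨_, rfl⟩
  have h1 : (A \ N).card ≤ (A.image (· % s)).card := by
    refine card_le_card_of_injOn (· % s) (fun n hn => ?_) fun n hn m hm h => ?_
    · rw [mem_coe, mem_sdiff] at hn
      exact mem_coe.2 (mem_image_of_mem _ hn.1)
    · rw [mem_coe, mem_sdiff, hN, mem_filter] at hn hm
      rcases lt_trichotomy n m with h' | h' | h'
      · exact absurd ⟨hn.1, m, hm.1, h', h⟩ hn.2
      · exact h'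
      · exact absurd ⟨hm.1, n, hn.1, h', h.symm⟩ hm.2
  have h2 : N.card ≤ ((A ×ˢ A).filter fun e => e.1 < e.2 ∧ s ∣ e.2 - e.1).card := by
    refine le_trans (card_le_card fun n hn => ?_) (card_image_le (f := Prod.fst))
    rw [hN, mem_filter] at hn
    obtain ⟨hn, m, hm, hlt, he⟩ := hn
    exact mem_image.2 ⟨(n, m), mem_filter.2
      ⟨mem_product.2 ⟨hn, hm⟩, hlt, (Nat.modEq_iff_dvd' hlt.le).1 he⟩, rfl⟩
  have h3 : N ⊆ A := hN ▸ filter_subset _ _
  rw [card_sdiff_of_subset h3] at h1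
  omega

theorem card_prime_divisors_le {d N : ℕ} (hd : 0 < d) (hdN : d ≤ N) (hS : ∀ s ∈ S, s.Prime) :
    ((S.filter (· ∣ d)).card : ℝ) ≤ 2 * Real.log N := by
  have h : ∏ s ∈ S.filter (· ∣ d), s ∣ d := by
    refine (prod_dvd_prod_of_subset _ _ _ fun s hs => ?_).trans d.prod_primeFactors_dvd
    rw [mem_filter] at hs
    exact Nat.mem_primeFactors.2 ⟨hS s hs.1, hs.2, hd.ne'⟩
  have h2 : 2 ^ (S.filter (· ∣ d)).card ≤ N := by
    rw [← prod_const]
    exact (prod_le_prod' fun s hs => (hS s (mem_filter.1 hs).1).two_le).trans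
      ((Nat.le_of_dvd hd h).trans hdN)
  have h3 := Real.log_le_log (by positivity)
    (Nat.cast_le.2 h2 : ((2 ^ (S.filter (· ∣ d)).card : ℕ) : ℝ) ≤ N)
  rw [Nat.cast_pow, Real.log_pow, Nat.cast_ofNat] at h3
  have := mul_le_mul_of_nonneg_left (show (1 / 2 : ℝ) ≤ Real.log 2 by
    linarith [Real.log_two_gt_d9]) (Nat.cast_nonneg (α := ℝ) (S.filter (· ∣ d)).card)
  linarith

/-- What is asked of `S`, `J`, `N` and `δ`. -/
structure SieveScale (S : Finset ℕ) (J N P₀ : ℕ) (δ : ℝ) : Prop where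
  prime : ∀ s ∈ S, s.Prime
  large : ∀ s ∈ S, P₀ < s
  size : 2 * J ≤ P₀
  pos : 1 ≤ P₀
  exp_le : Real.exp (4 * (J : ℝ) ^ 2 * Real.log N / P₀) ≤ 1 + δ
  sq_le : (J : ℝ) ^ 2 / P₀ ≤ δ

variable {J N P₀ : ℕ} {δ : ℝ}

theorem SieveScale.nonneg (h : SieveScale S J N P₀ δ) : 0 ≤ δ :=
  (div_nonneg (sq_nonneg _) (Nat.cast_nonneg _)).trans h.sq_le

theorem SieveScale.density_pos (h : SieveScale S J N P₀ δ) : 0 < sieveDensity S :=
  prod_pos fun s hs => sub_pos.2 (by
    rw [div_lt_one (Nat.cast_pos.2 (h.prime s hs).pos)]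
    exact Nat.one_lt_cast.2 (h.prime s hs).one_lt)

theorem SieveScale.density_le_one (h : SieveScale S J N P₀ δ) : sieveDensity S ≤ 1 :=
  prod_le_one (fun s hs => by
    rw [sub_nonneg, div_le_one (Nat.cast_pos.2 (h.prime s hs).pos)]
    exact Nat.one_le_cast.2 (h.prime s hs).one_le) fun s _ => sub_le_self _ (by positivity)

theorem survProb_singleton (n : ℕ) : survProb S {n} = sieveDensity S := by
  simp [survProb, sieveDensity]

theorem SieveScale.survProb_le (h : SieveScale S J N P₀ δ) {A : Finset ℕ} (hA : A.card ≤ J)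
    (hN : ∀ n ∈ A, n ≤ N) : survProb S A ≤ sieveDensity S ^ A.card * (1 + δ) := by
  obtain ⟨E, hE⟩ : ∃ E, E = (A ×ˢ A).filter fun e => e.1 < e.2 := ⟨_, rfl⟩
  obtain ⟨c, hc⟩ : ∃ c : ℕ → ℕ, c = fun s => (E.filter fun e => s ∣ e.2 - e.1).card := ⟨_, rfl⟩
  have hjs : ∀ s ∈ S, 2 * (A.card : ℝ) ≤ s := fun s hs => by
    have := h.large s hs
    have := h.size
    exact_mod_cast (show 2 * A.card ≤ s by omega)
  have hstep : ∀ s ∈ S, 1 - ((A.image (· % s)).card : ℝ) / s ≤
      (1 - 1 / (s : ℝ)) ^ A.card * Real.exp (2 * c s / s) := fun s hs => by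
    have hs0 : (0 : ℝ) < s := Nat.cast_pos.2 (h.prime s hs).pos
    have hs1 : (1 : ℝ) ≤ s := Nat.one_le_cast.2 (h.prime s hs).one_le
    have h1 : (A.card : ℝ) ≤ (A.image (· % s)).card + c s := by
      simp only [hc, hE, filter_filter]
      exact_mod_cast card_sub_image_le A s
    have h2 : 1 - (A.card : ℝ) / s ≤ (1 - 1 / (s : ℝ)) ^ A.card := by
      have := one_add_mul_le_pow (a := -(1 / (s : ℝ))) (by
        have : 1 / (s : ℝ) ≤ 1 := (div_le_one hs0).2 hs1
        linarith) A.card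
      rw [← sub_eq_add_neg] at this
      refine le_trans (le_of_eq ?_) this
      ring
    have h3 : 1 / 2 ≤ (1 - 1 / (s : ℝ)) ^ A.card := by
      refine le_trans ?_ h2
      have : (A.card : ℝ) / s ≤ 1 / 2 := by
        rw [div_le_iff₀ hs0]
        linarith [hjs s hs]
      linarith
    refine le_trans ?_ (mul_le_mul_of_nonneg_left (Real.add_one_le_exp _) (by linarith))
    have h4 : 0 ≤ 2 * (c s : ℝ) / s := by positivity
    have h5 := mul_le_mul_of_nonneg_right h3 h4
    have h6 := div_le_div_of_nonneg_right h1 hs0.le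
    rw [add_div] at h6
    obtain ⟨w, hw⟩ : ∃ w, w = (1 - 1 / (s : ℝ)) ^ A.card := ⟨_, rfl⟩
    rw [← hw] at h2 h5 ⊢
    obtain ⟨e, he⟩ : ∃ e, e = (c s : ℝ) / s := ⟨_, rfl⟩
    rw [← he] at h6
    rw [mul_div_assoc, ← he] at h5 ⊢
    linarith
  have hsum : ∑ s ∈ S, 2 * (c s : ℝ) / s ≤ 4 * (J : ℝ) ^ 2 * Real.log N / P₀ := by
    refine (sum_le_sum (g := fun s => 2 / (P₀ : ℝ) * c s) fun s hs => ?_).trans ?_
    · rw [div_mul_eq_mul_div]
      exact div_le_div_of_nonneg_left (by positivity)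
        (Nat.cast_pos.2 h.pos) (Nat.cast_le.2 (h.large s hs).le)
    rw [← mul_sum]
    have hswap : ∑ s ∈ S, (c s : ℝ) = ∑ e ∈ E, ((S.filter (· ∣ e.2 - e.1)).card : ℝ) := by
      simp only [hc, card_filter, Nat.cast_sum]
      rw [sum_comm]
    have hb : ∑ e ∈ E, ((S.filter (· ∣ e.2 - e.1)).card : ℝ) ≤
        (J : ℝ) ^ 2 * (2 * Real.log N) := by
      refine (sum_le_card_nsmul _ _ (2 * Real.log N) fun e he => ?_).trans ?_
      · rw [hE, mem_filter, mem_product] at he
        exact card_prime_divisors_le (by omega) (le_trans (Nat.sub_le _ _) (hN _ he.1.2)) h.prime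
      · rw [nsmul_eq_mul]
        refine mul_le_mul_of_nonneg_right ?_ (by positivity)
        rw [hE, sq, ← Nat.cast_mul]
        refine Nat.cast_le.2 ((card_filter_le _ _).trans ?_)
        rw [card_product]
        exact Nat.mul_le_mul hA hA
    rw [hswap]
    refine (mul_le_mul_of_nonneg_left hb (by positivity)).trans (le_of_eq ?_)
    ring
  calc survProb S A ≤ ∏ s ∈ S, (1 - 1 / (s : ℝ)) ^ A.card * Real.exp (2 * c s / s) := by
        refine prod_le_prod (fun s hs => sub_nonneg.2 ?_) hstep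
        rw [div_le_one (Nat.cast_pos.2 (h.prime s hs).pos)]
        have := hjs s hs
        have : ((A.image (· % s)).card : ℝ) ≤ A.card := Nat.cast_le.2 card_image_le
        linarith [Nat.cast_nonneg (α := ℝ) A.card]
    _ = sieveDensity S ^ A.card * Real.exp (∑ s ∈ S, 2 * c s / s) := by
        rw [prod_mul_distrib, prod_pow, Real.exp_sum, sieveDensity]
    _ ≤ _ := mul_le_mul_of_nonneg_left ((Real.exp_le_exp.2 hsum).trans h.exp_le)
        (pow_nonneg h.density_pos.le _)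

theorem SieveScale.le_survProb (h : SieveScale S J N P₀ δ) {A : Finset ℕ} (hA : A.card ≤ J) :
    sieveDensity S ^ A.card * (1 - δ) ≤ survProb S A := by
  have hjs : ∀ s ∈ S, (A.card : ℝ) / s ≤ 1 / 2 := fun s hs => by
    have := h.large s hs
    have := h.size
    rw [div_le_iff₀ (Nat.cast_pos.2 (h.prime s hs).pos)]
    have : 2 * (A.card : ℝ) ≤ s := by exact_mod_cast (show 2 * A.card ≤ s by omega)
    linarith
  have hstep : ∀ s ∈ S, (1 - 1 / (s : ℝ)) ^ A.card * (1 - ((A.card : ℝ) / s) ^ 2) ≤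
      1 - ((A.image (· % s)).card : ℝ) / s := fun s hs => by
    have hs0 : (0 : ℝ) < s := Nat.cast_pos.2 (h.prime s hs).pos
    have hs1 : (1 : ℝ) ≤ s := Nat.one_le_cast.2 (h.prime s hs).one_le
    obtain ⟨v, hv⟩ : ∃ v, v = (A.card : ℝ) / s := ⟨_, rfl⟩
    have hv0 : 0 ≤ v := by rw [hv]; positivity
    have hv1 : v ≤ 1 / 2 := hv ▸ hjs s hs
    have hs' : 0 ≤ 1 / (s : ℝ) ∧ 1 / (s : ℝ) ≤ 1 := ⟨by positivity, (div_le_one hs0).2 hs1⟩
    have h1 : (1 - 1 / (s : ℝ)) ^ A.card * (1 + v) ≤ 1 := by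
      have h0 : ((1 - 1 / (s : ℝ)) * (1 + 1 / (s : ℝ))) ^ A.card ≤ 1 :=
        pow_le_one₀ (mul_nonneg (by linarith) (by linarith)) (by nlinarith)
      rw [mul_pow] at h0
      refine le_trans (mul_le_mul_of_nonneg_left ?_ (pow_nonneg (by linarith) _)) h0
      refine le_trans (le_of_eq ?_) (one_add_mul_le_pow (by linarith) A.card)
      rw [hv]
      ring
    refine le_trans (le_of_eq ?_) ((mul_le_mul_of_nonneg_right h1
      (show 0 ≤ 1 - v by linarith)).trans ?_)
    · rw [← hv]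
      ring
    · rw [one_mul, hv]
      exact sub_le_sub_left (div_le_div_of_nonneg_right (Nat.cast_le.2 card_image_le) hs0.le) _
  refine le_trans ?_ (prod_le_prod (fun s hs => mul_nonneg (pow_nonneg ?_ _) ?_) hstep)
  · rw [prod_mul_distrib, prod_pow, sieveDensity]
    refine mul_le_mul_of_nonneg_left ?_ (pow_nonneg h.density_pos.le _)
    refine le_trans ?_ (FA.MertensThird.one_sub_sum_le_prod_one_sub S (fun s _ => sq_nonneg _)
      fun s hs => pow_le_one₀ (by positivity) ((hjs s hs).trans (by norm_num)))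
    refine sub_le_sub_left (le_trans ?_ h.sq_le) 1
    calc ∑ s ∈ S, ((A.card : ℝ) / s) ^ 2
        = (A.card : ℝ) ^ 2 * ∑ s ∈ S, ((s : ℝ) ^ 2)⁻¹ := by
          rw [mul_sum]
          exact sum_congr rfl fun s _ => by rw [div_pow, div_eq_mul_inv]
      _ ≤ (J : ℝ) ^ 2 * (P₀ : ℝ)⁻¹ := by
          refine mul_le_mul (pow_le_pow_left₀ (Nat.cast_nonneg _) (Nat.cast_le.2 hA) 2) ?_
            (sum_nonneg fun s _ => by positivity) (sq_nonneg _)
          refine (sum_le_sum_of_subset_of_nonneg (t := Ioc P₀ (max P₀ (S.sup id))) (fun s hs => ?_)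
            fun s _ _ => by positivity).trans
              ((sum_Ioc_inv_sq_le_sub (show P₀ ≠ 0 by have := h.pos; omega)
                (le_max_left _ _)).trans (by simp))
          exact mem_Ioc.2 ⟨h.large s hs, (le_sup (f := id) hs).trans (le_max_right _ _)⟩
      _ = _ := (div_eq_mul_inv _ _).symm
  · rw [sub_nonneg, div_le_one (Nat.cast_pos.2 (h.prime s hs).pos)]
    exact Nat.one_le_cast.2 (h.prime s hs).one_le
  · rw [sub_nonneg]
    exact pow_le_one₀ (by positivity) ((hjs s hs).trans (by norm_num))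

end FA.MaynardGaps
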