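import Fermat.Agent.RankinGaps.Covering
import Fermat.Agent.CombinatorialSieve.Integers
import Fermat.Agent.Root.SummaryPrimeNumberTheorem
import Fermat.Agent.MaynardGaps.Sieve
import Fermat.Agent.BoundedGaps.Threshold

/-!
# The scales of the construction

The smooth numbers, the density of the sieving primes `(l₁ ^ 20, z]` and the primes in
`(x / 4, x / 2]`, with `l₁ = log x` and `log z ≍ l₁ log log log x / log log x`.
-/

set_option autoImplicit false

noncomputable section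

namespace FA.MaynardGaps

open Finset Filter Nat.Prime
open scoped Topology Nat.Prime
open FA.ErdosKac FA.RankinGaps

/-- Mertens' product over the primes up to `n`, from both sides. -/
theorem exists_mertens_upTo : ∃ c C : ℝ, 0 < c ∧ ∀ n : ℕ, 1 ≤ n →
    c / Real.log (n + 1 : ℕ) ≤ ∏ p ∈ primesUpTo n, (1 - 1 / (p : ℝ)) ∧
      ∏ p ∈ primesUpTo n, (1 - 1 / (p : ℝ)) ≤ C / Real.log (n + 1 : ℕ) := by
  obtain ⟨c, C, hc, h⟩ := CombinatorialSieve.exists_mertens_product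
  refine ⟨c, C, hc, fun n hn => ?_⟩
  have h2 := h ((n + 1 : ℕ) : ℝ) (by exact_mod_cast (show 2 ≤ n + 1 by omega))
  have hset : (range (n + 1)).filter Nat.Prime = primesUpTo n := by
    ext p
    rw [mem_filter, mem_range, mem_primesUpTo, Nat.lt_succ_iff, and_comm]
  rw [Nat.ceil_natCast, hset] at h2
  simpa only [one_div] using h2

/-- The primes in `(a, b]`. -/
theorem card_primes_Ioc {a b : ℕ} (hab : a ≤ b) :
    ((((Ioc a b).filter Nat.Prime).card : ℕ) : ℝ) = π b - π a := by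
  rw [eq_sub_iff_add_eq, ← Nat.primesLE_card_eq_primeCounting,
    ← Nat.primesLE_card_eq_primeCounting, ← Nat.cast_add,
    ← card_union_of_disjoint (disjoint_left.2 fun p h1 h2 => ?_)]
  · congr 1
    refine congrArg _ ?_
    ext p
    simp only [mem_union, mem_filter, mem_Ioc, Nat.mem_primesLE]
    constructor
    · rintro (⟨⟨-, h⟩, hp⟩ | ⟨h, hp⟩)
      exacts [⟨h, hp⟩, ⟨h.trans hab, hp⟩]
    · rintro ⟨h, hp⟩
      by_cases ha : p ≤ a
      exacts [Or.inr ⟨ha, hp⟩, Or.inl ⟨⟨not_le.1 ha, h⟩, hp⟩]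
  · have h3 := (mem_Ioc.1 (mem_filter.1 h1).1).1
    have h4 := (Nat.mem_primesLE.1 h2).1
    omega

/-- **The primes in `(x / 4, x / 2]`.** -/
theorem eventually_card_middle : ∀ᶠ x : ℕ in atTop,
    (x : ℝ) / (8 * Real.log x) ≤ ((Ioc (x / 4) (x / 2)).filter Nat.Prime).card := by
  have hp := PNT.Summary.prime_number_theorem
  have h2 : Tendsto (fun x : ℕ => (x : ℝ) / 2) atTop atTop :=
    tendsto_natCast_atTop_atTop.atTop_div_const (by norm_num)
  have h4 : Tendsto (fun x : ℕ => (x : ℝ) / 4) atTop atTop :=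
    tendsto_natCast_atTop_atTop.atTop_div_const (by norm_num)
  filter_upwards [(hp.comp h2).eventually (eventually_ge_nhds (show (9 / 10 : ℝ) < 1 by norm_num)),
    (hp.comp h4).eventually (eventually_le_nhds (show (1 : ℝ) < 11 / 10 by norm_num)),
    (Real.tendsto_log_atTop.comp tendsto_natCast_atTop_atTop).eventually_ge_atTop
      (10 * Real.log 4), eventually_ge_atTop 8] with x ha hb hlog hx
  simp only [Function.comp_apply] at ha hb hlog
  have hx0 : (0 : ℝ) < x := Nat.cast_pos.2 (by omega)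
  have hl4 : 0 < Real.log 4 := Real.log_pos (by norm_num)
  have hl2 : 0 < Real.log 2 := Real.log_pos (by norm_num)
  rw [show ⌊(x : ℝ) / 2⌋₊ = x / 2 from Nat.floor_div_eq_div x 2,
    Real.log_div hx0.ne' two_ne_zero, le_div_iff₀ (by positivity)] at ha
  rw [show ⌊(x : ℝ) / 4⌋₊ = x / 4 from Nat.floor_div_eq_div x 4,
    Real.log_div hx0.ne' (by norm_num), div_le_iff₀ (by positivity)] at hb
  rw [card_primes_Ioc (by omega), div_le_iff₀ (by linarith)]
  have h5 : (π (x / 2) : ℝ) * Real.log x ≥ 9 / 20 * x := by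
    have := mul_nonneg (Nat.cast_nonneg (α := ℝ) (π (x / 2))) hl2.le
    linarith
  have h6 : (π (x / 4) : ℝ) * Real.log x ≤ 13 / 40 * x := by
    have := mul_le_mul_of_nonneg_left hlog (Nat.cast_nonneg (α := ℝ) (π (x / 4)))
    linarith
  linarith

/-- `l₁` dominates every power of `l₂`, and a power of `l₁` is less than `x`. -/
theorem eventually_scales (K : ℝ) (n : ℕ) : ∀ᶠ x : ℕ in atTop,
    K ≤ Real.log x ∧ K * Real.log (Real.log x) ^ 2 ≤ Real.log x ∧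
      K * Real.log x ^ n ≤ x := by
  have hl : Tendsto (fun x : ℕ => Real.log (x : ℝ)) atTop atTop :=
    Real.tendsto_log_atTop.comp tendsto_natCast_atTop_atTop
  have h1 : ∀ᶠ u : ℝ in atTop, K * u ^ 2 ≤ Real.exp u := by
    filter_upwards [(Real.tendsto_exp_div_pow_atTop 2).eventually_ge_atTop K,
      eventually_gt_atTop 0] with u hu hu0
    exact (le_div_iff₀ (by positivity)).1 hu
  filter_upwards [(Real.tendsto_log_atTop.comp hl).eventually h1, hl.eventually_ge_atTop K,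
    hl.eventually_gt_atTop 0, @BoundedGaps.eventually_log_pow_le ⟨id⟩ K n] with x h1 h2 h3 h4
  simp only [Function.comp_apply] at h1
  rw [Real.exp_log h3] at h1
  exact ⟨h2, h1, h4⟩

/-- **The smooth numbers are negligible.** -/
theorem eventually_card_smooth : ∀ᶠ x : ℕ in atTop, ∀ U z : ℕ, x ≤ U → 2 ≤ z →
    Real.log z ≤ Real.log x * Real.log (Real.log (Real.log x)) /
      (5 * Real.log (Real.log x)) →
    ((smoothUpTo U z).card : ℝ) ≤ U / Real.log x ^ 2 := by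
  obtain ⟨B, C, hC0, hsm⟩ := exists_card_smooth_le
  filter_upwards [eventually_logs B C 1 one_pos, eventually_ge_atTop 1]
    with x hlogs hx U z hU hz hlog
  obtain ⟨l₁, hl₁⟩ : ∃ l, l = Real.log x := ⟨_, rfl⟩
  obtain ⟨l₂, hl₂⟩ : ∃ l, l = Real.log l₁ := ⟨_, rfl⟩
  obtain ⟨l₃, hl₃⟩ : ∃ l, l = Real.log l₂ := ⟨_, rfl⟩
  rw [← hl₁, ← hl₂, ← hl₃] at hlogs hlog
  obtain ⟨h32, h3, h21, -, hB⟩ := hlogs
  rw [← hl₁]
  have hl32 : l₃ ≤ l₂ := hl₃ ▸ Real.log_le_self (by linarith)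
  have hl₁0 : 0 < l₁ := by linarith
  have hx0 : (0 : ℝ) < x := Nat.cast_pos.2 (by omega)
  have hU0 : (0 : ℝ) < U := hx0.trans_le (Nat.cast_le.2 hU)
  have hz0 : (0 : ℝ) < z := Nat.cast_pos.2 (by omega)
  obtain ⟨w, hw⟩ : ∃ w, w = l₁ * l₃ / (5 * l₂) := ⟨_, rfl⟩
  rw [← hw] at hlog
  have hw5 : w ≤ l₁ := by
    rw [hw, div_le_iff₀ (by linarith)]
    exact mul_le_mul_of_nonneg_left (by linarith) hl₁0.le
  obtain ⟨η, hη⟩ : ∃ η, η = 4 * l₂ / l₁ := ⟨_, rfl⟩
  have hη0 : 0 ≤ η := hη ▸ div_nonneg (by linarith) hl₁0.le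
  have hη1 : η ≤ 1 / 4 := by
    rw [hη, div_le_iff₀ hl₁0]
    linarith
  have hηw : η * w = 4 / 5 * l₃ := by
    rw [hη, hw]
    field_simp
  refine (hsm U z η hη0 hη1 hz).trans ?_
  have hE : B + η * (z : ℝ) ^ η * (Real.log z + C) ≤ l₂ := by
    refine le_trans (add_le_add le_rfl ?_) hB
    rw [mul_comm η, mul_assoc]
    refine mul_le_mul ?_ ?_ (mul_nonneg hη0 (add_nonneg (Real.log_natCast_nonneg z) hC0))
      (Real.rpow_nonneg (by linarith) _)
    · rw [Real.rpow_def_of_pos hz0, Real.rpow_def_of_pos (show 0 < l₂ by linarith), ← hl₃,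
        Real.exp_le_exp]
      have := mul_le_mul_of_nonneg_right hlog hη0
      linarith
    · rw [mul_add]
      have := mul_le_mul_of_nonneg_left hlog hη0
      have := mul_le_mul_of_nonneg_right (hη1.trans (by norm_num : (1 : ℝ) / 4 ≤ 1)) hC0
      linarith
  have hzl : Real.log z ≤ Real.exp l₂ := by
    rw [hl₂, Real.exp_log hl₁0]
    linarith
  have hy0 : Real.exp (4 * l₂) ≤ (U : ℝ) ^ η := by
    rw [Real.rpow_def_of_pos hU0, Real.exp_le_exp]
    refine le_trans (le_of_eq ?_) (mul_le_mul_of_nonneg_right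
      (Real.log_le_log hx0 (Nat.cast_le.2 hU)) hη0)
    rw [← hl₁, hη]
    field_simp
  rw [Real.rpow_sub hU0, Real.rpow_one, div_mul_eq_mul_div,
    div_le_div_iff₀ (Real.rpow_pos_of_pos hU0 _) (pow_pos hl₁0 2), mul_assoc]
  refine mul_le_mul_of_nonneg_left (le_trans ?_ hy0) hU0.le
  refine (mul_le_mul_of_nonneg_right (mul_le_mul hzl (Real.exp_le_exp.2 hE)
    (Real.exp_pos _).le (Real.exp_pos _).le) (sq_nonneg _)).trans (le_of_eq ?_)
  rw [show (4 : ℝ) * l₂ = l₂ + (l₂ + (l₂ + l₂)) by ring]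
  simp only [Real.exp_add, hl₂, Real.exp_log hl₁0]
  ring

/-- The sieving primes `(P₀, z]`. -/
def sievingRange (P₀ z : ℕ) : Finset ℕ := (Ioc P₀ z).filter Nat.Prime

theorem sieveDensity_mul {P₀ z : ℕ} (h : P₀ ≤ z) :
    sieveDensity (sievingRange P₀ z) * ∏ p ∈ primesUpTo P₀, (1 - 1 / (p : ℝ)) =
      ∏ p ∈ primesUpTo z, (1 - 1 / (p : ℝ)) := by
  rw [sieveDensity, ← prod_union (disjoint_left.2 fun p h1 h2 => ?_)]
  · refine prod_congr ?_ fun _ _ => rfl
    ext p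
    simp only [sievingRange, mem_union, mem_filter, mem_Ioc, mem_primesUpTo]
    constructor
    · rintro (⟨⟨-, h'⟩, hp⟩ | ⟨hp, h'⟩)
      exacts [⟨hp, h'⟩, ⟨hp, h'.trans h⟩]
    · rintro ⟨hp, h'⟩
      by_cases ha : p ≤ P₀
      exacts [Or.inr ⟨hp, ha⟩, Or.inl ⟨⟨not_le.1 ha, h'⟩, hp⟩]
  · have h3 := (mem_Ioc.1 (mem_filter.1 h1).1).1
    have h4 := (mem_primesUpTo.1 h2).2
    omega

/-- **The sieving parameters.** -/
theorem exists_sieving : ∃ M c : ℝ, 0 < M ∧ 0 < c ∧ ∀ᶠ x : ℕ in atTop, ∃ P₀ z : ℕ,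
    P₀ ≤ z ∧ z ≤ x / 4 ∧ 2 ≤ z ∧ Real.log x ^ 20 ≤ P₀ ∧
      Real.log z ≤ Real.log x * Real.log (Real.log (Real.log x)) /
        (5 * Real.log (Real.log x)) ∧
      sieveDensity (sievingRange P₀ z) ≤
        M * (Real.log (Real.log x) ^ 2 / (Real.log x * Real.log (Real.log (Real.log x)))) ∧
      c / Real.log x ≤ sieveDensity (sievingRange P₀ z) := by
  obtain ⟨c, C, hc, hM⟩ := exists_mertens_upTo
  refine ⟨105 * |C| / c + 1, c, by positivity, hc, ?_⟩
  filter_upwards [eventually_logs 0 0 1 one_pos, eventually_scales 220 0,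
    eventually_ge_atTop 8] with x hlogs hsc hx
  obtain ⟨l₁, hl₁⟩ : ∃ l, l = Real.log x := ⟨_, rfl⟩
  obtain ⟨l₂, hl₂⟩ : ∃ l, l = Real.log l₁ := ⟨_, rfl⟩
  obtain ⟨l₃, hl₃⟩ : ∃ l, l = Real.log l₂ := ⟨_, rfl⟩
  rw [← hl₁, ← hl₂, ← hl₃] at hlogs ⊢
  rw [← hl₁, ← hl₂] at hsc
  obtain ⟨h32, h3, h21, -, -⟩ := hlogs
  obtain ⟨hl220, hl22, -⟩ := hsc
  have hl32 : l₃ ≤ l₂ := hl₃ ▸ Real.log_le_self (by linarith)
  have hl₁0 : 0 < l₁ := by linarith
  have hx0 : (0 : ℝ) < x := Nat.cast_pos.2 (by omega)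
  have hp20 : 1 ≤ l₁ ^ 20 := one_le_pow₀ (by linarith)
  obtain ⟨w, hw⟩ : ∃ w, w = l₁ * l₃ / (5 * l₂) := ⟨_, rfl⟩
  have hw5 : w ≤ l₁ / 5 := by
    rw [hw, div_le_div_iff₀ (by linarith) (by norm_num)]
    have := mul_le_mul_of_nonneg_left hl32 hl₁0.le
    linarith
  have hw22 : 22 * l₂ ≤ w := by
    rw [hw, le_div_iff₀ (by linarith)]
    have := le_mul_of_one_le_right hl₁0.le h3
    linarith
  obtain ⟨z, hzdef⟩ : ∃ z : ℕ, z = ⌊Real.exp w⌋₊ := ⟨_, rfl⟩
  obtain ⟨P₀, hP₀⟩ : ∃ P₀ : ℕ, P₀ = ⌈l₁ ^ 20⌉₊ := ⟨_, rfl⟩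
  have hzle : (z : ℝ) ≤ Real.exp w := hzdef ▸ Nat.floor_le (Real.exp_pos w).le
  have hP₀le : (P₀ : ℝ) ≤ l₁ ^ 20 + 1 := hP₀ ▸ (Nat.ceil_lt_add_one (by linarith)).le
  have hP₀3 : ((P₀ + 1 : ℕ) : ℝ) ≤ l₁ ^ 21 := by
    rw [pow_succ]
    push_cast
    have := mul_le_mul_of_nonneg_left (show (3 : ℝ) ≤ l₁ by linarith) (by linarith : 0 ≤ l₁ ^ 20)
    linarith
  have hlogP : Real.log ((P₀ + 1 : ℕ) : ℝ) ≤ 21 * l₂ := by
    refine (Real.log_le_log (Nat.cast_pos.2 (Nat.succ_pos _)) hP₀3).trans (le_of_eq ?_)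
    rw [Real.log_pow, hl₂]
    norm_num
  have hPz : P₀ ≤ z := by
    rw [hzdef]
    refine Nat.le_floor ?_
    refine le_trans ?_ (Real.exp_le_exp.2 hw22)
    rw [hl₂, show (22 : ℝ) * Real.log l₁ = ((22 : ℕ) : ℝ) * Real.log l₁ by norm_num,
      ← Real.log_pow, Real.exp_log (pow_pos hl₁0 _)]
    push_cast at hP₀3
    exact le_trans (by linarith) (pow_le_pow_right₀ (by linarith) (show 21 ≤ 22 by norm_num))
  have hP₀1 : 1 ≤ P₀ := hP₀ ▸ Nat.one_le_ceil_iff.2 (by linarith)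
  have hP₀2 : 2 ≤ P₀ := by
    rw [hP₀, Nat.succ_le_iff, Nat.lt_ceil]
    push_cast
    exact one_lt_pow₀ (by linarith) (by norm_num)
  have hz4 : z ≤ x / 4 := by
    rw [Nat.le_div_iff_mul_le (by norm_num), ← Nat.cast_le (α := ℝ), Nat.cast_mul]
    refine (mul_le_mul_of_nonneg_right hzle (by norm_num)).trans ?_
    rw [Nat.cast_ofNat, ← Real.exp_log (show (0 : ℝ) < 4 by norm_num), ← Real.exp_add,
      ← Real.exp_log hx0, Real.exp_le_exp, ← hl₁]
    linarith [Real.log_le_sub_one_of_pos (show (0 : ℝ) < 4 by norm_num)]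
  have hzw : w ≤ Real.log ((z + 1 : ℕ) : ℝ) := by
    rw [Real.le_log_iff_exp_le (Nat.cast_pos.2 (Nat.succ_pos _))]
    push_cast
    exact (hzdef ▸ Nat.lt_floor_add_one (Real.exp w)).le
  have hzl : Real.log ((z + 1 : ℕ) : ℝ) ≤ l₁ := by
    rw [hl₁]
    exact Real.log_le_log (Nat.cast_pos.2 (Nat.succ_pos _)) (Nat.cast_le.2 (by omega))
  obtain ⟨hz1, hz2⟩ := hM z (hP₀1.trans hPz)
  obtain ⟨hp1, -⟩ := hM P₀ hP₀1
  refine ⟨P₀, z, hPz, hz4, hP₀2.trans hPz, hP₀ ▸ Nat.le_ceil _, ?_, ?_, ?_⟩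
  · rw [← hw]
    exact (Real.log_le_log (Nat.cast_pos.2 (by omega)) hzle).trans_eq (Real.log_exp w)
  · have hσ0 : 0 ≤ sieveDensity (sievingRange P₀ z) := prod_nonneg fun p hp => by
      rw [sub_nonneg, div_le_one (Nat.cast_pos.2 (mem_filter.1 hp).2.pos)]
      exact Nat.one_le_cast.2 (mem_filter.1 hp).2.one_le
    have hlP : 0 < Real.log ((P₀ + 1 : ℕ) : ℝ) := Real.log_pos (Nat.one_lt_cast.2 (by omega))
    have h1 := mul_le_mul_of_nonneg_left ((div_le_div_of_nonneg_left hc.le hlP hlogP).trans hp1) hσ0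
    rw [sieveDensity_mul hPz] at h1
    have h2 : C / Real.log ((z + 1 : ℕ) : ℝ) ≤ |C| / w :=
      div_le_div₀ (abs_nonneg C) (le_abs_self C) (by linarith) hzw
    have h3 := (h1.trans (hz2.trans h2))
    rw [← mul_div_assoc, div_le_iff₀ (by linarith), ← le_div_iff₀ hc] at h3
    refine h3.trans (le_trans (le_of_eq ?_) (mul_le_mul_of_nonneg_right
      (le_add_of_nonneg_right zero_le_one) (div_nonneg (sq_nonneg _)
        (mul_nonneg hl₁0.le (by linarith)))))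
    rw [hw]
    field_simp
    ring
  · refine le_trans (div_le_div_of_nonneg_left hc.le (Real.log_pos (Nat.one_lt_cast.2 (by omega)))
      hzl) (hz1.trans ?_)
    rw [← sieveDensity_mul hPz]
    refine mul_le_of_le_one_right (prod_nonneg fun p hp => ?_) (prod_le_one (fun p hp => ?_)
      fun p hp => sub_le_self _ (by positivity))
    · rw [sub_nonneg, div_le_one (Nat.cast_pos.2 (mem_filter.1 hp).2.pos)]
      exact Nat.one_le_cast.2 (mem_filter.1 hp).2.one_le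
    · rw [sub_nonneg, div_le_one (Nat.cast_pos.2 (mem_primesUpTo.1 hp).1.pos)]
      exact Nat.one_le_cast.2 (mem_primesUpTo.1 hp).1.one_le

end FA.MaynardGaps
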