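import Fermat.Agent.MaynardGaps.Sieve

/-!
# Covering by random classes and weighted classes

Random classes modulo the primes of `S`; then, for `p ∈ P`, a class drawn with a probability
proportional to the weight of the surviving tuples `t + i W p`. The second moments show that few
targets get less than a fixed share of their mass, and then the classes can be chosen one by one.
-/

set_option autoImplicit false

noncomputable section

namespace FA.MaynardGaps

open Finset
open scoped Classical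

variable {S : Finset ℕ}

theorem mean_const (hS : ∀ s ∈ S, 0 < s) (c : ℝ) : mean S (fun _ => c) = c := by
  rw [mean, sum_const, nsmul_eq_mul, classes, card_pi]
  simp only [card_range]
  rw [Nat.cast_prod, mul_div_cancel_left₀ _ (prod_pos fun s hs => Nat.cast_pos.2 (hS s hs)).ne']

/-- The tuple `t + i W p`, `i < k`. -/
def tupleSet (k W p t : ℕ) : Finset ℕ := (range k).image fun i => t + i * W * p

theorem card_tupleSet {W p : ℕ} (hW : 0 < W) (hp : 0 < p) (k t : ℕ) :
    (tupleSet k W p t).card = k := by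
  rw [tupleSet, card_image_of_injective _ fun i j h => ?_, card_range]
  simp only [add_right_inj, mul_assoc] at h
  exact Nat.eq_of_mul_eq_mul_right (Nat.mul_pos hW hp) h

/-- Classes chosen one by one against nonnegative weights of mass at most one. -/
theorem exists_weighted_choice (P : Finset ℕ) (π : ℕ → ℕ → ℝ)
    (h0 : ∀ p ∈ P, ∀ c, 0 ≤ π p c) (h1 : ∀ p ∈ P, ∑ c ∈ range p, π p c ≤ 1)
    (hP : ∀ p ∈ P, 0 < p) :
    ∀ V : Finset ℕ, ∃ r : ℕ → ℕ, ((V.filter fun q => ∀ p ∈ P, q % p ≠ r p).card : ℝ) ≤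
      ∑ q ∈ V, Real.exp (-∑ p ∈ P, π p (q % p)) := by
  induction P using Finset.induction with
  | empty => exact fun V => ⟨fun _ => 0, by simp⟩
  | insert p P hp ih =>
    intro V
    have ih' := ih (fun s hs => h0 s (mem_insert_of_mem hs))
      (fun s hs => h1 s (mem_insert_of_mem hs))
      fun s hs => hP s (mem_insert_of_mem hs)
    have hp0 := hP p (mem_insert_self p P)
    obtain ⟨g, hg⟩ : ∃ g : ℕ → ℝ, g = fun q => Real.exp (-∑ s ∈ P, π s (q % s)) := ⟨_, rfl⟩
    have hg0 : ∀ q, 0 ≤ g q := fun q => hg ▸ (Real.exp_pos _).le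
    obtain ⟨G, hG⟩ : ∃ G : ℕ → ℝ, G = fun c => ∑ q ∈ V.filter (fun q => q % p = c), g q :=
      ⟨_, rfl⟩
    obtain ⟨c, -, hc⟩ := exists_max_image (range p) G (nonempty_range_iff.2 hp0.ne')
    obtain ⟨r, hr⟩ := ih' (V.filter fun q => q % p ≠ c)
    refine ⟨Function.update r p c, le_trans (Nat.cast_le.2 (card_le_card fun q hq => ?_))
      (hr.trans ?_)⟩
    · rw [mem_filter, forall_mem_insert, Function.update_self] at hq
      rw [mem_filter, mem_filter]
      exact ⟨⟨hq.1, hq.2.1⟩, fun s hs => by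
        have := hq.2.2 s hs
        rwa [Function.update_of_ne (ne_of_mem_of_not_mem hs hp)] at this⟩
    · have hsplit : ∑ q ∈ V.filter (fun q => q % p ≠ c), g q = ∑ q ∈ V, g q - G c := by
        rw [eq_sub_iff_add_eq, hG, add_comm]
        exact sum_filter_add_sum_filter_not V (fun q => q % p = c) g
      have havg : ∑ q ∈ V, π p (q % p) * g q ≤ G c := by
        rw [← sum_fiberwise_of_maps_to (g := fun q => q % p) (t := range p)
          fun q _ => mem_range.2 (Nat.mod_lt _ hp0)]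
        refine (sum_le_sum (g := fun d => π p d * G c) fun d hd => ?_).trans ?_
        · rw [sum_congr rfl (g := fun q => π p d * g q) fun q hq => by rw [(mem_filter.1 hq).2],
            ← mul_sum]
          exact mul_le_mul_of_nonneg_left (by rw [hG] at hc ⊢; exact hc d hd)
            (h0 p (mem_insert_self p P) d)
        · rw [← sum_mul]
          exact mul_le_of_le_one_left (hG ▸ sum_nonneg fun q _ => hg0 q)
            (h1 p (mem_insert_self p P))
      have hexp : ∀ q, g q - π p (q % p) * g q ≤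
          Real.exp (-∑ s ∈ insert p P, π s (q % s)) := fun q => by
        rw [sum_insert hp, neg_add, Real.exp_add, hg]
        dsimp only
        have := mul_le_mul_of_nonneg_right (Real.add_one_le_exp (-π p (q % p)))
          (Real.exp_pos (-∑ s ∈ P, π s (q % s))).le
        linarith
      calc ∑ q ∈ V.filter (fun q => q % p ≠ c), Real.exp (-∑ s ∈ P, π s (q % s))
          = ∑ q ∈ V, g q - G c := by rw [← hsplit]; simp only [hg]
        _ ≤ ∑ q ∈ V, (g q - π p (q % p) * g q) := by rw [sum_sub_distrib]; linarith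
        _ ≤ _ := sum_le_sum fun q _ => hexp q

variable {P Q : Finset ℕ} {k W U N P₀ : ℕ} {w : ℕ → ℕ → ℝ} {wmax δ : ℝ}

/-- The surviving weight of `p`. -/
def survMass (S : Finset ℕ) (k W U : ℕ) (w : ℕ → ℕ → ℝ) (p : ℕ) (a : ∀ s ∈ S, ℕ) : ℝ :=
  ∑ t ∈ Icc 1 U, w p t * surv S a (tupleSet k W p t)

/-- The surviving weight on `q`, the primes taken with factors `f`. -/
def hitMass (S P : Finset ℕ) (k W : ℕ) (w : ℕ → ℕ → ℝ) (f : ℕ → ℝ) (q : ℕ) (a : ∀ s ∈ S, ℕ) :
    ℝ :=
  ∑ e ∈ P ×ˢ range k, f e.1 * (w e.1 (q - e.2 * W * e.1) *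
    surv S a (tupleSet k W e.1 (q - e.2 * W * e.1)))

theorem mean_bad_le (h : SieveScale S (2 * k) N P₀ δ) (hW : 0 < W) {p : ℕ} (hp : 0 < p)
    (hU : 0 < U) (hN : U + k * W * p ≤ N) (hwmax : 0 ≤ wmax)
    (hw : ∀ t, 0 ≤ w p t ∧ w p t ≤ wmax) (hmass : ∑ t ∈ Icc 1 U, w p t ≤ U)
    (hsmall : 4 * (k : ℝ) ^ 2 * wmax ≤ δ * sieveDensity S ^ (2 * k) * U) :
    mean S (fun a => if 2 * (sieveDensity S ^ k * U) < survMass S k W U w p a then
        survMass S k W U w p a else 0) ≤ 7 * δ * (sieveDensity S ^ k * U) := by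
  have hS : ∀ s ∈ S, 0 < s := fun s hs => (h.prime s hs).pos
  have hσ := h.density_pos
  have hδ := h.nonneg
  obtain ⟨σ, hσd⟩ : ∃ σ, σ = sieveDensity S := ⟨_, rfl⟩
  rw [← hσd] at hsmall hσ ⊢
  obtain ⟨μ, hμ⟩ : ∃ μ, μ = σ ^ k * (U : ℝ) := ⟨_, rfl⟩
  rw [← hμ]
  have hμ0 : 0 < μ := hμ ▸ mul_pos (pow_pos hσ k) (Nat.cast_pos.2 hU)
  obtain ⟨mass, hmassd⟩ : ∃ mass, mass = ∑ t ∈ Icc 1 U, w p t := ⟨_, rfl⟩
  rw [← hmassd] at hmass
  have hm0 : 0 ≤ mass := hmassd ▸ sum_nonneg fun t _ => (hw t).1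
  obtain ⟨m, hm⟩ : ∃ m, m = σ ^ k * mass := ⟨_, rfl⟩
  have hmμ : m ≤ μ := hm ▸ hμ ▸ mul_le_mul_of_nonneg_left hmass (pow_nonneg hσ.le k)
  have hbound : ∀ t ∈ Icc 1 U, ∀ n ∈ tupleSet k W p t, n ≤ N := fun t ht n hn => by
    obtain ⟨i, hi, rfl⟩ := mem_image.1 hn
    rw [mem_Icc] at ht
    rw [mem_range] at hi
    have := Nat.mul_le_mul_right p (Nat.mul_le_mul_right W hi.le)
    omega
  have hEX : m * (1 - δ) ≤ mean S (survMass S k W U w p) := by
    unfold survMass
    rw [mean_sum, hm, hmassd, mul_sum, sum_mul]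
    refine sum_le_sum fun t _ => ?_
    rw [mean_const_mul, mean_surv hS]
    have h1 := h.le_survProb (A := tupleSet k W p t) (by rw [card_tupleSet hW hp]; omega)
    rw [card_tupleSet hW hp, ← hσd] at h1
    have := mul_le_mul_of_nonneg_left h1 (hw t).1
    linarith
  have hEX2 : mean S (fun a => survMass S k W U w p a * survMass S k W U w p a) ≤
      (1 + δ) * m ^ 2 + (k : ℝ) ^ 2 * wmax * U := by
    simp only [survMass, sum_mul_sum, mean_sum]
    refine (sum_le_sum (g := fun t => ∑ t' ∈ Icc 1 U, ((1 + δ) * σ ^ (2 * k) * (w p t * w p t') +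
      if Disjoint (tupleSet k W p t) (tupleSet k W p t') then 0 else wmax * w p t)) fun t ht =>
        sum_le_sum fun t' ht' => ?_).trans ?_
    · have e : (fun a => w p t * surv S a (tupleSet k W p t) *
          (w p t' * surv S a (tupleSet k W p t'))) =
          fun a => w p t * w p t' * surv S a (tupleSet k W p t ∪ tupleSet k W p t') := by
        funext a
        rw [← surv_mul]
        ring
      rw [e, mean_const_mul, mean_surv hS]
      split_ifs with hd
      · have hc : (tupleSet k W p t ∪ tupleSet k W p t').card = 2 * k := by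
          rw [card_union_of_disjoint hd, card_tupleSet hW hp, card_tupleSet hW hp, two_mul]
        have h1 := h.survProb_le (A := tupleSet k W p t ∪ tupleSet k W p t') hc.le fun n hn =>
          (mem_union.1 hn).elim (hbound t ht n) (hbound t' ht' n)
        rw [hc, ← hσd] at h1
        have := mul_le_mul_of_nonneg_left h1 (mul_nonneg (hw t).1 (hw t').1)
        linarith
      · have h1 : survProb S (tupleSet k W p t ∪ tupleSet k W p t') ≤ 1 := by
          rw [← mean_surv hS]
          refine (mean_mono (G := fun _ => (1 : ℝ)) fun a _ => surv_le_one a _).trans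
            (mean_const hS 1).le
        have h2 := mul_le_mul_of_nonneg_left h1 (mul_nonneg (hw t).1 (hw t').1)
        have h3 := mul_le_mul_of_nonneg_left (hw t').2 (hw t).1
        have h4 : 0 ≤ (1 + δ) * σ ^ (2 * k) * (w p t * w p t') :=
          mul_nonneg (mul_nonneg (by linarith) (pow_nonneg hσ.le _))
            (mul_nonneg (hw t).1 (hw t').1)
        linarith
    simp only [sum_add_distrib, ← mul_sum, ← sum_mul]
    refine add_le_add (le_of_eq ?_) ?_
    · rw [hm, hmassd, mul_pow, ← pow_mul, mul_comm k 2]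
      ring
    refine (sum_le_sum (g := fun t => (k : ℝ) ^ 2 * (wmax * w p t)) fun t _ => ?_).trans ?_
    · rw [← sum_filter_add_sum_filter_not (Icc 1 U)
        fun t' => Disjoint (tupleSet k W p t) (tupleSet k W p t'),
        sum_eq_zero fun t' ht' => if_pos (mem_filter.1 ht').2, zero_add,
        sum_congr rfl fun t' ht' => if_neg (mem_filter.1 ht').2, sum_const, nsmul_eq_mul]
      refine mul_le_mul_of_nonneg_right ?_ (mul_nonneg hwmax (hw t).1)
      refine (Nat.cast_le.2 (card_le_card (t := (range k ×ˢ range k).image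
        fun e : ℕ × ℕ => t + e.1 * W * p - e.2 * W * p) fun t' ht' => ?_)).trans ?_
      · obtain ⟨n, h1, h2⟩ := not_disjoint_iff.1 (mem_filter.1 ht').2
        obtain ⟨i, hi, rfl⟩ := mem_image.1 h1
        obtain ⟨j, hj, he⟩ := mem_image.1 h2
        exact mem_image.2 ⟨(i, j), mem_product.2 ⟨hi, hj⟩, by dsimp only; omega⟩
      · refine (Nat.cast_le.2 card_image_le).trans ?_
        rw [card_product, card_range, Nat.cast_mul, sq]
    · rw [← mul_sum, ← mul_sum, ← hmassd, ← mul_assoc]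
      exact mul_le_mul_of_nonneg_left hmass (by positivity)
  have hvar : mean S (fun a => (survMass S k W U w p a - m) ^ 2) ≤
      3 * δ * μ ^ 2 + (k : ℝ) ^ 2 * wmax * U := by
    have e : (fun a => (survMass S k W U w p a - m) ^ 2) = fun a =>
        survMass S k W U w p a * survMass S k W U w p a + (-2 * m) * survMass S k W U w p a +
          m ^ 2 := by
      funext a
      ring
    rw [e, mean_add, mean_add, mean_const_mul, mean_const hS]
    have h1 := mul_le_mul_of_nonneg_left hEX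
      (show 0 ≤ m from hm ▸ mul_nonneg (pow_nonneg hσ.le k) hm0)
    have h2 := mul_le_mul_of_nonneg_left (pow_le_pow_left₀
      (show 0 ≤ m from hm ▸ mul_nonneg (pow_nonneg hσ.le k) hm0) hmμ 2) hδ
    linarith
  have hpt : ∀ a ∈ classes S, (if 2 * μ < survMass S k W U w p a then
      survMass S k W U w p a else 0) ≤ 2 / μ * (survMass S k W U w p a - m) ^ 2 := fun a _ => by
    split_ifs with hb
    · obtain ⟨d, hd⟩ : ∃ d, d = survMass S k W U w p a - m := ⟨_, rfl⟩
      rw [← hd, div_mul_eq_mul_div, le_div_iff₀ hμ0]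
      have h1 := mul_le_mul_of_nonneg_left (show μ ≤ d by linarith) (show 0 ≤ d by linarith)
      have h2 := mul_le_mul_of_nonneg_right (show survMass S k W U w p a ≤ 2 * d by linarith) hμ0.le
      linarith
    · positivity
  refine (mean_mono hpt).trans ?_
  rw [mean_const_mul]
  refine (mul_le_mul_of_nonneg_left hvar (by positivity)).trans ?_
  rw [div_mul_eq_mul_div, div_le_iff₀ hμ0]
  have h1 := mul_le_mul_of_nonneg_right hsmall (Nat.cast_nonneg (α := ℝ) U)
  have e : μ ^ 2 = σ ^ (2 * k) * U * U := by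
    rw [hμ, mul_pow, ← pow_mul, mul_comm k 2]
    ring
  have : 0 ≤ (k : ℝ) ^ 2 * wmax * U := by positivity
  have e' : δ * μ ^ 2 = δ * (σ ^ (2 * k) * U * U) := by rw [e]
  linarith

theorem mean_badZ_le (h : SieveScale S (2 * k) N P₀ δ) (hk : 0 < k) (hW : 0 < W)
    (hP : ∀ p ∈ P, p.Prime ∧ k < p) {q : ℕ} (hq : ∀ p ∈ P, k * W * p < q)
    (hN : ∀ p ∈ P, q + k * W * p ≤ N) (hwmax : 0 ≤ wmax)
    (hw : ∀ p ∈ P, ∀ t, 0 ≤ w p t ∧ w p t ≤ wmax)
    (hmass : 0 < ∑ e ∈ P ×ˢ range k, w e.1 (q - e.2 * W * e.1))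
    (hsmall : 4 * (k : ℝ) ^ 2 * wmax ≤
      δ * sieveDensity S ^ (2 * k) * ∑ e ∈ P ×ˢ range k, w e.1 (q - e.2 * W * e.1)) :
    mean S (fun a => if hitMass S P k W w (fun _ => 1) q a <
        sieveDensity S ^ (k - 1) * (∑ e ∈ P ×ˢ range k, w e.1 (q - e.2 * W * e.1)) / 2 then
          surv S a {q} else 0) ≤ 13 * δ * sieveDensity S := by
  have hS : ∀ s ∈ S, 0 < s := fun s hs => (h.prime s hs).pos
  have hσ := h.density_pos
  have hσ1 := h.density_le_one
  have hδ := h.nonneg
  obtain ⟨σ, hσd⟩ : ∃ σ, σ = sieveDensity S := ⟨_, rfl⟩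
  rw [← hσd] at hsmall hσ hσ1 ⊢
  obtain ⟨I, hI⟩ : ∃ I, I = P ×ˢ range k := ⟨_, rfl⟩
  obtain ⟨mass, hmassd⟩ : ∃ mass, mass = ∑ e ∈ I, w e.1 (q - e.2 * W * e.1) := ⟨_, rfl⟩
  rw [← hI, ← hmassd] at hmass hsmall ⊢
  obtain ⟨ν, hν⟩ : ∃ ν, ν = σ ^ (k - 1) * mass := ⟨_, rfl⟩
  rw [← hν]
  have hν0 : 0 < ν := hν ▸ mul_pos (pow_pos hσ _) hmass
  obtain ⟨A, hA⟩ : ∃ A : ℕ × ℕ → Finset ℕ,
      A = fun e => tupleSet k W e.1 (q - e.2 * W * e.1) := ⟨_, rfl⟩
  obtain ⟨wt, hwt⟩ : ∃ wt : ℕ × ℕ → ℝ, wt = fun e => w e.1 (q - e.2 * W * e.1) := ⟨_, rfl⟩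
  have hZ : hitMass S P k W w (fun _ => 1) q = fun a => ∑ e ∈ I, wt e * surv S a (A e) := by
    funext a
    simp only [hitMass, one_mul, hA, hwt, hI]
  have hmem : ∀ e ∈ I, (A e).card = k ∧ q ∈ A e ∧ (∀ n ∈ A e, n ≤ N) ∧ 0 ≤ wt e ∧ wt e ≤ wmax := by
    intro e he
    rw [hI, mem_product, mem_range] at he
    have hle : e.2 * W * e.1 ≤ k * W * e.1 :=
      Nat.mul_le_mul_right _ (Nat.mul_le_mul_right _ he.2.le)
    have := hq _ he.1
    simp only [hA, hwt]
    refine ⟨card_tupleSet hW (hP _ he.1).1.pos _ _, mem_image.2 ⟨e.2, mem_range.2 he.2, by omega⟩,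
      fun n hn => ?_, hw _ he.1 _⟩
    obtain ⟨i, hi, rfl⟩ := mem_image.1 hn
    rw [mem_range] at hi
    have := Nat.mul_le_mul_right e.1 (Nat.mul_le_mul_right W hi.le)
    have := hN _ he.1
    omega
  have hkey : ∀ e ∈ I, ∀ e' ∈ I, e.1 ≠ e'.1 → A e ∩ A e' = {q} := by
    intro e he e' he' hne
    refine eq_singleton_iff_unique_mem.2 ⟨mem_inter.2 ⟨(hmem e he).2.1, (hmem e' he').2.1⟩,
      fun n hn => ?_⟩
    rw [hI, mem_product, mem_range] at he he'
    have h1 := hq _ he.1
    have h2 := hq _ he'.1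
    have hle : e.2 * W * e.1 ≤ k * W * e.1 :=
      Nat.mul_le_mul_right _ (Nat.mul_le_mul_right _ he.2.le)
    have hle' : e'.2 * W * e'.1 ≤ k * W * e'.1 :=
      Nat.mul_le_mul_right _ (Nat.mul_le_mul_right _ he'.2.le)
    simp only [hA, tupleSet, mem_inter, mem_image, mem_range] at hn
    obtain ⟨⟨i, hi, rfl⟩, j, hj, hej⟩ := hn
    have hint : ((i : ℤ) - e.2) * e.1 = ((j : ℤ) - e'.2) * e'.1 := by
      have := congrArg (fun a : ℕ => (a : ℤ)) hej
      push_cast [Nat.cast_sub (show e.2 * W * e.1 ≤ q by omega),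
        Nat.cast_sub (show e'.2 * W * e'.1 ≤ q by omega)] at this
      refine mul_left_cancel₀ (show (W : ℤ) ≠ 0 by exact_mod_cast hW.ne') ?_
      linarith
    have hcop : IsCoprime (e.1 : ℤ) (e'.1 : ℤ) := Nat.isCoprime_iff_coprime.2
      ((Nat.coprime_primes (hP _ he.1).1 (hP _ he'.1).1).2 hne)
    have hd : (e.1 : ℤ) ∣ (j : ℤ) - e'.2 :=
      hcop.dvd_of_dvd_mul_right ⟨(i : ℤ) - e.2, by rw [← hint, mul_comm]⟩
    have hk' := (hP _ he.1).2
    have hj0 : (j : ℤ) - e'.2 = 0 := by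
      refine Int.eq_zero_of_abs_lt_dvd hd ?_
      rw [abs_lt]
      omega
    rw [hj0, zero_mul, mul_eq_zero, sub_eq_zero] at hint
    rcases hint with hint | hint
    · rw [show i = e.2 by exact_mod_cast hint]
      omega
    · exact absurd (by exact_mod_cast hint) (hP _ he.1).1.ne_zero
  have hEZ : σ * ν * (1 - δ) ≤ mean S (fun a => ∑ e ∈ I, wt e * surv S a (A e)) := by
    have hk1 : σ * σ ^ (k - 1) = σ ^ k := by rw [← pow_succ', Nat.sub_add_cancel hk]
    rw [mean_sum, hν, hmassd, ← mul_assoc, hk1, mul_sum, sum_mul]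
    refine sum_le_sum fun e he => ?_
    rw [mean_const_mul, mean_surv hS]
    obtain ⟨hc, -, -, hw0, -⟩ := hmem e he
    have h1 := h.le_survProb (A := A e) (by rw [hc]; omega)
    rw [hc, ← hσd] at h1
    have := mul_le_mul_of_nonneg_left h1 hw0
    simp only [hwt] at this hw0 ⊢
    linarith
  have hEZ2 : mean S (fun a => (∑ e ∈ I, wt e * surv S a (A e)) *
      ∑ e ∈ I, wt e * surv S a (A e)) ≤ (1 + δ) * σ * ν ^ 2 + k * wmax * mass := by
    simp only [sum_mul_sum, mean_sum]
    refine (sum_le_sum (g := fun e => ∑ e' ∈ I, ((1 + δ) * σ ^ (2 * k - 1) * (wt e * wt e') +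
      if e.1 = e'.1 then wmax * wt e else 0)) fun e he => sum_le_sum fun e' he' => ?_).trans ?_
    · have e0 : (fun a => wt e * surv S a (A e) * (wt e' * surv S a (A e'))) =
          fun a => wt e * wt e' * surv S a (A e ∪ A e') := by
        funext a
        rw [← surv_mul]
        ring
      rw [e0, mean_const_mul, mean_surv hS]
      obtain ⟨hc, -, hb, hw0, -⟩ := hmem e he
      obtain ⟨hc', -, hb', hw0', hw1'⟩ := hmem e' he'
      split_ifs with hd
      · have h1 : survProb S (A e ∪ A e') ≤ 1 := by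
          rw [← mean_surv hS]
          exact (mean_mono (G := fun _ => (1 : ℝ)) fun a _ => surv_le_one a _).trans
            (mean_const hS 1).le
        have h2 := mul_le_mul_of_nonneg_left h1 (mul_nonneg hw0 hw0')
        have h3 := mul_le_mul_of_nonneg_left hw1' hw0
        have h4 : 0 ≤ (1 + δ) * σ ^ (2 * k - 1) * (wt e * wt e') :=
          mul_nonneg (mul_nonneg (by linarith) (pow_nonneg hσ.le _)) (mul_nonneg hw0 hw0')
        linarith
      · have hcu : (A e ∪ A e').card = 2 * k - 1 := by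
          have := card_union_add_card_inter (A e) (A e')
          rw [hkey e he e' he' hd, card_singleton, hc, hc'] at this
          omega
        have h1 := h.survProb_le (A := A e ∪ A e') (by omega) fun n hn =>
          (mem_union.1 hn).elim (hb n) (hb' n)
        rw [hcu, ← hσd] at h1
        have := mul_le_mul_of_nonneg_left h1 (mul_nonneg hw0 hw0')
        linarith
    have e1 : σ * ν ^ 2 = σ ^ (2 * k - 1) * (mass * mass) := by
      rw [hν, mul_pow, ← pow_mul, ← mul_assoc, ← pow_succ',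
        show (k - 1) * 2 + 1 = 2 * k - 1 by omega, sq]
    simp only [sum_add_distrib, ← mul_sum, ← sum_mul]
    refine add_le_add (le_of_eq ?_) ?_
    · rw [mul_assoc (1 + δ) σ, e1, hmassd, hwt]
      ring
    rw [hmassd, mul_sum]
    refine (sum_le_sum (g := fun e => (k : ℝ) * wmax * wt e) fun e he => ?_).trans
      (le_of_eq (by rw [hwt]))
    rw [← sum_filter, sum_const, nsmul_eq_mul, mul_assoc (k : ℝ)]
    refine mul_le_mul_of_nonneg_right ?_ (mul_nonneg hwmax (hmem e he).2.2.2.1)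
    refine (Nat.cast_le.2 (card_le_card (t := (range k).image fun m => (e.1, m))
      fun e' he' => ?_)).trans ?_
    · rw [mem_filter, hI, mem_product] at he'
      exact mem_image.2 ⟨e'.2, he'.1.2, by rw [he'.2]⟩
    · exact Nat.cast_le.2 (card_image_le.trans (card_range k).le)
  have hvar : mean S (fun a => (∑ e ∈ I, wt e * surv S a (A e) - ν * surv S a {q}) ^ 2) ≤
      3 * δ * σ * ν ^ 2 + k * wmax * mass := by
    have e : (fun a => (∑ e ∈ I, wt e * surv S a (A e) - ν * surv S a {q}) ^ 2) = fun a =>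
        (∑ e ∈ I, wt e * surv S a (A e)) * (∑ e ∈ I, wt e * surv S a (A e)) +
          (-2 * ν) * (∑ e ∈ I, wt e * surv S a (A e)) + ν ^ 2 * surv S a {q} := by
      funext a
      have hZs : surv S a {q} * ∑ e ∈ I, wt e * surv S a (A e) =
          ∑ e ∈ I, wt e * surv S a (A e) := by
        rw [mul_sum]
        refine sum_congr rfl fun e he => ?_
        rw [mul_left_comm, mul_surv_of_mem a (hmem e he).2.1]
      have hss := surv_mul_self a {q}
      linear_combination (-2 * ν) * hZs + ν ^ 2 * hss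
    rw [e, mean_add, mean_add, mean_const_mul, mean_const_mul, mean_surv hS, survProb_singleton,
      ← hσd]
    have h1 := mul_le_mul_of_nonneg_left hEZ hν0.le
    linarith
  rw [hZ]
  have hpt : ∀ a ∈ classes S, (if ∑ e ∈ I, wt e * surv S a (A e) < ν / 2 then
      surv S a {q} else 0) ≤
      4 / ν ^ 2 * (∑ e ∈ I, wt e * surv S a (A e) - ν * surv S a {q}) ^ 2 := fun a _ => by
    split_ifs with hb
    · rcases surv_mem a {q} with hs | hs
      · rw [hs]
        positivity
      · rw [hs, mul_one, div_mul_eq_mul_div, le_div_iff₀ (by positivity)]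
        nlinarith
    · positivity
  refine (mean_mono hpt).trans ?_
  rw [mean_const_mul]
  refine (mul_le_mul_of_nonneg_left hvar (by positivity)).trans ?_
  rw [div_mul_eq_mul_div, div_le_iff₀ (by positivity)]
  have h1 : 4 * ((k : ℝ) * wmax * mass) ≤ δ * σ * ν ^ 2 := by
    refine le_trans ?_ (le_trans (mul_le_mul_of_nonneg_right hsmall hmass.le) (le_trans ?_
      (le_of_eq (show δ * σ ^ (2 * k - 1) * mass * mass = δ * σ * ν ^ 2 by
        rw [hν, mul_pow, ← pow_mul, show (k - 1) * 2 = 2 * k - 2 by omega,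
          show 2 * k - 1 = 2 * k - 2 + 1 by omega, pow_succ]
        ring))))
    · have : (k : ℝ) ≤ (k : ℝ) ^ 2 := by
        exact_mod_cast Nat.le_self_pow two_ne_zero k
      have := mul_le_mul_of_nonneg_right this (mul_nonneg hwmax hmass.le)
      linarith
    · have := pow_le_pow_of_le_one hσ.le hσ1 (show 2 * k - 1 ≤ 2 * k by omega)
      gcongr
  linarith

theorem sum_hitMass_bad_le (hP : ∀ p ∈ P, 0 < p) (hW : 0 < W)
    (hQ : ∀ q ∈ Q, q ≤ U ∧ ∀ p ∈ P, k * W * p < q) (hw : ∀ p ∈ P, ∀ t, 0 ≤ w p t)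
    (f : ℕ → ℝ) (hf : ∀ p, 0 ≤ f p) (a : ∀ s ∈ S, ℕ) :
    ∑ q ∈ Q, hitMass S P k W w f q a ≤ (k : ℝ) * ∑ p ∈ P, f p * survMass S k W U w p a := by
  simp only [hitMass, sum_product]
  rw [sum_comm, mul_sum]
  refine sum_le_sum fun p hp => ?_
  rw [sum_comm]
  refine (sum_le_card_nsmul _ _ (f p * survMass S k W U w p a) fun m hm => ?_).trans
    (le_of_eq (by rw [card_range, nsmul_eq_mul]))
  rw [← mul_sum, survMass]
  refine mul_le_mul_of_nonneg_left ?_ (hf p)
  rw [mem_range] at hm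
  have hle : m * W * p ≤ k * W * p := Nat.mul_le_mul_right _ (Nat.mul_le_mul_right _ hm.le)
  refine le_trans (le_of_eq (sum_image (f := fun t => w p t * surv S a (tupleSet k W p t))
    (g := fun q => q - m * W * p) fun x hx y hy hxy => ?_).symm)
    (sum_le_sum_of_subset_of_nonneg (fun t ht => ?_) fun t _ _ =>
      mul_nonneg (hw p hp t) (surv_nonneg _ _))
  · have := (hQ x hx).2 p hp
    have := (hQ y hy).2 p hp
    simp only at hxy
    omega
  · obtain ⟨x, hx, rfl⟩ := mem_image.1 ht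
    have := (hQ x hx).2 p hp
    have := (hQ x hx).1
    exact mem_Icc.2 ⟨by omega, by omega⟩

/-- **The two random steps.** -/
theorem exists_random_choice {G : ℝ} {Q₀ : Finset ℕ} (h : SieveScale S (2 * k) N P₀ δ) (hk : 0 < k)
    (hW : 0 < W) (hU : 0 < U) (hP : ∀ p ∈ P, p.Prime ∧ k < p)
    (hN : ∀ p ∈ P, U + k * W * p ≤ N) (hQ : ∀ q ∈ Q, q ≤ U ∧ ∀ p ∈ P, k * W * p < q)
    (hwmax : 0 ≤ wmax) (hw : ∀ p ∈ P, ∀ t, 0 ≤ w p t ∧ w p t ≤ wmax)
    (hmass : ∀ p ∈ P, ∑ t ∈ Icc 1 U, w p t ≤ U) (hG : 0 < G)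
    (hGle : ∀ q ∈ Q, G ≤ ∑ p ∈ P, ∑ m ∈ range k, w p (q - m * W * p))
    (hsU : 4 * (k : ℝ) ^ 2 * wmax ≤ δ * sieveDensity S ^ (2 * k) * U)
    (hsG : 4 * (k : ℝ) ^ 2 * wmax ≤ δ * sieveDensity S ^ (2 * k) * G) :
    ∃ a r : ℕ → ℕ,
      (((Q ∪ Q₀).filter fun q => (∀ s ∈ S, q % s ≠ a s) ∧ ∀ p ∈ P, q % p ≠ r p).card : ℝ) ≤
        sieveDensity S * Q.card * (Real.exp (-(G / (8 * sieveDensity S * U))) + 13 * δ) +
          28 * k * δ * sieveDensity S * U * P.card / G + sieveDensity S * Q₀.card := by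
  have hS : ∀ s ∈ S, 0 < s := fun s hs => (h.prime s hs).pos
  have hσ := h.density_pos
  have hδ := h.nonneg
  obtain ⟨σ, hσd⟩ : ∃ σ, σ = sieveDensity S := ⟨_, rfl⟩
  rw [← hσd] at hσ hsU hsG ⊢
  have hU' : (0 : ℝ) < U := Nat.cast_pos.2 hU
  obtain ⟨μ, hμ⟩ : ∃ μ, μ = σ ^ k * (U : ℝ) := ⟨_, rfl⟩
  have hμ0 : 0 < μ := hμ ▸ mul_pos (pow_pos hσ k) hU'
  obtain ⟨ν, hν⟩ : ∃ ν : ℕ → ℝ, ν = fun q =>
      σ ^ (k - 1) * ∑ e ∈ P ×ˢ range k, w e.1 (q - e.2 * W * e.1) := ⟨_, rfl⟩
  obtain ⟨νG, hνG⟩ : ∃ x, x = σ ^ (k - 1) * G := ⟨_, rfl⟩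
  have hνG0 : 0 < νG := hνG ▸ mul_pos (pow_pos hσ _) hG
  have hGle' : ∀ q ∈ Q, G ≤ ∑ e ∈ P ×ˢ range k, w e.1 (q - e.2 * W * e.1) := fun q hq => by
    rw [sum_product]
    exact hGle q hq
  have hνle : ∀ q ∈ Q, νG ≤ ν q := fun q hq => by
    rw [hν, hνG]
    exact mul_le_mul_of_nonneg_left (hGle' q hq) (pow_nonneg hσ.le _)
  obtain ⟨bad, hbad⟩ : ∃ bad : (∀ s ∈ S, ℕ) → ℕ → ℝ,
      bad = fun a p => if 2 * μ < survMass S k W U w p a then 1 else 0 := ⟨_, rfl⟩
  obtain ⟨T, hT⟩ : ∃ T, T = Real.exp (-(G / (8 * σ * U))) := ⟨_, rfl⟩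
  rw [← hT]
  obtain ⟨F, hF⟩ : ∃ F : (∀ s ∈ S, ℕ) → ℝ, F = fun a =>
      ∑ q ∈ Q, (T * surv S a {q} +
        if hitMass S P k W w (fun _ => 1) q a < ν q / 2 then surv S a {q} else 0) +
      4 * k / νG * ∑ p ∈ P, bad a p * survMass S k W U w p a + ∑ q ∈ Q₀, surv S a {q} := ⟨_, rfl⟩
  have hEF : mean S F ≤ σ * Q.card * (T + 13 * δ) + 28 * k * δ * σ * U * P.card / G +
      σ * Q₀.card := by
    simp only [hF, mean_add, mean_sum, mean_const_mul, mean_surv hS, survProb_singleton, ← hσd]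
    refine add_le_add (add_le_add ?_ ?_) (le_of_eq (by rw [sum_const, nsmul_eq_mul, mul_comm]))
    · refine (sum_le_card_nsmul _ _ (T * σ + 13 * δ * σ) fun q hq => add_le_add le_rfl ?_).trans
        (le_of_eq (by rw [nsmul_eq_mul]; ring))
      have := mean_badZ_le h hk hW hP (hQ q hq).2
        (fun p hp => (Nat.add_le_add_right (hQ q hq).1 _).trans (hN p hp)) hwmax hw
        (hG.trans_le (hGle' q hq)) (hσd ▸ hsG.trans (mul_le_mul_of_nonneg_left (hGle' q hq)
          (mul_nonneg hδ (pow_nonneg hσ.le _))))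
      rwa [← hσd, show σ ^ (k - 1) * ∑ e ∈ P ×ˢ range k, w e.1 (q - e.2 * W * e.1) = ν q by
        rw [hν]] at this
    · refine (mul_le_mul_of_nonneg_left (sum_le_card_nsmul _ _ (7 * δ * μ) fun p hp => ?_)
        (by positivity)).trans (le_of_eq ?_)
      · have := mean_bad_le h hW (hP p hp).1.pos hU (hN p hp) hwmax (hw p hp) (hmass p hp)
          (hσd ▸ hsU)
        rw [← hσd, ← hμ] at this
        refine le_trans (le_of_eq (congrArg (mean S) ?_)) this
        funext a
        simp only [hbad, ite_mul, one_mul, zero_mul]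
      · rw [nsmul_eq_mul, hνG, hμ, show σ ^ k = σ * σ ^ (k - 1) by
          rw [← pow_succ', Nat.sub_add_cancel hk]]
        have := (pow_pos hσ (k - 1)).ne'
        field_simp
        ring
  obtain ⟨a, -, ha⟩ := exists_le_mean hS F
  obtain ⟨f, hf⟩ : ∃ f : ℕ → ℝ, f = fun p => 1 - bad a p := ⟨_, rfl⟩
  have hf01 : ∀ p, 0 ≤ f p := fun p => by
    simp only [hf, hbad]
    split_ifs <;> norm_num
  obtain ⟨π, hπ⟩ : ∃ π : ℕ → ℕ → ℝ, π = fun p c => f p *
      (∑ t ∈ (Icc 1 U).filter (fun t => t % p = c), w p t * surv S a (tupleSet k W p t)) /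
        (2 * μ) := ⟨_, rfl⟩
  obtain ⟨V, hV⟩ : ∃ V, V = Q.filter fun q => surv S a {q} = 1 ∧
      ν q / 2 ≤ hitMass S P k W w (fun _ => 1) q a ∧
      hitMass S P k W w (bad a) q a ≤ ν q / 4 := ⟨_, rfl⟩
  obtain ⟨r, hr⟩ := exists_weighted_choice P π (fun p hp c => by
      simp only [hπ]
      exact div_nonneg (mul_nonneg (hf01 p) (sum_nonneg fun t _ =>
        mul_nonneg (hw p hp t).1 (surv_nonneg _ _))) (by linarith))
    (fun p hp => by
      simp only [hπ, ← sum_div, ← mul_sum]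
      rw [sum_fiberwise_of_maps_to (g := fun t => t % p) fun t _ =>
        mem_range.2 (Nat.mod_lt _ (hP p hp).1.pos), div_le_one (by linarith)]
      simp only [hf, hbad]
      split_ifs with hb
      · rw [sub_self, zero_mul]
        linarith
      · rw [sub_zero, one_mul]
        exact not_lt.1 hb)
    (fun p hp => (hP p hp).1.pos) V
  have hcov : ∀ q ∈ V, G / (8 * σ * U) ≤ ∑ p ∈ P, π p (q % p) := fun q hq => by
    rw [hV, mem_filter] at hq
    obtain ⟨hqQ, -, hZ, hL⟩ := hq
    have hfZ : ν q / 4 ≤ hitMass S P k W w f q a := by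
      have : hitMass S P k W w f q a =
          hitMass S P k W w (fun _ => 1) q a - hitMass S P k W w (bad a) q a := by
        simp only [hitMass, hf, ← sum_sub_distrib, sub_mul]
      linarith
    calc G / (8 * σ * U) = νG / 4 / (2 * μ) := by
          rw [hνG, hμ, show σ ^ k = σ * σ ^ (k - 1) by rw [← pow_succ', Nat.sub_add_cancel hk]]
          have := (pow_pos hσ (k - 1)).ne'
          field_simp
          ring
      _ ≤ hitMass S P k W w f q a / (2 * μ) :=
          div_le_div_of_nonneg_right (le_trans (by linarith [hνle q hqQ]) hfZ) (by linarith)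
      _ ≤ _ := by
          simp only [hitMass, sum_product, sum_div, hπ]
          refine sum_le_sum fun p hp => ?_
          rw [← sum_div, ← mul_sum]
          refine div_le_div_of_nonneg_right (mul_le_mul_of_nonneg_left ?_ (hf01 p)) (by linarith)
          refine le_trans (le_of_eq (sum_image
            (f := fun t => w p t * surv S a (tupleSet k W p t))
            (g := fun m => q - m * W * p) fun m hm m' hm' he => ?_).symm)
            (sum_le_sum_of_subset_of_nonneg (fun t ht => ?_) fun t _ _ =>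
              mul_nonneg (hw p hp t).1 (surv_nonneg _ _))
          · rw [mem_coe, mem_range] at hm hm'
            have h1 := Nat.mul_le_mul_right p (Nat.mul_le_mul_right W hm.le)
            have h2 := Nat.mul_le_mul_right p (Nat.mul_le_mul_right W hm'.le)
            have := (hQ q hqQ).2 p hp
            simp only at he
            have h3 : m * W * p = m' * W * p := by omega
            exact Nat.eq_of_mul_eq_mul_right hW (Nat.eq_of_mul_eq_mul_right (hP p hp).1.pos h3)
          · obtain ⟨m, hm, rfl⟩ := mem_image.1 ht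
            rw [mem_range] at hm
            have h1 := Nat.mul_le_mul_right p (Nat.mul_le_mul_right W hm.le)
            have := (hQ q hqQ).2 p hp
            have := (hQ q hqQ).1
            refine mem_filter.2 ⟨mem_Icc.2 ⟨by omega, by omega⟩, ?_⟩
            conv_rhs => rw [← Nat.sub_add_cancel (show m * W * p ≤ q by omega)]
            rw [Nat.add_mul_mod_self_right]
  refine ⟨fun s => if hs : s ∈ S then a s hs else 0, r, le_trans ?_ (ha.trans hEF)⟩
  have hsub : ((Q ∪ Q₀).filter fun q => (∀ s ∈ S, q % s ≠ if hs : s ∈ S then a s hs else 0) ∧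
      ∀ p ∈ P, q % p ≠ r p) ⊆ (V.filter fun q => ∀ p ∈ P, q % p ≠ r p) ∪
      (Q.filter fun q => surv S a {q} = 1 ∧ hitMass S P k W w (fun _ => 1) q a < ν q / 2) ∪
      (Q.filter fun q => ν q / 4 < hitMass S P k W w (bad a) q a) ∪
      (Q₀.filter fun q => surv S a {q} = 1) := by
    intro q hq
    rw [mem_filter, mem_union] at hq
    obtain ⟨hq, hqa, hqr⟩ := hq
    have hs1 : surv S a {q} = 1 := by
      refine prod_eq_one fun s _ => if_neg fun hm => ?_
      simp only [image_singleton, mem_singleton] at hm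
      exact hqa s.1 s.2 (by rw [dif_pos s.2, hm])
    rcases hq with hq | hq
    · by_cases h1 : hitMass S P k W w (fun _ => 1) q a < ν q / 2
      · exact mem_union_left _ (mem_union_left _ (mem_union_right _ (mem_filter.2 ⟨hq, hs1, h1⟩)))
      by_cases h2 : ν q / 4 < hitMass S P k W w (bad a) q a
      · exact mem_union_left _ (mem_union_right _ (mem_filter.2 ⟨hq, h2⟩))
      refine mem_union_left _ (mem_union_left _ (mem_union_left _ (mem_filter.2 ⟨?_, hqr⟩)))
      rw [hV]
      exact mem_filter.2 ⟨hq, hs1, not_lt.1 h1, not_lt.1 h2⟩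
    · exact mem_union_right _ (mem_filter.2 ⟨hq, hs1⟩)
  refine (Nat.cast_le.2 ((card_le_card hsub).trans ((card_union_le _ _).trans (add_le_add
    ((card_union_le _ _).trans (add_le_add (card_union_le _ _) le_rfl)) le_rfl)))).trans ?_
  push_cast
  simp only [hF, sum_add_distrib]
  refine add_le_add (add_le_add (add_le_add ?_ ?_) ?_) ?_
  · refine hr.trans ((sum_le_sum (g := fun q => T * surv S a {q}) fun q hq => ?_).trans
      (sum_le_sum_of_subset_of_nonneg (hV ▸ filter_subset _ _) fun q _ _ =>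
        mul_nonneg (hT ▸ (Real.exp_pos _).le) (surv_nonneg _ _)))
    rw [show surv S a {q} = 1 by rw [hV, mem_filter] at hq; exact hq.2.1, mul_one, hT,
      Real.exp_le_exp]
    linarith [hcov q hq]
  · rw [card_filter, Nat.cast_sum]
    refine sum_le_sum fun q _ => ?_
    have := surv_nonneg a {q}
    by_cases h1 : surv S a {q} = 1 ∧ hitMass S P k W w (fun _ => 1) q a < ν q / 2
    · rw [if_pos h1, if_pos h1.2, h1.1, Nat.cast_one]
    · rw [if_neg h1, Nat.cast_zero]
      split_ifs <;> linarith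
  · have hnn : ∀ p, 0 ≤ bad a p := fun p => by
      simp only [hbad]
      split_ifs <;> norm_num
    refine le_trans ?_ (le_trans (mul_le_mul_of_nonneg_left
      (sum_hitMass_bad_le (fun p hp => (hP p hp).1.pos) hW hQ (fun p hp t => (hw p hp t).1)
        (bad a) hnn a) (show 0 ≤ 4 / νG by positivity)) (le_of_eq (by ring)))
    rw [mul_sum, card_filter, Nat.cast_sum]
    refine sum_le_sum fun q hq => ?_
    have h0 : 0 ≤ hitMass S P k W w (bad a) q a := sum_nonneg fun e he =>
      mul_nonneg (hnn _) (mul_nonneg (hw _ (mem_product.1 he).1 _).1 (surv_nonneg _ _))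
    split_ifs with h1
    · rw [Nat.cast_one, div_mul_eq_mul_div, le_div_iff₀ hνG0, one_mul]
      linarith [hνle q hq]
    · rw [Nat.cast_zero]
      positivity
  · rw [card_filter, Nat.cast_sum]
    refine sum_le_sum fun q _ => ?_
    split_ifs with h1
    · rw [h1, Nat.cast_one]
    · simpa using surv_nonneg a {q}

end FA.MaynardGaps
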