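import Fermat.Agent.BoundedGaps.Threshold
import Mathlib.Data.Nat.ChineseRemainder

/-!
# Maynard's weights on `t + i D! p`

`t ≡ p mod D!` is `t ≡ p (D! c + 1)` modulo `D!` times the product of the primes in `(D, R]`, and
then `d ∣ t + i D! p` is `d ∣ L i c` for the consecutive tuple. So the sum over `t` is `U / D!`
times the mean of `f²`, and the sum over primes `p` of the weights at `t = q - m D! p`, `q` a
prime, is the mean of `f²` away from the `m`-th form, up to the errors in the prime number theorem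
for progressions.
-/

set_option autoImplicit false
set_option linter.unusedSectionVars false

noncomputable section

namespace FA.MaynardGaps

open Finset FA.BoundedGaps
open scoped Nat Classical

/-- The indicator of `d i ∣ t + i D! p` for all `i`. -/
def progInd {k : ℕ} (D : ℕ) (d : Fin k → ℕ) (p t : ℕ) : ℝ :=
  if ∀ i : Fin k, d i ∣ t + i * D ! * p then 1 else 0

/-- The weight of the tuple at `t`, before normalisation. -/
def progWeight (k D R : ℕ) (g : ℕ → ℝ) (p t : ℕ) : ℝ :=
  if t ≡ p [MOD D !] then (∑ d ∈ supp k D R, sieveCoeff D R g d * progInd D d p t) ^ 2 else 0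

/-- The primes in `(x / 2, x]`. -/
def topPrimes (x : ℕ) : Finset ℕ := (Ioc (x / 2) x).filter Nat.Prime

theorem progWeight_nonneg (k D R : ℕ) (g : ℕ → ℝ) (p t : ℕ) : 0 ≤ progWeight k D R g p t := by
  rw [progWeight]
  split_ifs
  exacts [sq_nonneg _, le_rfl]

variable [Shifts]

variable {k D R : ℕ}

theorem coprime_factorial_modulus : (D !).Coprime (modulus D R) := by
  refine Nat.Coprime.prod_right fun p hp => ?_
  have h1 := (mem_Ioc.1 (mem_filter.1 hp).1).1
  refine ((prime_of_mid p hp).coprime_iff_not_dvd.2 fun h => ?_).symm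
  exact absurd ((prime_of_mid p hp).dvd_factorial.1 h) (not_le.2 h1)

theorem coprime_prime_modulus {p : ℕ} (hp : p.Prime) (hRp : R < p) :
    p.Coprime (modulus D R) := by
  refine Nat.Coprime.prod_right fun r hr => ?_
  refine (Nat.coprime_primes hp (prime_of_mid r hr)).2 fun e => ?_
  have := (mem_Ioc.1 (mem_filter.1 hr).1).2
  omega

theorem coprime_prime_factorial {p : ℕ} (hp : p.Prime) (hDp : D < p) : p.Coprime D ! :=
  hp.coprime_iff_not_dvd.2 fun h => absurd (hp.dvd_factorial.1 h) (not_le.2 hDp)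

/-- `c` with `p (D! c + 1) ≡ t`. -/
theorem exists_solution {p t : ℕ} (hp : p.Prime) (hDp : D < p) (hRp : R < p)
    (ht : t ≡ p [MOD D !]) : ∃ c : ℕ, p * (D ! * c + 1) ≡ t [MOD D ! * modulus D R] := by
  have : NeZero (modulus D R) := ⟨modulus_pos.ne'⟩
  have hu : IsUnit ((p * D ! : ℕ) : ZMod (modulus D R)) := (ZMod.isUnit_iff_coprime _ _).2
    ((coprime_prime_modulus hp hRp).mul_left coprime_factorial_modulus)
  refine ⟨(((t : ZMod (modulus D R)) - p) * ((p * D ! : ℕ) : ZMod (modulus D R))⁻¹).val,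
    (Nat.modEq_and_modEq_iff_modEq_mul coprime_factorial_modulus).1 ⟨?_, ?_⟩⟩
  · refine Nat.ModEq.trans ?_ ht.symm
    rw [mul_add, mul_one, mul_left_comm, Nat.ModEq, Nat.mul_add_mod]
  · rw [← ZMod.natCast_eq_natCast_iff]
    push_cast
    rw [ZMod.natCast_zmod_val]
    have h := ZMod.mul_inv_of_unit _ hu
    push_cast at h
    linear_combination ((t : ZMod (modulus D R)) - p) * h

variable (hs : ∀ i, shift i = D ! * i + 1)

include hs in
theorem progInd_eq {p t c : ℕ} (hp : p.Prime) (hRp : R < p)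
    (hc : p * (D ! * c + 1) ≡ t [MOD D ! * modulus D R]) {d : Fin k → ℕ} (hd : d ∈ supp k D R) :
    progInd D d p t = dvdInd D d c := by
  have hiff : ∀ i : Fin k, d i ∣ t + i * D ! * p ↔ d i ∣ form D i c := fun i => by
    have hdM : d i ∣ modulus D R := (dvd_prod_of_mem d (mem_univ i)).trans (prod_dvd_modulus hd)
    have h : p * form D i c ≡ t + i * D ! * p [MOD d i] := by
      have h1 := (hc.of_dvd (dvd_mul_of_dvd_right hdM _)).add_right ((i : ℕ) * D ! * p)
      rwa [show p * (D ! * c + 1) + (i : ℕ) * D ! * p = p * form D i c by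
        rw [form, hs]; ring] at h1
    rw [← h.dvd_iff (dvd_refl _)]
    exact Nat.Coprime.dvd_mul_left ((coprime_prime_modulus hp hRp).coprime_dvd_right hdM).symm
  simp only [progInd, dvdInd, hiff]

/-- Congruent residues `c` are congruent `t`. -/
theorem class_iff {p t c q c₀ : ℕ} (hp : p.Prime) (hDp : D < p) (hRp : R < p)
    (hq : q ∣ modulus D R) (hc : p * (D ! * c + 1) ≡ t [MOD D ! * modulus D R]) :
    c ≡ c₀ [MOD q] ↔ t ≡ p * (D ! * c₀ + 1) [MOD D ! * q] := by
  have h1 := hc.of_dvd (mul_dvd_mul_left (D !) hq)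
  refine ⟨fun h => h1.symm.trans (((h.mul_left' _).add_right 1).mul_left p), fun h => ?_⟩
  have h2 := Nat.ModEq.cancel_left_of_coprime
    (((coprime_prime_factorial hp hDp).mul_right
      ((coprime_prime_modulus hp hRp).coprime_dvd_right hq)).symm) (h1.trans h)
  exact (Nat.ModEq.add_right_cancel' 1 h2).mul_left_cancel' (Nat.factorial_pos D).ne'

omit [Shifts] in
theorem abs_card_Icc_class_sub_le {n : ℕ} (hn : 0 < n) (U a : ℕ) :
    |(((Icc 1 U).filter fun t => t ≡ a [MOD n]).card : ℝ) - (U : ℝ) / n| ≤ 1 := by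
  have h := Nat.Ioc_filter_modEq_card 0 U hn a
  obtain ⟨u, hu⟩ : ∃ u : ℚ, u = ((U : ℚ) - a) / n := ⟨_, rfl⟩
  obtain ⟨v, hv⟩ : ∃ v : ℚ, v = (((0 : ℕ) : ℚ) - a) / n := ⟨_, rfl⟩
  rw [← hu, ← hv] at h
  have huv : u - v = (U : ℚ) / n := by
    rw [hu, hv, ← sub_div]
    push_cast
    ring
  have hle : ⌊v⌋ ≤ ⌊u⌋ := by
    refine Int.floor_mono ?_
    have : (0 : ℚ) ≤ (U : ℚ) / n := by positivity
    linarith
  rw [max_eq_left (sub_nonneg.2 hle), show Ioc 0 U = Icc 1 U by ext; simp; omega] at h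
  have h2 : |(((Icc 1 U).filter fun t => t ≡ a [MOD n]).card : ℚ) - (U : ℚ) / n| ≤ 1 := by
    rw [← Int.cast_natCast (R := ℚ) (((Icc 1 U).filter _).card), h, Int.cast_sub, ← huv, abs_le]
    constructor <;>
      linarith [Int.floor_le u, Int.lt_floor_add_one u, Int.floor_le v, Int.lt_floor_add_one v]
  have h3 := (Rat.cast_le (K := ℝ)).2 h2
  push_cast at h3
  exact h3

include hs in
/-- **The sum over `t`.** -/
theorem sum_progWeight_le {g : ℕ → ℝ} (hg : ∀ a, |g a| ≤ 1) {p : ℕ}
    (hp : p.Prime) (hDp : D < p) (hRp : R < p) (U : ℕ) :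
    ∑ t ∈ Icc 1 U, progWeight k D R g p t ≤
      (U : ℝ) / (D ! : ℕ) * avgAll D R (fun c => sieveSum D R g k c ^ 2) +
        ((R : ℝ) ^ 3 * (2 ^ k * coeffBound k D R)) ^ 2 := by
  obtain ⟨l, hl⟩ : ∃ l : (Fin k → ℕ) → ℝ, l = sieveCoeff D R g := ⟨_, rfl⟩
  obtain ⟨T, hT⟩ : ∃ T, T = (Icc 1 U).filter fun t => t ≡ p [MOD D !] := ⟨_, rfl⟩
  have hsum : ∑ t ∈ Icc 1 U, progWeight k D R g p t = ∑ d ∈ supp k D R, ∑ e ∈ supp k D R,
      l d * l e * ∑ t ∈ T, progInd D d p t * progInd D e p t := by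
    have := sq_sum_pairs (supp k D R) (fun _ => 1) T l (fun d t => progInd D d p t)
    simp only [one_mul] at this
    rw [← this, hT, sum_filter]
    simp only [progWeight, hl]
  have havg : avgAll D R (fun c => sieveSum D R g k c ^ 2) =
      ∑ d ∈ supp k D R, ∑ e ∈ supp k D R, l d * l e * avgAll D R (pairInd D d e) := by
    have := sq_sum_pairs (supp k D R) (fun _ => 1) (range (modulus D R)) l (dvdInd D)
    simp only [one_mul] at this
    simp only [avgAll, sieveSum_eq, ← hl, this, sum_div, mul_div_assoc]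
    simp only [pairInd, mul_div_assoc]
  have hpair : ∀ d ∈ supp k D R, ∀ e ∈ supp k D R, |∑ t ∈ T, progInd D d p t * progInd D e p t -
      (U : ℝ) / (D ! : ℕ) * avgAll D R (pairInd D d e)| ≤ 1 := by
    intro d hd e he
    have hT' : ∀ t ∈ T, ∃ c : ℕ, p * (D ! * c + 1) ≡ t [MOD D ! * modulus D R] := fun t ht =>
      exists_solution hp hDp hRp (by rw [hT] at ht; exact (mem_filter.1 ht).2)
    by_cases h : ∃ c₀, pairInd D d e c₀ ≠ 0
    · obtain ⟨c₀, h0⟩ := h
      have hq := pairMod_dvd hd he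
      rw [show pairInd D d e = fun c => if c ≡ c₀ [MOD pairMod d e] then (1 : ℝ) else 0 from
        funext (pairInd_eq hd he h0), avgAll_class hq]
      rw [sum_congr rfl (g := fun t => if t ≡ p * (D ! * c₀ + 1) [MOD D ! * pairMod d e]
        then (1 : ℝ) else 0) fun t ht => ?_, sum_boole, hT, filter_filter,
        div_mul_eq_mul_div, ← div_eq_mul_inv, div_div, mul_comm ((pairMod d e : ℕ) : ℝ),
        ← Nat.cast_mul]
      · have hiff : ∀ t, (t ≡ p [MOD D !] ∧ t ≡ p * (D ! * c₀ + 1) [MOD D ! * pairMod d e]) ↔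
            t ≡ p * (D ! * c₀ + 1) [MOD D ! * pairMod d e] := fun t => by
          refine ⟨fun h => h.2, fun h => ⟨(h.of_dvd (dvd_mul_right _ _)).trans ?_, h⟩⟩
          rw [mul_add, mul_one, mul_left_comm, Nat.ModEq, Nat.mul_add_mod]
        simp only [hiff]
        exact abs_card_Icc_class_sub_le (Nat.mul_pos (Nat.factorial_pos D)
          (Nat.pos_of_dvd_of_pos hq modulus_pos)) U _
      · obtain ⟨c, hc⟩ := hT' t ht
        rw [progInd_eq hs hp hRp hc hd, progInd_eq hs hp hRp hc he]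
        show pairInd D d e c = _
        rw [pairInd_eq hd he h0]
        simp only [class_iff hp hDp hRp hq hc]
    · push Not at h
      rw [sum_eq_zero fun t ht => ?_, show avgAll D R (pairInd D d e) = 0 by simp [avgAll, h],
        mul_zero, sub_self, abs_zero]
      · exact zero_le_one
      · obtain ⟨c, hc⟩ := hT' t ht
        rw [progInd_eq hs hp hRp hc hd, progInd_eq hs hp hRp hc he]
        exact h c
  rw [hsum, havg, mul_sum, ← sub_le_iff_le_add', ← sum_sub_distrib]
  refine (sum_le_sum (g := fun d => ∑ e ∈ supp k D R, |l d| * |l e|) fun d hd => ?_).trans ?_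
  · rw [mul_sum, ← sum_sub_distrib]
    refine sum_le_sum fun e he => ?_
    rw [mul_left_comm, ← mul_sub]
    refine (le_abs_self _).trans ?_
    rw [abs_mul, abs_mul]
    exact mul_le_of_le_one_right (mul_nonneg (abs_nonneg _) (abs_nonneg _)) (hpair d hd e he)
  rw [← sum_mul_sum, ← sq]
  refine pow_le_pow_left₀ (sum_nonneg fun d _ => abs_nonneg _) ?_ 2
  refine (sum_le_card_nsmul _ _ ((R : ℝ) * coeffBound k D R) fun d hd => ?_).trans ?_
  · rw [hl]
    refine (abs_sieveCoeff_le hg hd).trans (mul_le_mul_of_nonneg_right ?_ coeffBound_nonneg)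
    refine (div_le_self (Nat.cast_nonneg _) ?_).trans (Nat.cast_le.2 (mem_supp.1 hd).2.2)
    exact_mod_cast Nat.totient_pos.2 (prod_pos_of_supp hd)
  · rw [nsmul_eq_mul]
    refine (mul_le_mul_of_nonneg_right card_supp_le
      (mul_nonneg (Nat.cast_nonneg _) coeffBound_nonneg)).trans (le_of_eq ?_)
    ring

/-- The weight is at most the square of the sum of the coefficients. -/
theorem progWeight_le {g : ℕ → ℝ} (hg : ∀ a, |g a| ≤ 1) (p t : ℕ) :
    progWeight k D R g p t ≤ ((R : ℝ) ^ 3 * (2 ^ k * coeffBound k D R)) ^ 2 := by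
  rw [progWeight]
  split_ifs
  swap
  · positivity
  rw [← sq_abs]
  refine pow_le_pow_left₀ (abs_nonneg _) ((abs_sum_le_sum_abs _ _).trans
    ((sum_le_card_nsmul _ _ ((R : ℝ) * coeffBound k D R) fun d hd => ?_).trans ?_)) 2
  · rw [abs_mul]
    refine le_trans (mul_le_of_le_one_right (abs_nonneg _) ?_) ?_
    · rw [progInd]
      split_ifs <;> simp
    refine (abs_sieveCoeff_le hg hd).trans (mul_le_mul_of_nonneg_right ?_ coeffBound_nonneg)
    refine (div_le_self (Nat.cast_nonneg _) ?_).trans (Nat.cast_le.2 (mem_supp.1 hd).2.2)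
    exact_mod_cast Nat.totient_pos.2 (prod_pos_of_supp hd)
  · rw [nsmul_eq_mul]
    refine (mul_le_mul_of_nonneg_right card_supp_le
      (mul_nonneg (Nat.cast_nonneg _) coeffBound_nonneg)).trans (le_of_eq ?_)
    ring

include hs in
/-- **One pair against the primes.** -/
theorem abs_pair_primeSum_sub_le (hk : AdmissibleTuple k D) {m : Fin k} {d e : Fin k → ℕ}
    (hd : d ∈ supp k D R) (he : e ∈ supp k D R) {x q : ℕ} (hRx : R ≤ x / 2) (hDx : D ≤ x / 2)
    (hq : q.Prime) (hqx : k * D ! * x < q) :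
    |∑ p ∈ (topPrimes x).filter (fun p => q ≡ p [MOD D !]), Real.log (p : ℕ) *
        (progInd D d p (q - m * D ! * p) * progInd D e p (q - m * D ! * p)) -
        ((x : ℝ) - (x / 2 : ℕ)) / ((D !).totient : ℕ) * avgAway D R m (pairInd D d e)| ≤
      apErr x (D ! * pairMod d e) + apErr (x / 2) (D ! * pairMod d e) := by
  obtain ⟨E, hE⟩ : ∃ E, E = apErr x (D ! * pairMod d e) +
      apErr (x / 2) (D ! * pairMod d e) := ⟨_, rfl⟩
  have hE0 : 0 ≤ E := hE ▸ add_nonneg (apErr_nonneg _ _) (apErr_nonneg _ _)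
  rw [← hE]
  have hW0 := Nat.factorial_pos D
  have hxq : x < q := lt_of_le_of_lt (Nat.le_mul_of_pos_left x (Nat.mul_pos m.pos hW0)) hqx
  have hP : ∀ p ∈ (topPrimes x).filter (fun p => q ≡ p [MOD D !]), p.Prime ∧ D < p ∧ R < p ∧
      m * D ! * p ≤ q ∧ q - m * D ! * p ≡ p [MOD D !] := fun p hp => by
    rw [mem_filter, topPrimes, mem_filter, mem_Ioc] at hp
    obtain ⟨⟨⟨hp1, hp2⟩, hpp⟩, hpq⟩ := hp
    have h1 : m * D ! * p ≤ k * D ! * x :=
      Nat.mul_le_mul (Nat.mul_le_mul_right _ m.2.le) hp2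
    refine ⟨hpp, by omega, by omega, by omega, Nat.ModEq.trans ?_ hpq⟩
    conv_rhs => rw [← Nat.sub_add_cancel (show m * D ! * p ≤ q by omega)]
    rw [mul_comm (m : ℕ), mul_assoc, Nat.ModEq, Nat.add_mul_mod_self_left]
  -- the residue attached to `p`
  have hsol : ∀ p ∈ (topPrimes x).filter (fun p => q ≡ p [MOD D !]), ∃ c : ℕ,
      p * (D ! * c + 1) ≡ q - m * D ! * p [MOD D ! * modulus D R] ∧
        p * form D m c ≡ q [MOD D ! * modulus D R] := fun p hp => by
    obtain ⟨hpp, hDp, hRp, hle, hmod⟩ := hP p hp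
    obtain ⟨c, hc⟩ := exists_solution hpp hDp hRp hmod
    refine ⟨c, hc, ?_⟩
    have h1 := hc.add_right ((m : ℕ) * D ! * p)
    rwa [Nat.sub_add_cancel hle, show p * (D ! * c + 1) + (m : ℕ) * D ! * p = p * form D m c by
      rw [form, hs]; ring] at h1
  by_cases h : d m = 1 ∧ e m = 1 ∧ ∃ c₀, pairInd D d e c₀ ≠ 0
  · obtain ⟨hdm, hem, c₀, h0⟩ := h
    have hqdvd := pairMod_dvd hd he
    have hq0 : 0 < pairMod d e := Nat.pos_of_dvd_of_pos hqdvd modulus_pos
    have hdiv : (∀ i : Fin k, d i ∣ form D i c₀) ∧ ∀ i : Fin k, e i ∣ form D i c₀ := by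
      simp only [pairInd, dvdInd, ne_eq, mul_eq_zero, not_or] at h0
      exact ⟨by by_contra h; exact h0.1 (if_neg h), by by_contra h; exact h0.2 (if_neg h)⟩
    have hc : ∀ p ∈ (pairMod d e).primeFactors, ¬ p ∣ form D m c₀ := by
      intro p hp hpm
      have hmem : p ∈ midPrimes D R := by
        rw [← primeFactors_filter_mid hqdvd, mem_filter] at hp
        exact hp.1
      rw [Nat.mem_primeFactors] at hp
      have h2 : p ∣ ∏ i, d i ∨ p ∣ ∏ i, e i :=
        hp.1.dvd_mul.1 (hp.2.1.trans (Nat.lcm_dvd_mul _ _))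
      rcases h2 with h2 | h2 <;> obtain ⟨i, -, hi⟩ := hp.1.prime.exists_mem_finset_dvd h2
      · refine not_two_hits (goodPrime hk hmem) (fun e => ?_) (hi.trans (hdiv.1 i)) hpm
        exact hp.1.not_dvd_one (hdm ▸ e ▸ hi)
      · refine not_two_hits (goodPrime hk hmem) (fun e => ?_) (hi.trans (hdiv.2 i)) hpm
        exact hp.1.not_dvd_one (hem ▸ e ▸ hi)
    obtain ⟨Q, hQ⟩ : ∃ Q, Q = D ! * pairMod d e := ⟨_, rfl⟩
    have : NeZero Q := ⟨hQ ▸ (Nat.mul_pos hW0 hq0).ne'⟩
    have hcoW : (D !).Coprime (pairMod d e) := coprime_factorial_modulus.coprime_dvd_right hqdvd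
    have hqQ : q.Coprime Q := hQ ▸ (coprime_prime_factorial hq (by omega)).mul_right
      ((coprime_prime_modulus hq (by omega)).coprime_dvd_right hqdvd)
    have hLQ : (form D m c₀).Coprime Q := by
      rw [hQ]
      refine Nat.Coprime.mul_right (form_coprime hk m c₀) ?_
      exact Nat.coprime_of_dvd fun p hp h1 h2 =>
        hc p (Nat.mem_primeFactors.2 ⟨hp, h2, hq0.ne'⟩) h1
    obtain ⟨a, ha⟩ : ∃ a : ℕ, a * form D m c₀ ≡ q [MOD Q] := by
      refine ⟨((q : ZMod Q) * ((form D m c₀ : ℕ) : ZMod Q)⁻¹).val, ?_⟩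
      rw [← ZMod.natCast_eq_natCast_iff]
      push_cast
      rw [ZMod.natCast_zmod_val, mul_assoc,
        ZMod.inv_mul_of_unit _ ((ZMod.isUnit_iff_coprime _ _).2 hLQ), mul_one]
    have haQ : a.Coprime Q := by
      refine Nat.Coprime.coprime_dvd_left (dvd_mul_right a (form D m c₀)) ?_
      rw [Nat.coprime_iff_gcd_eq_one, ha.gcd_eq, ← Nat.coprime_iff_gcd_eq_one]
      exact hqQ
    have hform1 : form D m c₀ ≡ 1 [MOD D !] := by
      rw [form, hs, Nat.ModEq, ← add_assoc, ← mul_add, Nat.mul_add_mod]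
    have hterm : ∀ p ∈ topPrimes x, (if q ≡ p [MOD D !] then Real.log (p : ℕ) *
        (progInd D d p (q - m * D ! * p) * progInd D e p (q - m * D ! * p)) else 0) =
        if p ≡ a [MOD Q] then Real.log (p : ℕ) else 0 := fun p hp => by
      by_cases hpq : q ≡ p [MOD D !]
      · have hp' : p ∈ (topPrimes x).filter fun p => q ≡ p [MOD D !] :=
          mem_filter.2 ⟨hp, hpq⟩
        obtain ⟨hpp, hDp, hRp, -, -⟩ := hP p hp'
        obtain ⟨c, hc1, hc2⟩ := hsol p hp'
        rw [if_pos hpq, progInd_eq hs hpp hRp hc1 hd, progInd_eq hs hpp hRp hc1 he]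
        rw [show dvdInd D d c * dvdInd D e c = pairInd D d e c from rfl, pairInd_eq hd he h0,
          mul_ite, mul_one, mul_zero]
        have hiff : c ≡ c₀ [MOD pairMod d e] ↔ p ≡ a [MOD Q] := by
          have hc2' : p * form D m c ≡ q [MOD Q] := hc2.of_dvd (hQ ▸ mul_dvd_mul_left _ hqdvd)
          constructor
          · intro hcc
            have h1 : form D m c ≡ form D m c₀ [MOD Q] := by
              rw [form, form, hQ]
              exact (hcc.mul_left' _).add_right _
            exact Nat.ModEq.cancel_right_of_coprime hLQ.symm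
              (((h1.mul_left p).symm.trans hc2').trans ha.symm)
          · intro hpa
            have h1 : form D m c ≡ form D m c₀ [MOD Q] := Nat.ModEq.cancel_left_of_coprime
              (hQ ▸ ((coprime_prime_factorial hpp hDp).mul_right
                ((coprime_prime_modulus hpp hRp).coprime_dvd_right hqdvd)).symm)
              (hc2'.trans ((hpa.mul_right _).trans ha).symm)
            rw [form, form, hQ] at h1
            exact (Nat.ModEq.add_right_cancel' _ h1).mul_left_cancel' hW0.ne'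
        simp only [hiff]
      · rw [if_neg hpq, if_neg fun hpa => hpq ?_]
        have h1 := ((hpa.mul_right (form D m c₀)).trans ha).of_dvd (hQ ▸ dvd_mul_right _ _)
        refine h1.symm.trans ?_
        have := hform1.mul_left p
        rwa [mul_one] at this
    obtain ⟨Th, hTh⟩ : ∃ Th : ℕ → ℝ, Th = fun y => ∑ p ∈ (Icc 1 y).filter
        (fun p : ℕ => p.Prime ∧ p ≡ a [MOD Q]), Real.log (p : ℕ) := ⟨_, rfl⟩
    have hsum : ∑ p ∈ (topPrimes x).filter (fun p => q ≡ p [MOD D !]), Real.log (p : ℕ) *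
        (progInd D d p (q - m * D ! * p) * progInd D e p (q - m * D ! * p)) =
        Th x - Th (x / 2) := by
      rw [sum_filter, sum_congr rfl hterm, ← sum_filter, topPrimes, filter_filter, hTh]
      dsimp only
      rw [eq_sub_iff_add_eq, ← sum_union (disjoint_filter_filter (disjoint_left.2 fun n h1 h2 => by
        rw [mem_Ioc] at h1
        rw [mem_Icc] at h2
        omega))]
      refine sum_congr ?_ fun _ _ => rfl
      ext n
      simp only [mem_union, mem_filter, mem_Ioc, mem_Icc]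
      constructor
      · rintro (⟨h1, h2⟩ | ⟨h1, h2⟩) <;> exact ⟨by omega, h2⟩
      · rintro ⟨h1, h2⟩
        by_cases h3 : x / 2 < n
        · exact Or.inl ⟨⟨h3, h1.2⟩, h2⟩
        · exact Or.inr ⟨⟨h1.1, by omega⟩, h2⟩
    have havg : avgAway D R m (pairInd D d e) = ((pairMod d e).totient : ℝ)⁻¹ := by
      rw [show pairInd D d e = fun c => if c ≡ c₀ [MOD pairMod d e] then (1 : ℝ) else 0 from
        funext (pairInd_eq hd he h0), avgAway_class hk hqdvd hc]
    rw [hsum, havg, show ((x : ℝ) - (x / 2 : ℕ)) / ((D !).totient : ℕ) *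
        ((pairMod d e).totient : ℝ)⁻¹ = (x : ℝ) / (Q.totient : ℕ) -
          ((x / 2 : ℕ) : ℝ) / (Q.totient : ℕ) by
      rw [hQ, Nat.totient_mul hcoW, Nat.cast_mul, ← div_eq_mul_inv, div_div, sub_div]]
    rw [hE, ← hQ]
    refine le_trans (le_of_eq (congrArg abs ?_)) ((abs_sub _ _).trans
      (add_le_add (abs_errAP_le haQ) (abs_errAP_le haQ)))
    rw [errAP, errAP, hTh]
    ring
  · have h1 : ∀ p ∈ (topPrimes x).filter (fun p => q ≡ p [MOD D !]), Real.log (p : ℕ) *
        (progInd D d p (q - m * D ! * p) * progInd D e p (q - m * D ! * p)) = 0 := by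
      intro p hp
      obtain ⟨hpp, hDp, hRp, hle, -⟩ := hP p hp
      by_cases hj0 : progInd D d p (q - m * D ! * p) * progInd D e p (q - m * D ! * p) = 0
      · rw [hj0, mul_zero]
      exfalso
      have key : ∀ y : Fin k → ℕ, y ∈ supp k D R →
          progInd D y p (q - m * D ! * p) ≠ 0 → y m = 1 := by
        intro y hy hne
        rw [progInd, ite_ne_right_iff] at hne
        have hdv := hne.1 m
        rw [Nat.sub_add_cancel hle] at hdv
        rcases hq.eq_one_or_self_of_dvd _ hdv with h2 | h2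
        · exact h2
        · have := (mem_rough.1 ((mem_supp.1 hy).1 m)).1.2
          omega
      obtain ⟨c, hc1, -⟩ := hsol p hp
      rw [mul_eq_zero, not_or] at hj0
      refine h ⟨key d hd hj0.1, key e he hj0.2, c, ?_⟩
      rw [pairInd, ← progInd_eq hs hpp hRp hc1 hd, ← progInd_eq hs hpp hRp hc1 he]
      exact mul_ne_zero hj0.1 hj0.2
    have h2 : ∀ c, awayAll D R m c * pairInd D d e c = 0 := by
      intro c
      by_cases hc0 : pairInd D d e c = 0
      · rw [hc0, mul_zero]
      have key : ∀ x : Fin k → ℕ, x ∈ supp k D R → (∀ i : Fin k, x i ∣ form D i c) → x m ≠ 1 →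
          awayAll D R m c = 0 := by
        intro x hx hdv hne
        obtain ⟨p, hp, hpd⟩ := Nat.exists_prime_and_dvd hne
        refine prod_eq_zero (primeFactors_subset ((mem_supp.1 hx).1 m) (Nat.mem_primeFactors.2
          ⟨hp, hpd, Nat.one_le_iff_ne_zero.1 (mem_rough.1 ((mem_supp.1 hx).1 m)).1.1⟩)) ?_
        rw [away, hit, if_pos (hpd.trans (hdv m)), sub_self]
      have hor : d m ≠ 1 ∨ e m ≠ 1 := by
        by_contra hh
        push Not at hh
        exact h ⟨hh.1, hh.2, c, hc0⟩
      simp only [pairInd, dvdInd, mul_eq_zero, not_or] at hc0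
      rcases hor with hne | hne
      · rw [key d hd (by by_contra hh; exact hc0.1 (if_neg hh)) hne, zero_mul]
      · rw [key e he (by by_contra hh; exact hc0.2 (if_neg hh)) hne, zero_mul]
    simp only [avgAway, h2, sum_const_zero, zero_div, mul_zero, sum_eq_zero h1, sub_zero,
      abs_zero]
    exact hE0

include hs in
/-- **The sum over primes.** -/
theorem exists_primeSum_progWeight_ge (hk : AdmissibleTuple k D) (m : Fin k) {g : ℕ → ℝ}
    (hg : ∀ a, |g a| ≤ 1) {x : ℕ} (hRx : R ≤ x / 2) (hDx : D ≤ x / 2)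
    (hWR : D ! * R ^ 2 ≤ x / 2) :
    ∃ E : ℝ, (∀ q : ℕ, q.Prime → k * D ! * x < q →
        ((x : ℝ) - (x / 2 : ℕ)) / ((D !).totient : ℕ) *
          avgAway D R m (fun c => sieveSum D R g k c ^ 2) - E ≤
            Real.log x * ∑ p ∈ topPrimes x, progWeight k D R g p (q - m * D ! * p)) ∧
      E ^ 2 ≤ coeffBound k D R ^ 4 *
        ((4 * Real.log (x : ℕ) + 2 * 2 ^ (D !).primeFactors.card) * (x : ℕ) *
          (∑ a ∈ Icc 1 (R ^ 2), ((a : ℕ) : ℝ)⁻¹) ^ (2 ^ (4 * k + 5))) *
        (∑ t ∈ Icc 1 (D ! * R ^ 2), apErr x t + ∑ t ∈ Icc 1 (D ! * R ^ 2), apErr (x / 2) t) := by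
  obtain ⟨l, hl⟩ : ∃ l : (Fin k → ℕ) → ℝ, l = sieveCoeff D R g := ⟨_, rfl⟩
  obtain ⟨F, hF⟩ : ∃ F : ℕ → ℝ, F = fun r => apErr x (D ! * r) + apErr (x / 2) (D ! * r) :=
    ⟨_, rfl⟩
  obtain ⟨w, hw⟩ : ∃ w : ℕ → ℝ, w = fun r => coeffBound k D R ^ 2 *
      (2 : ℝ) ^ ((2 * k + 2) * r.primeFactors.card) := ⟨_, rfl⟩
  have hF0 : ∀ r, 0 ≤ F r := fun r => by
    rw [hF]; exact add_nonneg (apErr_nonneg _ _) (apErr_nonneg _ _)
  refine ⟨∑ r ∈ rough D (R ^ 2), w r * F r, fun q hq hqx => ?_, ?_⟩
  · obtain ⟨T, hT⟩ : ∃ T, T = (topPrimes x).filter fun p => q ≡ p [MOD D !] := ⟨_, rfl⟩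
    have hle : ∑ p ∈ T, Real.log (p : ℕ) *
        (∑ d ∈ supp k D R, l d * progInd D d p (q - m * D ! * p)) ^ 2 ≤
        Real.log x * ∑ p ∈ topPrimes x, progWeight k D R g p (q - m * D ! * p) := by
      rw [hT, sum_filter, mul_sum]
      refine sum_le_sum fun p hp => ?_
      have hx1 : 0 ≤ Real.log (x : ℕ) := Real.log_natCast_nonneg x
      rw [topPrimes, mem_filter, mem_Ioc] at hp
      split_ifs with hpq
      · have hmod : q - m * D ! * p ≡ p [MOD D !] := by
          refine Nat.ModEq.trans ?_ hpq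
          have h1 : m * D ! * p ≤ k * D ! * x :=
            Nat.mul_le_mul (Nat.mul_le_mul_right _ m.2.le) hp.1.2
          conv_rhs => rw [← Nat.sub_add_cancel (show m * D ! * p ≤ q by omega)]
          rw [mul_comm (m : ℕ), mul_assoc, Nat.ModEq, Nat.add_mul_mod_self_left]
        rw [progWeight, if_pos hmod, hl]
        exact mul_le_mul_of_nonneg_right
          (Real.log_le_log (Nat.cast_pos.2 hp.2.pos) (Nat.cast_le.2 hp.1.2)) (sq_nonneg _)
      · exact mul_nonneg hx1 (progWeight_nonneg _ _ _ _ _ _)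
    refine le_trans ?_ hle
    have havg : avgAway D R m (fun c => sieveSum D R g k c ^ 2) =
        ∑ d ∈ supp k D R, ∑ e ∈ supp k D R, l d * l e * avgAway D R m (pairInd D d e) := by
      simp only [avgAway, sieveSum_eq, hl, pairInd]
      rw [sq_sum_pairs]
      simp only [sum_div, mul_div_assoc]
    rw [sq_sum_pairs (supp k D R) (fun p : ℕ => Real.log (p : ℕ)) T l
      (fun d p => progInd D d p (q - m * D ! * p)), havg, mul_sum, sub_le_iff_le_add,
      ← sub_le_iff_le_add', ← sum_sub_distrib]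
    refine (sum_le_sum (g := fun d => ∑ e ∈ supp k D R, |l d| * |l e| * F (pairMod d e))
      fun d hd => ?_).trans ?_
    · rw [mul_sum, ← sum_sub_distrib]
      refine sum_le_sum fun e he => ?_
      rw [mul_left_comm, ← mul_sub]
      refine (le_abs_self _).trans ?_
      rw [abs_mul, abs_mul, abs_sub_comm, hF, hT]
      exact mul_le_mul_of_nonneg_left (abs_pair_primeSum_sub_le hs hk hd he hRx hDx hq hqx)
        (mul_nonneg (abs_nonneg _) (abs_nonneg _))
    rw [← sum_product' (f := fun d e => |l d| * |l e| * F (pairMod d e)),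
      ← sum_fiberwise_of_maps_to (g := fun x : (Fin k → ℕ) × (Fin k → ℕ) => pairMod x.1 x.2)
        (t := rough D (R ^ 2)) fun x hx =>
          pairMod_mem_rough (mem_product.1 hx).1 (mem_product.1 hx).2]
    refine sum_le_sum fun r hr => ?_
    refine (sum_le_card_nsmul _ _
      ((coeffBound k D R * (2 : ℝ) ^ r.primeFactors.card) ^ 2 * F r) fun y hy => ?_).trans ?_
    · rw [mem_filter, mem_product] at hy
      rw [hy.2, sq]
      refine mul_le_mul_of_nonneg_right (mul_le_mul ?_ ?_ (abs_nonneg _)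
        (mul_nonneg coeffBound_nonneg (by positivity))) (hF0 r) <;>
      · rw [hl, mul_comm]
        refine (abs_sieveCoeff_le_two_pow hg (by first | exact hy.1.1 | exact hy.1.2)).trans
          (mul_le_mul_of_nonneg_right (pow_le_pow_right₀ one_le_two (card_le_card ?_))
            coeffBound_nonneg)
        refine Nat.primeFactors_mono ?_ (Nat.one_le_iff_ne_zero.1 (mem_rough.1 hr).1.1)
        rw [← hy.2]
        first | exact Nat.dvd_lcm_left _ _ | exact Nat.dvd_lcm_right _ _
    · rw [nsmul_eq_mul, hw]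
      refine le_trans (mul_le_mul_of_nonneg_right (Nat.cast_le.2
        (card_pairs_le (mem_rough.1 hr).2.1)) (mul_nonneg (sq_nonneg _) (hF0 r))) (le_of_eq ?_)
      push_cast
      ring
  · refine (sum_sq_le_sum_mul_sum_of_sq_le_mul (f := fun r => w r ^ 2 * F r) (g := F) _
      (fun r _ => mul_nonneg (sq_nonneg _) (hF0 r)) (fun r _ => hF0 r)
        fun r _ => le_of_eq (by ring)).trans ?_
    have hlogx := Real.log_natCast_nonneg x
    refine mul_le_mul ?_ ?_ (sum_nonneg fun r _ => hF0 r) ?_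
    · refine le_trans (sum_le_sum (g := fun r : ℕ => coeffBound k D R ^ 4 *
        ((4 * Real.log (x : ℕ) + 2 * 2 ^ (D !).primeFactors.card) * (x : ℕ)) *
        (((2 ^ (4 * k + 5) : ℕ) : ℝ) ^ r.primeFactors.card / (r : ℕ))) fun r hr => ?_) ?_
      · obtain ⟨⟨hr1, hr2⟩, -, -⟩ := mem_rough.1 hr
        have hWr : 0 < D ! * r := Nat.mul_pos (Nat.factorial_pos D) hr1
        have hle : D ! * r ≤ x / 2 := (Nat.mul_le_mul_left _ hr2).trans hWR
        obtain ⟨c, hc⟩ : ∃ c : ℝ, c = 2 * Real.log x + 2 ^ (D !).primeFactors.card := ⟨_, rfl⟩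
        have hc0 : 0 ≤ c := hc ▸ by positivity
        have hy : ∀ y, D ! * r ≤ y → y ≤ x →
            apErr y (D ! * r) ≤ c * 2 ^ r.primeFactors.card * ((x : ℝ) / r) := by
          intro y h1 h2
          refine (apErr_le hWr h1).trans (mul_le_mul ?_ ?_ (by positivity)
            (mul_nonneg hc0 (by positivity)))
          · rw [hc, add_mul, ← pow_add]
            refine add_le_add ?_ (pow_le_pow_right₀ one_le_two
              (primeFactors_card_mul_le (Nat.factorial_pos D).ne'
                (Nat.one_le_iff_ne_zero.1 hr1)))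
            refine le_trans ?_ (le_mul_of_one_le_right (by positivity) (one_le_pow₀ one_le_two))
            exact mul_le_mul_of_nonneg_left (Real.log_le_log
              (Nat.cast_pos.2 (hWr.trans_le h1)) (Nat.cast_le.2 h2)) two_pos.le
          · exact div_le_div₀ (Nat.cast_nonneg x) (Nat.cast_le.2 h2) (Nat.cast_pos.2 hr1)
              (Nat.cast_le.2 (Nat.le_mul_of_pos_left r (Nat.factorial_pos D)))
        have hF2 : F r ≤ 2 * (c * 2 ^ r.primeFactors.card * ((x : ℝ) / r)) := by
          simp only [hF]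
          linarith [hy x (hle.trans (Nat.div_le_self x 2)) le_rfl,
            hy _ hle (Nat.div_le_self x 2)]
        refine (mul_le_mul_of_nonneg_left hF2 (sq_nonneg _)).trans (le_of_eq ?_)
        simp only [hw, hc]
        push_cast
        rw [← pow_mul]
        ring
      · rw [← mul_sum]
        refine (mul_le_mul_of_nonneg_left (sum_rough_omega_le _) ?_).trans ?_
        · have := coeffBound_nonneg (k := k) (D := D) (R := R)
          positivity
        · refine le_of_eq ?_
          ring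
    · rw [hF, sum_add_distrib]
      refine add_le_add ?_ ?_ <;>
      · refine le_trans (le_of_eq (sum_image fun q _ q' _ h =>
          Nat.eq_of_mul_eq_mul_left (Nat.factorial_pos D) h).symm)
          (sum_le_sum_of_subset_of_nonneg (fun t ht => ?_) fun t _ _ => apErr_nonneg _ _)
        obtain ⟨q, hq, rfl⟩ := mem_image.1 ht
        exact mem_Icc.2 ⟨Nat.mul_pos (Nat.factorial_pos D) (mem_rough.1 hq).1.1,
          Nat.mul_le_mul_left _ (mem_rough.1 hq).1.2⟩
    · exact mul_nonneg (pow_nonneg coeffBound_nonneg _) (by positivity)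

end FA.MaynardGaps
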