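import Fermat.Agent.BoundedGaps.Main
import Fermat.Agent.MaynardGaps.Weights

/-!
# Maynard's weights

For every `B` there are `k` and `W` such that, for large `x`, weights `w p t ≤ √x` of total mass
at most `U` for `t ≤ U` give every prime `q > k W x` the weight `B x` from the `t + m W p`, `m < k`,
`p` a prime in `(x / 2, x]`.
-/

set_option autoImplicit false
set_option linter.unusedSectionVars false

noncomputable section

namespace FA.MaynardGaps

open Finset Filter FA.BoundedGaps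
open scoped Nat Topology

theorem coeffBound_le_log {k D R : ℕ} (hD : 5 ≤ D) {l : ℝ} (hl : 1 ≤ l)
    (hR : Real.log R ≤ l) : coeffBound k D R ≤ (3 * (2 + (D ! : ℕ)) * l) ^ k := by
  have hW : (1 : ℝ) ≤ (D ! : ℕ) := Nat.one_le_cast.2 (Nat.factorial_pos D)
  refine pow_le_pow_left₀ (sum_nonneg fun a _ => by positivity) ?_ k
  refine (sum_le_sum (g := fun a : ℕ => if Real.log a ≤ Real.log R then cw 2 a / a else 0)
    fun a ha => ?_).trans ((sum_rough_cw_le (by omega) (Real.log_natCast_nonneg R)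
      zero_le_two).trans ?_)
  · rw [if_pos (Real.log_le_log (Nat.cast_pos.2 (mem_rough.1 ha).1.1)
      (Nat.cast_le.2 (mem_rough.1 ha).1.2))]
    exact inv_totient_le_cw (by omega) ha
  · have he : Real.exp (2 / (D : ℝ)) ≤ 3 := by
      refine (Real.exp_le_exp.2 ?_).trans (by linarith [Real.exp_one_lt_d9] : Real.exp 1 ≤ 3)
      rw [div_le_one (Nat.cast_pos.2 (by omega))]
      exact_mod_cast (show 2 ≤ D by omega)
    have hR0 := Real.log_natCast_nonneg R
    refine (mul_le_mul he ?_ ?_ (by norm_num)).trans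
      (le_of_eq (mul_assoc (3 : ℝ) (2 + (D ! : ℕ)) l).symm)
    · have := mul_le_mul (density_le_one D) (show 1 + Real.log R ≤ 2 * l by linarith)
        (by linarith) zero_le_one
      have := mul_le_mul_of_nonneg_left hl (show (0 : ℝ) ≤ (D ! : ℕ) by linarith)
      linarith
    · exact add_nonneg (mul_nonneg (density_pos D).le (by linarith)) (by linarith)

theorem log_le_level {x : ℕ} (hx : 300 ≤ Real.log x) :
    Real.log x ≤ 21 * Real.log (level x) := by
  have hx0 : (0 : ℝ) < x := by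
    rcases (Nat.cast_nonneg (α := ℝ) x).eq_or_lt with h | h
    · rw [← h, Real.log_zero] at hx
      linarith
    · exact h
  have hR : 1 ≤ level x := Nat.le_floor (by
    rw [Nat.cast_one]
    exact Real.one_le_rpow (Nat.one_le_cast.2 (Nat.cast_pos.1 hx0)) (by norm_num))
  have hRr : (1 : ℝ) ≤ level x := Nat.one_le_cast.2 hR
  have h1 := Nat.lt_floor_add_one ((x : ℝ) ^ ((1 : ℝ) / 20))
  rw [← level] at h1
  have h2 := Real.log_le_log (by positivity)
    (show (x : ℝ) ^ ((1 : ℝ) / 20) ≤ 2 * level x by linarith)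
  rw [Real.log_rpow hx0, Real.log_mul two_ne_zero (by linarith)] at h2
  have h3 := Real.log_two_lt_d9
  linarith

theorem scale_exists (k : ℕ) {ε : ℝ} (hε : 0 < ε) : ∃ D : ℕ, 5 ≤ D ∧ k ≤ D ∧
    (D : ℝ)⁻¹ ≤ ε / 2 ∧ Real.exp (4 * (k : ℝ) / D) ≤ 1 + ε / 4 := by
  have t1 : Tendsto (fun D : ℕ => (D : ℝ)⁻¹) atTop (𝓝 0) := tendsto_inv_atTop_nhds_zero_nat
  have t2 : Tendsto (fun D : ℕ => Real.exp (4 * (k : ℝ) / D)) atTop (𝓝 (Real.exp 0)) :=
    (Real.continuous_exp.tendsto 0).comp (tendsto_const_div_atTop_nhds_zero_nat _)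
  rw [Real.exp_zero] at t2
  exact ((eventually_ge_atTop 5).and ((eventually_ge_atTop k).and ((t1.eventually
    (eventually_le_nhds (by linarith : (0 : ℝ) < ε / 2))).and (t2.eventually
      (eventually_le_nhds (by linarith : (1 : ℝ) < 1 + ε / 4)))))).exists

/-- **The numerical choice**: the mean away from each `m` is `4 B` times the right multiple of the
mean. -/
theorem exists_mass_params (B : ℝ) : ∃ k D : ℕ, ∃ K : ℝ, 2 ≤ k ∧ k ≤ D ∧ 5 ≤ D ∧ 1 ≤ K ∧
    ∀ [Shifts], AdmissibleTuple k D → ∃ c₀ : ℝ, ∀ R : ℕ, 1 ≤ R → c₀ ≤ Real.log R →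
      ∃ (g : ℕ → ℝ) (A : ℝ), (∀ a, |g a| ≤ 1) ∧ 1 ≤ A ∧
        avgAll D R (fun c => sieveSum D R g k c ^ 2) ≤ A ∧
        ∀ m : Fin k, 84 * (B + 1) * (Real.log R * density D * A) / k ≤
          avgAway D R m (fun c => sieveSum D R g k c ^ 2) := by
  obtain ⟨m₀, hm₀⟩ : ∃ m₀ : ℕ, 4 * (B + 1) ≤ m₀ := ⟨_, Nat.le_ceil _⟩
  obtain ⟨k, L, ε, hk, hk2, hε0, hε, hb, hl, hgap⟩ := exists_params m₀
  obtain ⟨P, hP⟩ : ∃ P, P = (1 + ε) * stepInt (1 / 4) 2 L := ⟨_, rfl⟩
  obtain ⟨K, hK⟩ : ∃ K : ℝ, K = 4 * k * (L + 1) := ⟨_, rfl⟩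
  rw [← hK, ← hP] at hgap
  have hP1 : 1 ≤ P := hP ▸ one_le_mul_of_one_le_of_one_le (by linarith) (stepInt_quarter_two L).1
  have hkr : (2 : ℝ) ≤ k := by exact_mod_cast hk2
  have hK1 : 1 ≤ K := by
    have := mul_le_mul_of_nonneg_left
      (le_add_of_nonneg_left (Nat.cast_nonneg L) : (1 : ℝ) ≤ (L : ℝ) + 1)
      (show (0 : ℝ) ≤ 4 * k by linarith)
    rw [hK]
    linarith
  obtain ⟨D, hD5, hkD, hDinv, hDexp⟩ := scale_exists k hε0
  refine ⟨k, D, K, hk2, hkD, hD5, hK1, fun {_} hadm => ?_⟩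
  obtain ⟨b, hb'⟩ : ∃ b : ℝ, b = max 1 ((3 * (D ! : ℕ) + 2) / (ε / 4)) := ⟨_, rfl⟩
  have hδ := density_pos D
  refine ⟨K * (b / density D + 1), fun R hR hlog => ?_⟩
  obtain ⟨ℓ, hℓ⟩ : ∃ ℓ, ℓ = Real.log R / K := ⟨_, rfl⟩
  have hlogR : Real.log R = K * ℓ := by rw [hℓ]; field_simp
  rw [hlogR] at hlog
  have hℓb : b / density D + 1 ≤ ℓ := le_of_mul_le_mul_left hlog (by linarith)
  have hb1 : 1 ≤ b := hb' ▸ le_max_left _ _
  have hbd : 0 ≤ b / density D := div_nonneg (by linarith) hδ.le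
  obtain ⟨X, hXdef⟩ : ∃ X, X = density D * ℓ := ⟨_, rfl⟩
  have hX : b ≤ X := by
    have := mul_le_mul_of_nonneg_left hℓb hδ.le
    rw [mul_add, mul_div_cancel₀ _ hδ.ne'] at this
    linarith
  have hscale : LargeScale (4 * k) D ε ℓ := by
    refine ⟨hε0, by linarith, hD5, hDinv, hDexp, ?_⟩
    have := mul_le_mul_of_nonneg_left (((le_max_right _ _).trans
      (le_of_eq hb'.symm)).trans hX) (show 0 ≤ ε / 4 by linarith)
    rwa [mul_div_cancel₀ _ (show ε / 4 ≠ 0 by linarith), hXdef] at this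
  refine ⟨stepFun (1 / 2) L ℓ, P ^ k * X ^ k, fun a => ?_, ?_, ?_, fun m => ?_⟩
  · obtain ⟨h1, h2⟩ := stepFun_mem (r := 1 / 2) (L := L) (ℓ := ℓ)
      (by norm_num) (by norm_num) (by linarith) a
    exact abs_le.2 ⟨by linarith, h2⟩
  · exact one_le_mul_of_one_le_of_one_le (one_le_pow₀ hP1) (one_le_pow₀ (hb1.trans hX))
  · refine (avgAll_sq_le hadm hD5).trans ?_
    rw [← mul_pow]
    refine pow_le_pow_left₀ (sum_nonneg fun a _ => mul_nonneg (sq_nonneg _)
      (div_nonneg (zero_le_one.trans (one_le_cw (by positivity) a)) (Nat.cast_nonneg a))) ?_ k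
    simp only [stepFun_sq (show 0 ≤ ℓ by linarith)]
    refine (le_of_eq ?_).trans ((hscale.step_upper (r := 1 / 4) (R := R) (by positivity)
      (by norm_num) (by norm_num) L).trans (le_of_eq ?_))
    · norm_num [oneSum]
    · rw [hP, hXdef]
      ring
  · refine le_trans ?_ (avgAway_ge hk hk2 hadm hscale (by linarith) hR
      (by rw [hlogR, hK]) hε hb hl m)
    rw [← hK, ← hP, ← hXdef, le_div_iff₀ (pow_pos (by linarith) _)]
    refine le_trans ?_ (mul_le_mul_of_nonneg_left hgap.le (pow_nonneg (by linarith) _))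
    rw [hlogR]
    refine le_trans (le_of_eq ?_) (mul_le_mul_of_nonneg_left (mul_le_mul_of_nonneg_right
      (mul_le_mul_of_nonneg_right (div_le_div_of_nonneg_right (mul_le_mul_of_nonneg_right
        (mul_le_mul_of_nonneg_left hm₀ (by norm_num : (0 : ℝ) ≤ 21)) (by linarith : (0 : ℝ) ≤ K))
        (Nat.cast_nonneg k)) (pow_nonneg (by linarith) _)) (pow_nonneg (by linarith) _))
      (pow_nonneg (by linarith) _))
    rw [hXdef, pow_succ]
    ring

/-- **Maynard's weights.** -/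
theorem exists_weights (B : ℝ) : ∃ k W : ℕ, 0 < k ∧ 0 < W ∧ ∀ᶠ x : ℕ in atTop,
    ∃ w : ℕ → ℕ → ℝ, (∀ p t, 0 ≤ w p t) ∧ (∀ p t, w p t ≤ Real.sqrt x) ∧
      (∀ p ∈ topPrimes x, ∀ U : ℕ, x ≤ U → ∑ t ∈ Icc 1 U, w p t ≤ U) ∧
      ∀ q : ℕ, q.Prime → k * W * x < q →
        B * x ≤ ∑ p ∈ topPrimes x, ∑ m ∈ range k, w p (q - m * W * p) := by
  obtain ⟨k, D, K, hk2, hkD, hD5, hK1, hmass⟩ := exists_mass_params B
  refine ⟨k, D !, by omega, Nat.factorial_pos D, ?_⟩
  let inst : Shifts := ⟨fun i => D ! * i + 1⟩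
  have hadm : AdmissibleTuple k D := admissibleTuple_consecutive hkD
  obtain ⟨c₀, hc₀⟩ := hmass hadm
  obtain ⟨J, hJ⟩ : ∃ J : ℕ, J = 2 ^ (4 * k + 5) := ⟨_, rfl⟩
  obtain ⟨A, hA⟩ : ∃ A : ℕ, A = 4 * k + J + 2 := ⟨_, rfl⟩
  obtain ⟨B₁, C, hC, hBV⟩ := BombieriVinogradov.Summary.bombieri_vinogradov_theta A
  obtain ⟨W, hW⟩ : ∃ W : ℝ, W = (D ! : ℕ) := ⟨_, rfl⟩
  obtain ⟨c₁, hc₁⟩ : ∃ c₁ : ℝ, c₁ = 3 * (2 + W) := ⟨_, rfl⟩
  obtain ⟨P, hP⟩ : ∃ P : ℝ, P = 2 ^ (D !).primeFactors.card := ⟨_, rfl⟩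
  obtain ⟨M, hM⟩ : ∃ M : ℝ, M = c₁ ^ (4 * k) * (4 + 2 * P) * 2 ^ J * (2 * C) := ⟨_, rfl⟩
  have hW1 : 1 ≤ W := hW ▸ Nat.one_le_cast.2 (Nat.factorial_pos D)
  filter_upwards [eventually_log_ge (300 + |M| + 21 * |c₀| + W * k),
    eventually_log_pow_le (W ^ 4) (4 * B₁), eventually_log_pow_le ((2 * W) ^ 4) 0,
    eventually_log_pow_le ((W ^ 2 * (2 ^ k * c₁ ^ k) ^ 4) ^ 5) (20 * k),
    eventually_ge_atTop 4] with x hlogx hBx hWx hwx hx
  obtain ⟨l, hl⟩ : ∃ l : ℝ, l = Real.log x := ⟨_, rfl⟩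
  rw [← hl] at hlogx hBx hwx
  have hWk : 0 ≤ W * k := by positivity
  have hl21 : 300 ≤ l := by linarith [abs_nonneg M, abs_nonneg c₀]
  have hl0 : 0 < l := by linarith
  have hx0 : (0 : ℝ) < x := Nat.cast_pos.2 (by omega)
  obtain ⟨R, hR⟩ : ∃ R, R = level x := ⟨_, rfl⟩
  have hR20 : (R : ℝ) ^ 20 ≤ x := hR ▸ level_pow_le x
  have hR1 : 1 ≤ R := hR ▸ Nat.le_floor (by
    rw [Nat.cast_one]; exact Real.one_le_rpow (Nat.one_le_cast.2 (by omega)) (by norm_num))
  have hRr : (1 : ℝ) ≤ R := Nat.one_le_cast.2 hR1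
  have hRpow : ∀ n, n ≤ 20 → (R : ℝ) ^ n ≤ x := fun n hn =>
    (pow_le_pow_right₀ hRr hn).trans hR20
  have hWR2 : 2 * (D ! * R ^ 2) ≤ x := by
    refine (Nat.le_self_pow two_ne_zero _).trans ((Nat.cast_le (α := ℝ)).1 ?_)
    push_cast
    rw [← hW, ← mul_assoc, mul_comm (2 * W)]
    refine sq_mul_le_of_pow_four hx0.le (by rw [← pow_mul]; exact hRpow 8 (by norm_num)) ?_
    rwa [pow_zero, mul_one] at hWx
  have hWR : D ! * R ^ 2 ≤ x / 2 := by omega
  have hR2 : 1 ≤ R ^ 2 := Nat.one_le_pow _ _ hR1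
  have hRx : R ≤ x / 2 := ((Nat.le_self_pow two_ne_zero R).trans
    (Nat.le_mul_of_pos_left _ (Nat.factorial_pos D))).trans hWR
  have hDx : D ≤ x / 2 := ((Nat.self_le_factorial D).trans
    (Nat.le_mul_of_pos_right _ hR2)).trans hWR
  have hlogR : l ≤ 21 * Real.log R := by
    rw [hl, hR]
    exact log_le_level (hl ▸ hl21)
  have hlogRx : Real.log R ≤ l := hl ▸ Real.log_le_log (by linarith)
    (Nat.cast_le.2 (hRx.trans (Nat.div_le_self x 2)))
  have hcoef : coeffBound k D R ≤ (c₁ * l) ^ k := by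
    rw [hc₁, hW]
    exact coeffBound_le_log hD5 (by linarith) hlogRx
  obtain ⟨g, Q, hg, hQ1, hall, haway⟩ := hc₀ R hR1 (by linarith [le_abs_self c₀, abs_nonneg M])
  obtain ⟨c, hc⟩ : ∃ c : ℝ, c = W / (2 * Q) := ⟨_, rfl⟩
  have hc0 : 0 ≤ c := hc ▸ by positivity
  have hcW : c ≤ W := by
    rw [hc, div_le_iff₀ (by linarith)]
    exact le_mul_of_one_le_right (by linarith) (by linarith)
  obtain ⟨e, he⟩ : ∃ e : ℝ, e = ((R : ℝ) ^ 3 * (2 ^ k * coeffBound k D R)) ^ 2 := ⟨_, rfl⟩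
  have he0 : 0 ≤ e := he ▸ sq_nonneg _
  have heW : W * e ≤ Real.sqrt x := by
    refine Real.le_sqrt_of_sq_le ?_
    refine le_trans (pow_le_pow_left₀ (mul_nonneg (by linarith) he0) (mul_le_mul_of_nonneg_left
      (he ▸ pow_le_pow_left₀ (mul_nonneg (by positivity)
        (mul_nonneg (by positivity) coeffBound_nonneg)) (mul_le_mul_of_nonneg_left
          (mul_le_mul_of_nonneg_left hcoef (by positivity)) (by positivity)) 2) (by linarith)) 2) ?_
    refine le_of_pow_le_pow_left₀ (n := 5) (by norm_num) hx0.le ?_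
    calc ((W * (((R : ℝ) ^ 3 * (2 ^ k * (c₁ * l) ^ k)) ^ 2)) ^ 2) ^ 5
        = ((R : ℝ) ^ 20) ^ 3 * ((W ^ 2 * (2 ^ k * c₁ ^ k) ^ 4) ^ 5 * l ^ (20 * k)) := by ring
      _ ≤ (x : ℝ) ^ 3 * x := by
          refine mul_le_mul (pow_le_pow_left₀ (by positivity) hR20 3) hwx ?_ (by positivity)
          positivity
      _ ≤ (x : ℝ) ^ 5 := by
          rw [← pow_succ]
          exact pow_le_pow_right₀ (Nat.one_le_cast.2 (by omega)) (by norm_num)
  refine ⟨fun p t => c * progWeight k D R g p t,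
    fun p t => mul_nonneg hc0 (progWeight_nonneg _ _ _ _ _ _),
    fun p t => ((mul_le_mul hcW (he ▸ progWeight_le hg p t) (progWeight_nonneg _ _ _ _ _ _)
      (by linarith)).trans heW), fun p hp U hU => ?_, fun q hq hqx => ?_⟩
  · rw [topPrimes, mem_filter, mem_Ioc] at hp
    rw [← mul_sum]
    have hU' : (x : ℝ) ≤ U := Nat.cast_le.2 hU
    refine le_trans (mul_le_mul_of_nonneg_left (sum_progWeight_le (fun _ => rfl) hg hp.2
      (by omega) (by omega) U) hc0) ?_
    rw [← he, mul_add]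
    have h1 : c * ((U : ℝ) / (D ! : ℕ) *
        avgAll D R (fun c => sieveSum D R g k c ^ 2)) ≤ U / 2 := by
      refine (mul_le_mul_of_nonneg_left (mul_le_mul_of_nonneg_left hall (by positivity)) hc0).trans
        (le_of_eq ?_)
      rw [hc, ← hW]
      field_simp
    have h2 : c * e ≤ U / 2 := by
      refine (mul_le_mul_of_nonneg_right hcW he0).trans (heW.trans ?_)
      refine le_trans ((Real.sqrt_le_iff).2 ⟨by linarith, ?_⟩) (div_le_div_of_nonneg_right
        hU' two_pos.le)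
      have h3 : (4 : ℝ) ≤ x := by exact_mod_cast hx
      have h4 := mul_le_mul_of_nonneg_left h3 hx0.le
      linarith
    linarith
  · obtain ⟨T, hT⟩ : ∃ T : ℝ, T = ((D !).totient : ℕ) := ⟨_, rfl⟩
    have hT0 : 0 < T := hT ▸ Nat.cast_pos.2 (Nat.totient_pos.2 (Nat.factorial_pos D))
    rw [sum_comm, ← Fin.sum_univ_eq_sum_range (fun m => ∑ p ∈ topPrimes x,
      c * progWeight k D R g p (q - m * D ! * p))]
    have hmain : ∀ m : Fin k, B * x / k ≤
        ∑ p ∈ topPrimes x, c * progWeight k D R g p (q - m * D ! * p) := fun m => by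
      obtain ⟨E, hE1, hE2⟩ := exists_primeSum_progWeight_ge (fun _ => rfl) hadm m hg hRx hDx hWR
      have hBV' : ∀ y ≤ x, ∑ t ∈ Icc 1 (D ! * R ^ 2), apErr y t ≤ C * (x / l ^ A) := fun y hy => by
        have hQ : ((D ! * R ^ 2 : ℕ) : ℝ) ≤ Real.sqrt x / Real.log x ^ B₁ := by
          rw [← hl, le_div_iff₀ (pow_pos hl0 _)]
          refine Real.le_sqrt_of_sq_le ?_
          push_cast
          rw [← hW, mul_comm W, mul_assoc]
          refine sq_mul_le_of_pow_four hx0.le (by rw [← pow_mul]; exact hRpow 8 (by norm_num)) ?_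
          rw [mul_pow, ← pow_mul, mul_comm B₁]
          exact hBx
        rw [hl]
        exact hBV x (by omega) _ hQ (fun _ => y) (fun t => (exists_worst y t).choose)
          fun t _ => ⟨hy, (exists_worst y t).choose_spec.1⟩
      have hH : ∑ a ∈ Icc 1 (R ^ 2), ((a : ℕ) : ℝ)⁻¹ ≤ 2 * l := by
        have h := harmonic_le_one_add_log (R ^ 2)
        rw [harmonic_eq_sum_Icc] at h
        push_cast at h
        have := Real.log_le_log (by positivity) (show (R : ℝ) ^ 2 ≤ x from hRpow 2 (by norm_num))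
        linarith
      have hEx : E ≤ x := by
        refine le_of_pow_le_pow_left₀ two_ne_zero hx0.le (hE2.trans ?_)
        rw [← hl, ← hP, ← hJ]
        refine (mul_le_mul (mul_le_mul (pow_le_pow_left₀ coeffBound_nonneg hcoef 4)
          (mul_le_mul (mul_le_mul_of_nonneg_right (show 4 * l + 2 * P ≤ (4 + 2 * P) * l by
              have := le_mul_of_one_le_right (show 0 ≤ 2 * P by rw [hP]; positivity)
                (show 1 ≤ l by linarith)
              linarith) hx0.le)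
            (pow_le_pow_left₀ (sum_nonneg fun a _ => by positivity) hH _) (by positivity)
            (by rw [hP]; positivity)) (by rw [hP]; positivity) (by positivity))
          (add_le_add (hBV' x le_rfl) (hBV' (x / 2) (Nat.div_le_self x 2)))
          (add_nonneg (sum_nonneg fun t _ => apErr_nonneg _ _)
            (sum_nonneg fun t _ => apErr_nonneg _ _))
          (by rw [hP, hc₁]; positivity)).trans ?_
        rw [hA]
        calc ((c₁ * l) ^ k) ^ 4 * ((4 + 2 * P) * l * x * (2 * l) ^ J) *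
              (C * (x / l ^ (4 * k + J + 2)) + C * (x / l ^ (4 * k + J + 2)))
            = M * (x : ℝ) ^ 2 * (l ^ (4 * k + J + 1) / l ^ (4 * k + J + 2)) := by rw [hM]; ring
          _ = M / l * (x : ℝ) ^ 2 := by rw [pow_succ l (4 * k + J + 1)]; field_simp
          _ ≤ (x : ℝ) ^ 2 := mul_le_of_le_one_left (sq_nonneg _) ((div_le_one hl0).2
              (by linarith [le_abs_self M, abs_nonneg c₀]))
      have hlow : (x : ℝ) / 2 ≤ (x : ℝ) - (x / 2 : ℕ) := by
        have := Nat.cast_div_le (α := ℝ) (m := x) (n := 2)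
        push_cast at this
        linarith
      have haw : 0 ≤ avgAway D R m (fun c => sieveSum D R g k c ^ 2) :=
        div_nonneg (sum_nonneg fun c _ => mul_nonneg (awayAll_nonneg m c) (sq_nonneg _))
          prod_sub_one_pos.le
      have h1 := (sub_le_sub (mul_le_mul_of_nonneg_right
        (div_le_div_of_nonneg_right hlow (hT ▸ hT0.le)) haw) hEx).trans (hE1 q hq hqx)
      rw [← hl, ← hT] at h1
      rw [← mul_sum]
      refine le_of_mul_le_mul_left ?_ hl0
      rw [mul_left_comm]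
      refine le_trans ?_ (mul_le_mul_of_nonneg_left h1 hc0)
      have h2 := haway m
      rcases lt_or_ge (B + 1) 0 with hB | hB
      · have hk0 : (0 : ℝ) < k := Nat.cast_pos.2 (by omega)
        refine le_trans ?_ (mul_le_mul_of_nonneg_left
          (sub_le_sub_right (mul_nonneg (by positivity) haw) (x : ℝ)) hc0)
        rw [zero_sub, mul_neg]
        refine le_trans ?_ (neg_le_neg (mul_le_mul_of_nonneg_right hcW hx0.le))
        have h5 : l * (B * x / k) ≤ l * (-x / k) := mul_le_mul_of_nonneg_left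
          (div_le_div_of_nonneg_right (by nlinarith) hk0.le) hl0.le
        have h6 : W * x ≤ l * (x / k) := by
          rw [← mul_div_assoc, le_div_iff₀ hk0]
          have := mul_le_mul_of_nonneg_right
            (show W * k ≤ l by linarith [abs_nonneg M, abs_nonneg c₀]) hx0.le
          linarith
        rw [neg_div, mul_neg] at h5
        linarith
      · refine le_trans ?_ (mul_le_mul_of_nonneg_left (sub_le_sub_right
          (mul_le_mul_of_nonneg_left h2 (by positivity)) (x : ℝ)) hc0)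
        have hk0 : (0 : ℝ) < k := Nat.cast_pos.2 (by omega)
        have hden : density D = T / W := by rw [hT, hW]; rfl
        have e1 : c * ((x : ℝ) / 2 / T * (84 * (B + 1) * (Real.log R * density D * Q) / k)) =
            (B + 1) * (21 * Real.log R) * x / k := by
          rw [hc, hden]
          field_simp
          ring
        rw [mul_sub, e1]
        have h3 : (B + 1) * l * x / k ≤ (B + 1) * (21 * Real.log R) * x / k := by gcongr
        have h4 : c * x ≤ l * x / k := by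
          rw [le_div_iff₀ hk0]
          have := mul_le_mul_of_nonneg_right (mul_le_mul_of_nonneg_right hcW hk0.le) hx0.le
          have := mul_le_mul_of_nonneg_right
            (show W * k ≤ l by linarith [abs_nonneg M, abs_nonneg c₀]) hx0.le
          linarith
        have : l * (B * x / k) = (B + 1) * l * x / k - l * x / k := by ring
        linarith
    refine le_trans (le_of_eq ?_) (sum_le_sum fun m _ => hmain m)
    rw [sum_const, card_univ, Fintype.card_fin, nsmul_eq_mul,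
      mul_div_cancel₀ _ (Nat.cast_ne_zero.2 (by omega : k ≠ 0))]

end FA.MaynardGaps
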