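import Fermat.Agent.MaynardGaps.Choice
import Fermat.Agent.MaynardGaps.Scales
import Fermat.Agent.MaynardGaps.WeightBound

/-!
# The covering of Maynard and of Ford, Green, Konyagin and Tao

The zero classes for `p ≤ P₀` and `z < p ≤ x / 4` leave of `[1, U]` the `z`-smooth numbers and
primes; random classes for `(P₀, z]` and weighted classes for `(x / 2, x]` leave of these fewer than
the primes in `(x / 4, x / 2]`. So `U = C x log x log log log x / (log log x) ^ 2` is covered for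
every `C`.
-/

set_option autoImplicit false

noncomputable section

namespace FA.MaynardGaps

open Finset Filter Nat.Prime
open scoped Topology Nat.Prime
open FA.ErdosKac FA.RankinGaps

/-- What the zero classes for `p ≤ P₀` and `z < p ≤ x / 4` leave of `[1, U]` is smooth or prime. -/
theorem smooth_or_prime {U P₀ z x n : ℕ} (hPx : P₀ ≤ x / 4) (hUP : U ≤ P₀ * (x / 4))
    (hn : n ∈ Icc 1 U) (h : ∀ p ≤ x / 4, p.Prime → (p ≤ P₀ ∨ z < p) → ¬ p ∣ n) :
    n ∈ smoothUpTo U z ∨ n.Prime := by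
  rw [mem_Icc] at hn
  by_cases hs : ∀ p, p.Prime → p ∣ n → p ≤ z
  · exact Or.inl (mem_smoothUpTo.2 ⟨hn, hs⟩)
  push Not at hs
  obtain ⟨q, hq, hqn, hqz⟩ := hs
  have hqx : x / 4 < q := not_le.1 fun hle => h q hle hq (Or.inr hqz) hqn
  obtain ⟨m, rfl⟩ := hqn
  rcases Nat.lt_or_ge m 2 with hm | hm
  · have hm0 : 0 < m := Nat.pos_of_mul_pos_left hn.1
    exact Or.inr (by rwa [show m = 1 by omega, mul_one])
  exfalso
  obtain ⟨p, hp, hpm⟩ := Nat.exists_prime_and_dvd (show m ≠ 1 by omega)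
  have hmP : m ≤ P₀ := by
    by_contra hlt
    have h1 : (P₀ + 1) * (x / 4) ≤ q * m := by
      rw [mul_comm q m]
      exact Nat.mul_le_mul (by omega) hqx.le
    rw [add_mul, one_mul] at h1
    have h2 : x / 4 = 0 := by omega
    rw [h2, mul_zero] at hUP
    omega
  have hpP : p ≤ P₀ := (Nat.le_of_dvd (by omega) hpm).trans hmP
  exact h p (hpP.trans hPx) hp (Or.inl hpP) (hpm.mul_left q)

/-- Classes for all the primes `p ≤ x` from those of the sieving primes and of `(x / 2, x]`, once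
the primes of `(x / 4, x / 2]` are enough for what they leave. -/
theorem exists_residues_of_choice {U P₀ z x : ℕ} {T : Finset ℕ} {a b : ℕ → ℕ}
    (hPz : P₀ ≤ z) (hzx : z ≤ x / 4)
    (hT : ∀ n ∈ Icc 1 U, (∀ p ≤ x / 4, p.Prime → (p ≤ P₀ ∨ z < p) → ¬ p ∣ n) → n ∈ T)
    (hcard : (T.filter fun q => (∀ s ∈ sievingRange P₀ z, q % s ≠ a s) ∧
      ∀ p ∈ topPrimes x, q % p ≠ b p).card ≤ ((Ioc (x / 4) (x / 2)).filter Nat.Prime).card) :
    ∃ r : ℕ → ℕ, ∀ n ∈ Icc 1 U, ∃ p ≤ x, p.Prime ∧ n ≡ r p [MOD p] := by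
  classical
  obtain ⟨V, hV⟩ : ∃ V, V = T.filter fun q => (∀ s ∈ sievingRange P₀ z, q % s ≠ a s) ∧
      ∀ p ∈ topPrimes x, q % p ≠ b p := ⟨_, rfl⟩
  obtain ⟨e⟩ : Nonempty ((↥V : Type) ↪ ↥((Ioc (x / 4) (x / 2)).filter Nat.Prime)) :=
    Function.Embedding.nonempty_of_card_le (by simpa [hV] using hcard)
  refine ⟨fun p => if p ∈ sievingRange P₀ z then a p else if p ∈ topPrimes x then b p else
    if hp : ∃ n : ↥V, ((e n : ℕ)) = p then (hp.choose : ℕ) else 0, fun n hn => ?_⟩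
  have hmod : ∀ p v, n % p = v → n ≡ v [MOD p] := fun p v e => by
    rw [Nat.ModEq, ← e, Nat.mod_mod]
  by_cases hzero : ∀ p ≤ x / 4, p.Prime → (p ≤ P₀ ∨ z < p) → ¬ p ∣ n
  · by_cases hnV : n ∈ V
    · have hmem := mem_filter.1 (e ⟨n, hnV⟩).2
      rw [mem_Ioc] at hmem
      refine ⟨(e ⟨n, hnV⟩ : ℕ), by omega, hmem.2, ?_⟩
      have hex : ∃ m : ↥V, ((e m : ℕ)) = (e ⟨n, hnV⟩ : ℕ) := ⟨_, rfl⟩
      dsimp only
      rw [if_neg (fun h => by have := mem_Ioc.1 (mem_filter.1 h).1; omega),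
        if_neg (fun h => by rw [topPrimes, mem_filter, mem_Ioc] at h; omega), dif_pos hex,
        e.injective (Subtype.ext hex.choose_spec)]
    · rw [hV, mem_filter, not_and] at hnV
      rcases not_and_or.1 (hnV (hT n hn hzero)) with h | h
      · push Not at h
        obtain ⟨s, hs, hns⟩ := h
        have hsz := mem_Ioc.1 (mem_filter.1 hs).1
        refine ⟨s, by omega, (mem_filter.1 hs).2, ?_⟩
        dsimp only
        rw [if_pos hs]
        exact hmod s _ hns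
      · push Not at h
        obtain ⟨p, hp, hnp⟩ := h
        have hp' := hp
        rw [topPrimes, mem_filter, mem_Ioc] at hp'
        refine ⟨p, hp'.1.2, hp'.2, ?_⟩
        dsimp only
        rw [if_neg (fun h => by have := mem_Ioc.1 (mem_filter.1 h).1; omega), if_pos hp]
        exact hmod p _ hnp
  · push Not at hzero
    obtain ⟨p, hpz, hp, hor, hpn⟩ := hzero
    refine ⟨p, by omega, hp, ?_⟩
    dsimp only
    rw [if_neg (fun h => by have := mem_Ioc.1 (mem_filter.1 h).1; omega),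
      if_neg (fun h => by rw [topPrimes, mem_filter, mem_Ioc] at h; omega), dif_neg,
      Nat.modEq_zero_iff_dvd]
    · exact hpn
    · rintro ⟨m, hm⟩
      have := mem_Ioc.1 (mem_filter.1 (e m).2).1
      omega

theorem exp_le_of_small {a δ : ℝ} (ha : 0 ≤ a) (h : 2 * a ≤ δ) (hδ : δ ≤ 1) :
    Real.exp a ≤ 1 + δ := by
  have h1 := Real.abs_exp_sub_one_le (x := a) (by rw [abs_of_nonneg ha]; linarith)
  rw [abs_of_nonneg ha] at h1
  linarith [le_abs_self (Real.exp a - 1)]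

theorem card_primesUpTo (n : ℕ) : ((primesUpTo n).card : ℝ) = π n := by
  rw [← Nat.primesLE_card_eq_primeCounting]
  congr 2
  ext p
  rw [mem_primesUpTo, Nat.mem_primesLE, and_comm]

/-- Chebyshev's bound, uniformly for `n ≥ x`. -/
theorem eventually_primeCounting_le_two : ∀ᶠ x : ℕ in atTop, ∀ n : ℕ, x ≤ n →
    (π n : ℝ) ≤ 2 * n / Real.log x := by
  obtain ⟨T, hT⟩ := eventually_atTop.1
    (Chebyshev.eventually_primeCounting_le (ε := 1 / 2) (by norm_num))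
  filter_upwards [tendsto_natCast_atTop_atTop.eventually (eventually_ge_atTop T),
    eventually_ge_atTop 2] with x hxT hx n hn
  have hn' : (x : ℝ) ≤ n := Nat.cast_le.2 hn
  have h := hT (n : ℝ) (hxT.trans hn')
  rw [Nat.floor_natCast] at h
  have h4 : Real.log 4 + 1 / 2 ≤ 2 := by
    rw [show (4 : ℝ) = 2 ^ 2 by norm_num, Real.log_pow]
    push_cast
    linarith [Real.log_two_lt_d9]
  exact h.trans (div_le_div₀ (by positivity) (mul_le_mul_of_nonneg_right h4 (Nat.cast_nonneg n))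
    (Real.log_pos (Nat.one_lt_cast.2 hx)) (Real.log_le_log (Nat.cast_pos.2 (by omega)) hn'))

/-- **The covering.** -/
theorem exists_covering (C : ℝ) : ∀ᶠ x : ℕ in atTop, ∃ H : ℕ, C * rate x ≤ H ∧
    ∃ r : ℕ → ℕ, ∀ n ∈ Icc 1 H, ∃ p ≤ x, p.Prime ∧ n ≡ r p [MOD p] := by
  obtain ⟨C', hC'⟩ : ∃ C', C' = max C 1 := ⟨_, rfl⟩
  obtain ⟨M, c, hM, hc, hsieve⟩ := exists_sieving
  obtain ⟨Y, hY⟩ : ∃ Y, Y = M * C' := ⟨_, rfl⟩
  have hC1 : 1 ≤ C' := hC' ▸ le_max_right _ _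
  have hY0 : 0 < Y := hY ▸ mul_pos hM (by linarith)
  obtain ⟨B, hB⟩ : ∃ B, B = 6 * 16 * 64 * Y ^ 2 + 1 := ⟨_, rfl⟩
  have hB1 : 1 ≤ B := hB ▸ le_add_of_nonneg_left (by positivity)
  obtain ⟨k, W, hk, hW, hweights⟩ := exists_weights B
  obtain ⟨c', hc'⟩ : ∃ c', c' = (4 * (k : ℝ) ^ 2 / c ^ (2 * k)) ^ 2 := ⟨_, rfl⟩
  obtain ⟨K, hK⟩ : ∃ K : ℝ, K = 4 + 64 * Y * (78 + 56 * k + 2) + 64 * M * 3 * k * W +
      128 * (k : ℝ) ^ 2 + 16 * C' + 64 * k * W + c' := ⟨_, rfl⟩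
  filter_upwards [hsieve, hweights, eventually_card_middle, eventually_card_smooth,
    eventually_logs 0 0 1 one_pos, eventually_scales K (2 * (10 + 2 * k)),
    eventually_scales K 1, eventually_ge_atTop (4 * k + 16),
    eventually_primeCounting_le_two] with x hs hw hmid hsmooth hlogs hsc hsc1 hx hpi
  obtain ⟨P₀, z, hPz, hzx, hz2, hP20, hlogz, hσM, hσc⟩ := hs
  obtain ⟨w, hw0, hwmax, hmass, hgain⟩ := hw
  obtain ⟨l₁, hl₁⟩ : ∃ l, l = Real.log x := ⟨_, rfl⟩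
  obtain ⟨l₂, hl₂⟩ : ∃ l, l = Real.log l₁ := ⟨_, rfl⟩
  obtain ⟨l₃, hl₃⟩ : ∃ l, l = Real.log l₂ := ⟨_, rfl⟩
  obtain ⟨σ, hσ⟩ : ∃ σ, σ = sieveDensity (sievingRange P₀ z) := ⟨_, rfl⟩
  rw [← hl₁, ← hl₂, ← hl₃] at hlogs
  rw [← hl₁] at hmid hP20 hpi
  rw [← hl₁, ← hl₂, ← hl₃, ← hσ] at hσM
  rw [← hl₁, ← hσ] at hσc
  rw [← hl₁, ← hl₂] at hsc
  rw [← hl₁] at hsc1
  obtain ⟨h32, h3, h21, hq1, -⟩ := hlogs
  obtain ⟨hKl, hKl2, hpoly⟩ := hsc
  obtain ⟨-, -, hKx⟩ := hsc1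
  rw [pow_one] at hKx
  have hl32 : l₃ ≤ l₂ := hl₃ ▸ Real.log_le_self (by linarith)
  have hl₁1 : 1 ≤ l₁ := by linarith
  have hl₁0 : 0 < l₁ := by linarith
  have hx0 : (0 : ℝ) < x := Nat.cast_pos.2 (by omega)
  have hkW : (1 : ℝ) ≤ k * W := by exact_mod_cast Nat.mul_pos hk hW
  have hKbig : 4 ≤ K ∧ 64 * Y * (78 + 56 * k + 2) ≤ K ∧ 64 * M * 3 * k * W ≤ K ∧
      128 * (k : ℝ) ^ 2 ≤ K ∧ 16 * C' + 64 * k * W ≤ K ∧ c' ≤ K := by
    have := hM.le
    have : 0 ≤ 64 * Y * (78 + 56 * (k : ℝ) + 2) := by positivity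
    have : 0 ≤ 64 * M * 3 * (k : ℝ) * W := by positivity
    have : 0 ≤ 128 * (k : ℝ) ^ 2 := by positivity
    have : 0 ≤ 64 * (k : ℝ) * W := by positivity
    have : 0 ≤ c' := hc' ▸ sq_nonneg _
    refine ⟨?_, ?_, ?_, ?_, ?_, ?_⟩ <;> linarith
  obtain ⟨hK4, hKY, hKM, hKk, hKC, hKc⟩ := hKbig
  -- the length
  obtain ⟨q, hq⟩ : ∃ q, q = l₁ * l₃ / l₂ ^ 2 := ⟨_, rfl⟩
  rw [one_mul, ← hq] at hq1
  have hq0 : 0 < q := by linarith
  have hql : q ≤ l₁ := by
    rw [hq, div_le_iff₀ (by positivity)]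
    refine mul_le_mul_of_nonneg_left ?_ hl₁0.le
    rw [sq]
    exact hl32.trans (le_mul_of_one_le_right (by linarith) (by linarith))
  obtain ⟨U, hU⟩ : ∃ U : ℕ, U = ⌈C' * (q * x)⌉₊ := ⟨_, rfl⟩
  have hUge : C' * (q * x) ≤ U := hU ▸ Nat.le_ceil _
  have hqx : (x : ℝ) ≤ q * x := le_mul_of_one_le_left hx0.le (by linarith)
  have hqx1 : (1 : ℝ) ≤ C' * (q * x) := (Nat.one_le_cast.2 (by omega : 1 ≤ x)).trans
    (hqx.trans (le_mul_of_one_le_left (by positivity) hC1))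
  have hUle : (U : ℝ) ≤ 2 * C' * (q * x) := by
    have := hU ▸ Nat.ceil_lt_add_one (show 0 ≤ C' * (q * x) by linarith)
    linarith
  have hxU : x ≤ U := Nat.cast_le.1 ((hqx.trans (le_mul_of_one_le_left (by positivity) hC1)).trans
    hUge)
  have hUl : (U : ℝ) ≤ 2 * C' * (l₁ * x) := hUle.trans (by gcongr)
  refine ⟨U, ?_, ?_⟩
  · rw [rate, ← hl₁, ← hl₂, ← hl₃,
      show (x : ℝ) * l₁ * l₃ / l₂ ^ 2 = q * x by rw [hq]; ring]
    exact (mul_le_mul_of_nonneg_right (hC' ▸ le_max_left C 1) (by positivity)).trans hUge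
  have hPl : l₁ ≤ P₀ := (le_self_pow₀ hl₁1 (by norm_num)).trans hP20
  have hP0 : (0 : ℝ) < P₀ := hl₁0.trans_le hPl
  -- the sieve
  obtain ⟨N, hN⟩ : ∃ N, N = U + k * W * x := ⟨_, rfl⟩
  obtain ⟨δ, hδ⟩ : ∃ δ : ℝ, δ = 1 / l₁ ^ 10 := ⟨_, rfl⟩
  have hδ0 : 0 ≤ δ := hδ ▸ by positivity
  have hδ1 : δ * l₁ ≤ 1 / l₁ := by
    rw [hδ, div_mul_eq_mul_div, one_mul, div_le_div_iff₀ (by positivity) hl₁0, one_mul, ← sq]
    exact pow_le_pow_right₀ hl₁1 (by norm_num)
  have hlogN : Real.log N ≤ 2 * l₁ := by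
    have hNx : (N : ℝ) ≤ x * x := by
      rw [hN]
      push_cast
      have h1 := mul_le_mul_of_nonneg_right ((mul_le_mul_of_nonneg_right hKC hl₁0.le).trans hKx)
        hx0.le
      have h2 := mul_le_mul_of_nonneg_left hl₁1 (show 0 ≤ (k : ℝ) * W * x by positivity)
      have h3 : 0 ≤ (14 * C' + 63 * ((k : ℝ) * W)) * (l₁ * x) := by positivity
      linarith
    refine (Real.log_le_log ?_ hNx).trans (le_of_eq ?_)
    · rw [hN]
      exact Nat.cast_pos.2 (by omega)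
    · rw [Real.log_mul hx0.ne' hx0.ne', hl₁]
      ring
  have hscale : SieveScale (sievingRange P₀ z) (2 * k) N P₀ δ := by
    refine ⟨fun s hs => (mem_filter.1 hs).2, fun s hs => (mem_Ioc.1 (mem_filter.1 hs).1).1,
      ?_, Nat.one_le_iff_ne_zero.2 fun h => ?_, ?_, ?_⟩
    · refine (Nat.cast_le (α := ℝ)).1 ?_
      push_cast
      have : (k : ℝ) ≤ (k : ℝ) ^ 2 := le_self_pow₀ (Nat.one_le_cast.2 hk) two_ne_zero
      linarith
    · rw [h, Nat.cast_zero] at hP0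
      exact lt_irrefl _ hP0
    · refine exp_le_of_small (div_nonneg (mul_nonneg (by positivity)
        (Real.log_natCast_nonneg N)) hP0.le) ?_ (hδ ▸ (div_le_one (by positivity)).2
          (one_le_pow₀ hl₁1))
      push_cast
      refine (mul_le_mul_of_nonneg_left (div_le_div₀ (by positivity)
        (mul_le_mul_of_nonneg_left hlogN (by positivity)) (by positivity) hP20) two_pos.le).trans ?_
      rw [hδ, ← mul_div_assoc, div_le_div_iff₀ (by positivity) (by positivity)]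
      calc 2 * (4 * (2 * (k : ℝ)) ^ 2 * (2 * l₁)) * l₁ ^ 10
          = (64 * (k : ℝ) ^ 2) * l₁ ^ 11 := by ring
        _ ≤ l₁ * l₁ ^ 11 := mul_le_mul_of_nonneg_right (by linarith) (by positivity)
        _ = 1 * l₁ ^ 12 := by ring
        _ ≤ 1 * l₁ ^ 20 := mul_le_mul_of_nonneg_left (pow_le_pow_right₀ hl₁1 (by norm_num))
            zero_le_one
    · push_cast
      refine (div_le_div_of_nonneg_left (by positivity) (by positivity) hP20).trans ?_
      rw [hδ, div_le_div_iff₀ (by positivity) (by positivity)]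
      calc (2 * (k : ℝ)) ^ 2 * l₁ ^ 10 ≤ l₁ * l₁ ^ 10 :=
            mul_le_mul_of_nonneg_right (by linarith) (by positivity)
        _ = 1 * l₁ ^ 11 := by ring
        _ ≤ 1 * l₁ ^ 20 := mul_le_mul_of_nonneg_left (pow_le_pow_right₀ hl₁1 (by norm_num))
            zero_le_one
  have hsmall : 4 * (k : ℝ) ^ 2 * Real.sqrt x ≤ δ * σ ^ (2 * k) * x := by
    have hroot : 4 * (k : ℝ) ^ 2 / c ^ (2 * k) * l₁ ^ (10 + 2 * k) ≤ Real.sqrt x := by
      refine Real.le_sqrt_of_sq_le ?_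
      rw [mul_pow, ← pow_mul, ← hc', mul_comm (10 + 2 * k)]
      exact (mul_le_mul_of_nonneg_right hKc (by positivity)).trans hpoly
    have h1 := mul_le_mul_of_nonneg_right hroot (Real.sqrt_nonneg (x : ℝ))
    rw [Real.mul_self_sqrt hx0.le, div_mul_eq_mul_div, div_mul_eq_mul_div,
      div_le_iff₀ (pow_pos hc _)] at h1
    refine le_trans ?_ (mul_le_mul_of_nonneg_right (mul_le_mul_of_nonneg_left
      (pow_le_pow_left₀ (div_nonneg hc.le hl₁0.le) hσc _) hδ0) hx0.le)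
    rw [hδ, div_pow, div_mul_div_comm, one_mul, div_mul_eq_mul_div, ← pow_add,
      le_div_iff₀ (by positivity)]
    linarith
  have hσU : σ * U ≤ 2 * Y * x := by
    refine (mul_le_mul hσM hUle (Nat.cast_nonneg U) (mul_nonneg hM.le
      (div_nonneg (sq_nonneg _) (mul_nonneg hl₁0.le (by linarith))))).trans (le_of_eq ?_)
    rw [hY, hq]
    field_simp
  -- the random choice
  obtain ⟨Q, hQ⟩ : ∃ Q, Q = (Ioc (k * W * x) U).filter Nat.Prime := ⟨_, rfl⟩
  obtain ⟨Q₀, hQ₀⟩ : ∃ Q₀, Q₀ = smoothUpTo U z ∪ primesUpTo (k * W * x) := ⟨_, rfl⟩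
  have hPtop : ∀ p ∈ topPrimes x, p.Prime ∧ k < p ∧ p ≤ x := fun p hp => by
    rw [topPrimes, mem_filter, mem_Ioc] at hp
    exact ⟨hp.2, by omega, hp.1.2⟩
  obtain ⟨a, b, hab⟩ := exists_random_choice (P := topPrimes x) (Q := Q) (Q₀ := Q₀) (U := U)
    (wmax := Real.sqrt x) (G := B * x) hscale hk hW (by omega)
    (fun p hp => ⟨(hPtop p hp).1, (hPtop p hp).2.1⟩)
    (fun p hp => hN ▸ Nat.add_le_add_left (Nat.mul_le_mul_left _ (hPtop p hp).2.2) _)
    (fun n hn => by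
      rw [hQ, mem_filter, mem_Ioc] at hn
      exact ⟨hn.1.2, fun p hp => (Nat.mul_le_mul_left _ (hPtop p hp).2.2).trans_lt hn.1.1⟩)
    (Real.sqrt_nonneg _) (fun p _ t => ⟨hw0 p t, hwmax p t⟩) (fun p hp => hmass p hp U hxU)
    (by positivity) (fun n hn => by
      rw [hQ, mem_filter, mem_Ioc] at hn
      exact hgain n hn.2 hn.1.1)
    (by rw [← hσ]; exact hsmall.trans (mul_le_mul_of_nonneg_left (Nat.cast_le.2 hxU)
      (mul_nonneg hδ0 (pow_nonneg ((div_nonneg hc.le hl₁0.le).trans hσc) _))))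
    (by rw [← hσ]; exact hsmall.trans (mul_le_mul_of_nonneg_left (le_mul_of_one_le_left hx0.le hB1)
      (mul_nonneg hδ0 (pow_nonneg ((div_nonneg hc.le hl₁0.le).trans hσc) _))))
  refine exists_residues_of_choice (T := Q ∪ Q₀) (a := a) (b := b) hPz hzx
    (fun n hn hzero => ?_) ?_
  · have hUP : U ≤ P₀ * (x / 4) := by
      refine Nat.cast_le (α := ℝ) |>.1 (hUl.trans ?_)
      push_cast
      have h8 : (x : ℝ) / 8 ≤ ((x / 4 : ℕ) : ℝ) := by
        rw [div_le_iff₀ (by norm_num)]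
        exact_mod_cast (show x ≤ x / 4 * 8 by omega)
      refine le_trans ?_ (mul_le_mul hP20 h8 (by positivity) hP0.le)
      have h1 := mul_le_mul_of_nonneg_right (mul_le_mul_of_nonneg_left
        (show 16 * C' ≤ l₁ by linarith [show 0 ≤ 64 * (k : ℝ) * W by positivity]) hl₁0.le) hx0.le
      have h2 := mul_le_mul_of_nonneg_right (pow_le_pow_right₀ hl₁1 (show 2 ≤ 20 by norm_num))
        hx0.le
      linarith
    rcases smooth_or_prime (hPz.trans hzx) hUP hn hzero with h | h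
    · exact mem_union_right _ (hQ₀ ▸ mem_union_left _ h)
    · rcases le_or_gt n (k * W * x) with hnk | hnk
      · exact mem_union_right _ (hQ₀ ▸ mem_union_right _ (mem_primesUpTo.2 ⟨h, hnk⟩))
      · exact mem_union_left _ (hQ ▸ mem_filter.2 ⟨mem_Ioc.2 ⟨hnk, (mem_Icc.1 hn).2⟩, h⟩)
  -- what is left
  refine Nat.cast_le (α := ℝ) |>.1 (hab.trans (le_trans ?_ hmid))
  rw [← hσ]
  have hσ0 : 0 < σ := (div_pos hc hl₁0).trans_le hσc
  have hU0 : (0 : ℝ) < U := Nat.cast_pos.2 (by omega)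
  have hQU : σ * Q.card ≤ 4 * Y * (x / l₁) := by
    have hQπ : (Q.card : ℝ) ≤ 2 * U / l₁ := by
      refine le_trans (Nat.cast_le.2 (card_le_card ?_)) ((card_primesUpTo U).le.trans (hpi U hxU))
      intro p hp
      rw [hQ, mem_filter, mem_Ioc] at hp
      exact mem_primesUpTo.2 ⟨hp.2, hp.1.2⟩
    refine (mul_le_mul_of_nonneg_left hQπ hσ0.le).trans ?_
    rw [← mul_div_assoc, ← mul_div_assoc (4 * Y)]
    exact div_le_div_of_nonneg_right (by linarith) hl₁0.le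
  have hxl : 0 ≤ (x : ℝ) / l₁ := by positivity
  have t1 : σ * Q.card * Real.exp (-(B * x / (8 * σ * U))) ≤ (x / l₁) / 64 := by
    have he : Real.exp (-(B * x / (8 * σ * U))) ≤ 16 * Y / B := by
      rw [Real.exp_neg]
      have h1 := Real.add_one_le_exp (B * x / (8 * σ * U))
      refine (inv_anti₀ (show 0 < B / (16 * Y) by positivity) ?_).trans_eq (inv_div _ _)
      refine le_trans ?_ (le_trans (le_add_of_nonneg_right zero_le_one) h1)
      rw [div_le_div_iff₀ (by positivity) (by positivity)]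
      have := mul_le_mul_of_nonneg_left hσU (show 0 ≤ 8 * B by linarith)
      linarith
    refine (mul_le_mul hQU he (Real.exp_pos _).le (by positivity)).trans ?_
    rw [show 4 * Y * (x / l₁) * (16 * Y / B) = (64 * Y ^ 2 / B) * (x / l₁) by ring,
      div_eq_mul_one_div _ (64 : ℝ), mul_comm _ ((1 : ℝ) / 64)]
    refine mul_le_mul_of_nonneg_right ?_ hxl
    rw [div_le_div_iff₀ (by linarith) (by norm_num)]
    have := sq_nonneg Y
    linarith
  have hl9 : δ * 1 ≤ 1 / l₁ := (mul_le_mul_of_nonneg_left hl₁1 hδ0).trans hδ1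
  have hsmallY : ∀ m : ℝ, 0 ≤ m → m ≤ 78 + 56 * k + 2 → Y * m * (1 / l₁) ≤ 1 / 64 := by
    intro m hm hmK
    rw [mul_one_div, div_le_div_iff₀ hl₁0 (by norm_num)]
    have := mul_le_mul_of_nonneg_left hmK hY0.le
    linarith
  have t2 : σ * Q.card * (13 * δ) ≤ (x / l₁) / 64 := by
    refine (mul_le_mul_of_nonneg_right hQU (by positivity)).trans ?_
    have h1 := hsmallY 52 (by norm_num) (by linarith [show (0 : ℝ) ≤ 56 * k by positivity])
    have h2 := mul_le_mul_of_nonneg_left hl9 (show 0 ≤ Y * 52 by positivity)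
    have h3 := mul_le_mul_of_nonneg_left (h2.trans h1) hxl
    linarith
  have t3 : 28 * k * δ * σ * U * (topPrimes x).card / (B * x) ≤ (x / l₁) / 64 := by
    have hPx : ((topPrimes x).card : ℝ) ≤ x := by
      refine Nat.cast_le.2 ((card_filter_le _ _).trans ?_)
      rw [Nat.card_Ioc]
      omega
    refine (div_le_iff₀ (by positivity)).2 ((mul_le_mul (show _ ≤ 28 * k * δ * (2 * Y * x) by
      rw [mul_assoc (28 * (k : ℝ) * δ)]
      exact mul_le_mul_of_nonneg_left hσU (by positivity)) hPx (Nat.cast_nonneg _)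
      (by positivity)).trans ?_)
    have h2 := mul_le_mul_of_nonneg_left hδ1 (show 0 ≤ Y * (56 * k) by positivity)
    have h3 := h2.trans (hsmallY (56 * k) (by positivity) (by linarith))
    have h4 := mul_le_mul_of_nonneg_left h3 (show 0 ≤ (x : ℝ) / l₁ * x by positivity)
    have h5 := mul_le_mul_of_nonneg_left hB1 (show 0 ≤ (x : ℝ) / l₁ / 64 * x by positivity)
    have h6 : 28 * (k : ℝ) * δ * (2 * Y * x) * x =
        (x : ℝ) / l₁ * x * (Y * (56 * k) * (δ * l₁)) := by field_simp; ring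
    linarith
  have t4 : σ * Q₀.card ≤ (x / l₁) / 32 := by
    have h0 : (Q₀.card : ℝ) ≤ U / l₁ ^ 2 + 2 * ((k * W * x : ℕ) : ℝ) / l₁ := by
      rw [hQ₀]
      refine (Nat.cast_le.2 (card_union_le _ _)).trans ?_
      rw [Nat.cast_add, card_primesUpTo]
      refine add_le_add ?_ (hpi _ (Nat.le_mul_of_pos_left x (Nat.mul_pos hk hW)))
      rw [hl₁]
      exact hsmooth U z hxU hz2 hlogz
    refine (mul_le_mul_of_nonneg_left h0 hσ0.le).trans ?_
    push_cast
    have h1 : σ * (U / l₁ ^ 2) ≤ (x / l₁) / 64 := by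
      rw [← mul_div_assoc]
      refine (div_le_div_of_nonneg_right hσU (sq_nonneg _)).trans ?_
      have h2 := mul_le_mul_of_nonneg_left (hsmallY 2 (by norm_num)
        (by linarith [show (0 : ℝ) ≤ 56 * k by positivity])) hxl
      have h3 : 2 * Y * x / l₁ ^ 2 = x / l₁ * (Y * 2 * (1 / l₁)) := by ring
      linarith
    have h2 : σ * (2 * (k * W * x) / l₁) ≤ (x / l₁) / 64 := by
      refine (mul_le_mul_of_nonneg_right hσM (by positivity)).trans ?_
      have h3 : M * 2 * (k * W) * (l₂ ^ 2 / (l₁ * l₃)) ≤ 1 / 64 := by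
        rw [← mul_div_assoc, div_le_div_iff₀ (mul_pos hl₁0 (by linarith)) (by norm_num)]
        have h4 := (mul_le_mul_of_nonneg_right hKM (sq_nonneg l₂)).trans hKl2
        have h5 := le_mul_of_one_le_right hl₁0.le h3
        have h6 : 0 ≤ M * (k * W) * l₂ ^ 2 := by positivity
        linarith
      have h4 := mul_le_mul_of_nonneg_left h3 hxl
      have h5 : M * (l₂ ^ 2 / (l₁ * l₃)) * (2 * (k * W * x) / l₁) =
          x / l₁ * (M * 2 * (k * W) * (l₂ ^ 2 / (l₁ * l₃))) := by ring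
      linarith
    rw [mul_add]
    linarith
  have e : (x : ℝ) / (8 * l₁) = x / l₁ / 8 := by ring
  rw [e, mul_add]
  linarith

end FA.MaynardGaps
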