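import Fermat.Agent.MaynardGaps.Covering
import Fermat.Agent.RankinGaps.Gaps

/-!
# Gaps beyond every multiple of Rankin's bound

The covering for every `C` gives, as for Rankin, gaps of length
`C log p log log p log log log log p / (log log log p) ^ 2`, for every `C`.
-/

set_option autoImplicit false

noncomputable section

namespace FA.MaynardGaps

open Finset Filter Nat.Prime
open scoped Topology Nat.Prime
open FA.RankinGaps

/-- Consecutive numbers, each with a prime factor `≤ x`. -/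
theorem exists_run (C : ℝ) : ∀ᶠ x : ℕ in atTop, ∃ n₀ H : ℕ, C * rate x ≤ H ∧
    4 ^ x ≤ n₀ ∧ n₀ ≤ 32 ^ x ∧ ∀ j ∈ Icc 1 H, ∃ p ≤ x, p.Prime ∧ p ∣ n₀ + j := by
  filter_upwards [exists_covering C, eventually_ge_atTop 1] with x hx hx1
  obtain ⟨H, hH, r, hr⟩ := hx
  have hne : ∀ p ∈ (range (x + 1)).filter Nat.Prime, id p ≠ 0 := fun p hp =>
    (mem_filter.1 hp).2.ne_zero
  have hco : Set.Pairwise (↑((range (x + 1)).filter Nat.Prime)) (Nat.Coprime.onFun id) :=
    fun p hp q hq hpq => (Nat.coprime_primes (mem_filter.1 hp).2 (mem_filter.1 hq).2).2 hpq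
  obtain ⟨k, hk, hkP⟩ : ∃ k, (∀ p ∈ (range (x + 1)).filter Nat.Prime,
      k ≡ p - r p % p [MOD p]) ∧ k < primorial x :=
    ⟨_, (Nat.chineseRemainderOfFinset (fun p => p - r p % p) id _ hne hco).2,
      Nat.chineseRemainderOfFinset_lt_prod _ _ hne hco⟩
  have hP1 : 1 ≤ primorial x := primorial_pos x
  refine ⟨k + 4 ^ x * primorial x, H, hH, (Nat.le_mul_of_pos_right _ hP1).trans
    (Nat.le_add_left _ _), ?_, fun j hj => ?_⟩
  · calc k + 4 ^ x * primorial x ≤ (1 + 4 ^ x) * primorial x := by linarith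
      _ ≤ 2 * 4 ^ x * 4 ^ x := Nat.mul_le_mul (by have := Nat.one_le_pow x 4 (by norm_num); omega)
          (primorial_le_four_pow x)
      _ ≤ 2 ^ x * 4 ^ x * 4 ^ x := Nat.mul_le_mul_right _ (Nat.mul_le_mul_right _
          (le_self_pow₀ (by norm_num) (by omega)))
      _ = 32 ^ x := by rw [← mul_pow, ← mul_pow]; norm_num
  · obtain ⟨p, hpx, hp, hjp⟩ := hr j hj
    refine ⟨p, hpx, hp, ?_⟩
    have hmem : p ∈ (range (x + 1)).filter Nat.Prime :=
      mem_filter.2 ⟨mem_range.2 (by omega), hp⟩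
    have hdvd : p ∣ 4 ^ x * primorial x :=
      (dvd_prod_of_mem _ hmem : p ∣ primorial x).mul_left _
    rw [add_right_comm]
    refine (Nat.dvd_add_right ?_).2 hdvd |>.trans (dvd_of_eq rfl)
    have h1 : k + j ≡ p - r p % p + r p % p [MOD p] :=
      (hk p hmem).add (hjp.trans (Nat.mod_modEq _ _).symm)
    rw [Nat.sub_add_cancel (Nat.mod_lt _ hp.pos).le] at h1
    exact Nat.modEq_zero_iff_dvd.1 (h1.trans (Nat.modEq_zero_iff_dvd.2 dvd_rfl))

/-- A gap longer than `C · rate x` after a prime in `[4 ^ x / 2, 32 ^ x]`. -/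
theorem exists_gap (C : ℝ) : ∀ᶠ x : ℕ in atTop, ∃ i : ℕ,
    4 ^ x ≤ 2 * Nat.nth Nat.Prime i ∧ Nat.nth Nat.Prime i ≤ 32 ^ x ∧
      C * rate x ≤ (Nat.nth Nat.Prime (i + 1) : ℝ) - Nat.nth Nat.Prime i := by
  filter_upwards [exists_run C, eventually_gt_atTop 2] with x hx hx2
  obtain ⟨n₀, H, hH, h4, h32, hrun⟩ := hx
  have hxn : x < n₀ := (Nat.lt_pow_self (by norm_num)).trans_le h4
  obtain ⟨i, hi, hi'⟩ : ∃ i, Nat.nth Nat.Prime i ≤ n₀ ∧ n₀ < Nat.nth Nat.Prime (i + 1) := by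
    refine ⟨Nat.count Nat.Prime (n₀ + 1) - 1, ?_, ?_⟩
    · have hc : Nat.count Nat.Prime (n₀ + 1) - 1 < Nat.count Nat.Prime (n₀ + 1) := by
        have : 0 < Nat.count Nat.Prime (n₀ + 1) :=
          lt_of_le_of_lt (Nat.zero_le _) (Nat.count_strict_mono Nat.prime_two (by omega) :
            Nat.count Nat.Prime 2 < Nat.count Nat.Prime (n₀ + 1))
        omega
      exact Nat.lt_succ_iff.1 (Nat.nth_lt_of_lt_count hc)
    · refine lt_of_lt_of_le (Nat.lt_succ_self n₀) ?_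
      refine le_trans (Nat.le_nth_count Nat.infinite_setOfPred_prime (n₀ + 1)) ?_
      exact Nat.nth_monotone Nat.infinite_setOfPred_prime (show Nat.count Nat.Prime (n₀ + 1) ≤
        Nat.count Nat.Prime (n₀ + 1) - 1 + 1 by omega)
  have hqp : (Nat.nth Nat.Prime (i + 1)).Prime := Nat.prime_nth_prime _
  have hgap : n₀ + H < Nat.nth Nat.Prime (i + 1) := by
    by_contra hle
    obtain ⟨p, hpx, hp, hpd⟩ :=
      hrun (Nat.nth Nat.Prime (i + 1) - n₀) (mem_Icc.2 ⟨by omega, by omega⟩)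
    rw [Nat.add_sub_cancel' hi'.le] at hpd
    have := (Nat.prime_dvd_prime_iff_eq hp hqp).1 hpd
    omega
  have htwo : Nat.nth Nat.Prime (i + 1) ≤ 2 * Nat.nth Nat.Prime i := by
    obtain ⟨q, hq, hlt, hle⟩ :=
      Nat.exists_prime_lt_and_le_two_mul _ (Nat.prime_nth_prime i).ne_zero
    obtain ⟨k, rfl⟩ : ∃ k, Nat.nth Nat.Prime k = q := ⟨_, Nat.nth_count hq⟩
    exact le_trans (Nat.nth_monotone Nat.infinite_setOfPred_prime
      ((Nat.nth_lt_nth Nat.infinite_setOfPred_prime).1 hlt)) hle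
  refine ⟨i, by omega, hi.trans h32, hH.trans ?_⟩
  rw [le_sub_iff_add_le]
  exact_mod_cast (show H + Nat.nth Nat.Prime i ≤ Nat.nth Nat.Prime (i + 1) by omega)

/-- The largest gap below `X`. -/
theorem eventually_large_gap {C : ℝ} (hC : 0 ≤ C) : ∀ᶠ X : ℕ in atTop, ∃ i : ℕ,
    Nat.nth Nat.Prime i ≤ X ∧
      C * rate (Real.log X) ≤ (Nat.nth Nat.Prime (i + 1) : ℝ) - Nat.nth Nat.Prime i := by
  obtain ⟨x₀, hx₀⟩ := eventually_atTop.1
    (((exists_gap (128 * C)).and eventually_rate_le).and (eventually_ge_atTop 1))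
  filter_upwards [eventually_ge_atTop (32 ^ x₀)] with X hX
  have hX0 : X ≠ 0 := (Nat.lt_of_lt_of_le (pow_pos (by norm_num) _) hX).ne'
  obtain ⟨⟨⟨i, -, hi, hg⟩, hR⟩, hx1⟩ :=
    hx₀ (Nat.log 32 X) (Nat.le_log_of_pow_le (by norm_num) hX)
  refine ⟨i, hi.trans (Nat.pow_log_le_self 32 hX0), le_trans ?_ hg⟩
  have hup := Real.log_le_log (Nat.cast_pos.2 (Nat.pos_of_ne_zero hX0))
    (Nat.cast_le.2 (Nat.lt_pow_succ_log_self (show 1 < 32 by norm_num) X).le :
      (X : ℝ) ≤ ((32 ^ (Nat.log 32 X + 1) : ℕ) : ℝ))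
  have hlo := Real.log_le_log (by positivity)
    (Nat.cast_le.2 (Nat.pow_log_le_self 32 hX0) : ((32 ^ Nat.log 32 X : ℕ) : ℝ) ≤ X)
  have h32 : Real.log 32 = 5 * Real.log 2 := by
    rw [show (32 : ℝ) = 2 ^ 5 by norm_num, Real.log_pow]
    norm_num
  rw [Nat.cast_pow, Real.log_pow, Nat.cast_ofNat, h32] at hup hlo
  push_cast at hup
  have hx : (1 : ℝ) ≤ (Nat.log 32 X : ℕ) := Nat.one_le_cast.2 hx1
  have := hR (Real.log X) (by nlinarith [Real.log_two_gt_d9]) (by nlinarith [Real.log_two_lt_d9])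
  linarith [mul_le_mul_of_nonneg_left this hC]

/-- **Gaps beyond every multiple of Rankin's bound.** -/
theorem frequently_large_gap (C : ℝ) : ∃ᶠ i : ℕ in atTop,
    C * (Real.log (Nat.nth Nat.Prime i) * Real.log (Real.log (Nat.nth Nat.Prime i)) *
        Real.log (Real.log (Real.log (Real.log (Nat.nth Nat.Prime i)))) /
        Real.log (Real.log (Real.log (Nat.nth Nat.Prime i))) ^ 2) ≤
      (Nat.nth Nat.Prime (i + 1) : ℝ) - Nat.nth Nat.Prime i := by
  obtain ⟨K, hK⟩ : ∃ K, K = max C 0 := ⟨_, rfl⟩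
  have hl : Tendsto (fun i : ℕ => Real.log (Nat.nth Nat.Prime i)) atTop atTop :=
    Real.tendsto_log_atTop.comp (tendsto_natCast_atTop_atTop.comp
      (Nat.nth_strictMono Nat.infinite_setOfPred_prime).tendsto_atTop)
  have hpos : ∀ᶠ i : ℕ in atTop, 0 ≤ rate (Real.log (Nat.nth Nat.Prime i)) := by
    filter_upwards [hl.eventually_ge_atTop 1,
      (Real.tendsto_log_atTop.comp (Real.tendsto_log_atTop.comp hl)).eventually_ge_atTop 1]
      with i h1 h3
    exact div_nonneg (mul_nonneg (mul_nonneg (by linarith) (Real.log_nonneg h1))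
      (Real.log_nonneg h3)) (sq_nonneg _)
  have hfr : ∃ᶠ i : ℕ in atTop, K * rate (Real.log (Nat.nth Nat.Prime i)) ≤
      (Nat.nth Nat.Prime (i + 1) : ℝ) - Nat.nth Nat.Prime i := by
    refine frequently_atTop.2 fun i₀ => ?_
    obtain ⟨x, ⟨⟨i, h4, hi, hg⟩, hR⟩, hx⟩ := (((exists_gap (128 * K)).and eventually_rate_le).and
      (eventually_gt_atTop (2 * Nat.nth Nat.Prime i₀))).exists
    refine ⟨i, ?_, le_trans ?_ hg⟩
    · by_contra hlt
      have : Nat.nth Nat.Prime i ≤ Nat.nth Nat.Prime i₀ :=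
        Nat.nth_monotone Nat.infinite_setOfPred_prime (not_le.1 hlt).le
      have := (Nat.lt_pow_self (show 1 < 4 by norm_num) (n := x))
      omega
    have hp : (0 : ℝ) < Nat.nth Nat.Prime i := Nat.cast_pos.2 (Nat.prime_nth_prime i).pos
    have hup := Real.log_le_log hp
      (Nat.cast_le.2 hi : (Nat.nth Nat.Prime i : ℝ) ≤ ((32 ^ x : ℕ) : ℝ))
    have hlo := Real.log_le_log (by positivity)
      (Nat.cast_le.2 h4 : ((4 ^ x : ℕ) : ℝ) ≤ ((2 * Nat.nth Nat.Prime i : ℕ) : ℝ))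
    have h32 : Real.log 32 = 5 * Real.log 2 := by
      rw [show (32 : ℝ) = 2 ^ 5 by norm_num, Real.log_pow]
      norm_num
    have h22 : Real.log 4 = 2 * Real.log 2 := by
      rw [show (4 : ℝ) = 2 ^ 2 by norm_num, Real.log_pow]
      norm_num
    rw [Nat.cast_pow, Real.log_pow, Nat.cast_ofNat, h32] at hup
    rw [Nat.cast_pow, Real.log_pow, Nat.cast_ofNat, h22, Nat.cast_mul, Nat.cast_ofNat,
      Real.log_mul two_ne_zero hp.ne'] at hlo
    have hx1 : (1 : ℝ) ≤ x := Nat.one_le_cast.2 (by omega)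
    have := hR _ (show (x : ℝ) / 2 ≤ Real.log (Nat.nth Nat.Prime i) by
      nlinarith [Real.log_two_gt_d9]) (by nlinarith [Real.log_two_lt_d9])
    linarith [mul_le_mul_of_nonneg_left this (hK ▸ le_max_right C 0)]
  refine (hfr.and_eventually hpos).mono fun i hi => le_trans ?_ hi.1
  exact mul_le_mul_of_nonneg_right (hK ▸ le_max_left C 0) hi.2

end FA.MaynardGaps
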